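import Fermat.Agent.S43Glue.Main
import Fermat.Agent.TWInst.Rep
import Fermat.Agent.TW56.Fin
import Fermat.Agent.PicFlat.Final
import Fermat.Agent.GalRep.WrapRes
import Fermat.Agent.RT.T11St
import Fermat.Agent.RT.HTW2

/-!
# Residual representations (matrix form)
-/

set_option autoImplicit false
set_option maxHeartbeats 400000

noncomputable section

namespace Fermat.Agent.TWG

open IsLocalRing Matrix Fermat.Agent.DefRing Fermat.Agent.GalRep Fermat.Agent.S43Glue CuspForm
  Fermat.Agent.TWGal GaloisRep Fermat.Agent.TWPatch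
  Fermat.Agent.TW56 Fermat.Agent.TWInst

local notation "Qbar" => AlgebraicClosure ℚ

variable {p : ℕ} [hpf : Fact p.Prime]

/-- the residual representations considered -/
structure SSRep (p : ℕ) [Fact p.Prime] (ρ : GQ →* Matrix (Fin 2) (Fin 2) (ZMod p)) : Prop where
  level : FinLevel ρ
  det : ∀ g, (ρ g).det = chiK p (ZMod p) g
  span : ∀ G : Subgroup GQ, G.index = 1 ∨ G.index = 2 →
    Submodule.span (ZMod p) (ρ '' (G : Set GQ)) = ⊤
  unip : ∀ q : ℕ, q.Prime → q ≠ p → ∀ A : ValuationSubring Qbar, A.LiesOverPrime q →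
    ∀ σ ∈ A.inertiaSubgroupIn ℚ, (ρ σ - 1) * (ρ σ - 1) = 0

theorem SSRep.span_top {ρ : GQ →* Matrix (Fin 2) (Fin 2) (ZMod p)} (hρ : SSRep p ρ) :
    Submodule.span (ZMod p) (Set.range ρ) = ⊤ := by
  have := hρ.span ⊤ (Or.inl Subgroup.index_top)
  rwa [Subgroup.coe_top, Set.image_univ] at this

/-- unramified at `q` -/
def UnrAt (ρ : GQ →* Matrix (Fin 2) (Fin 2) (ZMod p)) (q : ℕ) : Prop :=
  ∀ A : ValuationSubring Qbar, A.LiesOverPrime q → ∀ σ ∈ A.inertiaSubgroupIn ℚ, ρ σ = 1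

/-- flat at `p` -/
def FlatRes (p : ℕ) [Fact p.Prime] (ρ : GQ →* Matrix (Fin 2) (Fin 2) (ZMod p)) : Prop :=
  FlatLoc.IsFlatMod (FlatLoc.Zloc p) (FlatLoc.vb ρ)

/-- a representation modular of level prime to `p` is flat at `p` -/
theorem flatRes_of_hmod (hp2 : p ≠ 2) {ρ : GQ →* Matrix (Fin 2) (Fin 2) (ZMod p)}
    (hρ : SSRep p ρ) {M : ℕ} [NeZero M] (hpM : ¬ p ∣ M) {S : Set ℕ} (hS : S.Finite)
    (hpS : p ∈ S) (h : HMod ρ M S) : FlatRes p ρ := by
  obtain ⟨θ, hθ⟩ := h
  have hpm : (p : ZMod p) ∈ maximalIdeal (ZMod p) := by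
    rw [CharP.cast_eq_zero]
    exact zero_mem _
  haveI : IsAdicComplete (maximalIdeal (ZMod p)) (ZMod p) := by
    rw [IsLocalRing.maximalIdeal_eq_bot]
    infer_instance
  have hT : MatCont ρ := by
    intro n
    obtain ⟨L, hL, h1⟩ := hρ.level
    refine ⟨L, hL, fun σ hσ i j => ?_⟩
    rw [h1 σ hσ, sub_self]
    exact zero_mem _
  have hfr : HData.FrobCond (piH (p := p) θ) ρ := by
    intro ℓ hℓ hℓM hℓS A hA τ hτ
    refine ⟨?_, ?_⟩
    · rw [piH_T _ hℓ hℓM hℓS]
      exact hθ ℓ hℓ _ hℓS A hA τ hτ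
    · rw [hρ.det, chiK_frob p _ hℓ hA (fun h => hℓS (h ▸ hpS)) hτ]
  have h1 := FlatHopf.isFlatMod_of_S19 (PicFlat.s19Hyp M hpf.out hpM) hS hp2 hpm _ hT hfr
    hρ.span_top (RingHom.id (ZMod p)) ⟨1, by rw [pow_one, CharP.cast_eq_zero]⟩
  have h2 : mapT (RingHom.id (ZMod p)) ρ = ρ := by
    ext g i j
    rfl
  rw [h2] at h1
  exact h1

variable {k : Type} [Field k] [Finite k] [Algebra (ZMod p) k]

/-- flatness descends from an extension of the coefficient field -/
theorem flatRes_of_ext {ρ : GQ →* Matrix (Fin 2) (Fin 2) (ZMod p)}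
    (h : FlatLoc.IsFlatMod (FlatLoc.Zloc p) (FlatLoc.vk (FlatLoc.rk k ρ))) : FlatRes p ρ := by
  classical
  have hR := FlatLoc.isBase_Zloc hpf.out
  -- a retraction of the inclusion
  obtain ⟨π, hπ⟩ : ∃ π : k →ₗ[ZMod p] ZMod p, π 1 = 1 := by
    have hne : (1 : k) ≠ 0 := one_ne_zero
    obtain ⟨f, hf⟩ := Module.Projective.exists_dual_ne_zero (ZMod p) hne
    refine ⟨(f 1)⁻¹ • f, ?_⟩
    rw [LinearMap.smul_apply, smul_eq_mul, inv_mul_cancel₀ hf]
  refine h.subquot hR ⊤ (fun _ _ _ => trivial)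
    (AddMonoidHom.mk' (fun x i => π (x i)) fun x y => by
      funext i
      simp only [Pi.add_apply, map_add]) ?_ ?_
  · intro σ x _
    change (fun i => π (((ρ σ).map (algebraMap (ZMod p) k) *ᵥ x) i)) = ρ σ *ᵥ (fun i => π (x i))
    funext i
    simp only [Matrix.mulVec, dotProduct, map_sum, Matrix.map_apply]
    refine Finset.sum_congr rfl fun j _ => ?_
    rw [← Algebra.smul_def, map_smul, smul_eq_mul]
  · intro w
    refine ⟨fun i => algebraMap (ZMod p) k (w i), trivial, ?_⟩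
    funext i
    change π (algebraMap (ZMod p) k (w i)) = w i
    rw [Algebra.algebraMap_eq_smul_one, map_smul, hπ, smul_eq_mul, mul_one]

/-- irreducible from the span -/
theorem irr_matResRep {K : Type} [Field K] {T : GQ →* Matrix (Fin 2) (Fin 2) K}
    (hT : ∃ L : IntermediateField ℚ Qbar, FiniteDimensional ℚ L ∧
        ∀ σ : GQ, (∀ x ∈ L, σ x = x) → T σ = 1)
    (hspan : Submodule.span K (Set.range T) = ⊤) : (matResRep T hT).IsIrreducible := by
  intro W hW
  by_cases hbot : W = ⊥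
  · exact Or.inl hbot
  right
  obtain ⟨v, hv, hv0⟩ := (Submodule.ne_bot_iff _).mp hbot
  have hall : ∀ X : Matrix (Fin 2) (Fin 2) K, ∀ x : Fin 2 → K, (show (matResRep T hT).V from x) ∈ W →
      (show (matResRep T hT).V from X *ᵥ x) ∈ W := by
    intro X x hx
    have hX : X ∈ Submodule.span K (Set.range T) := by rw [hspan]; trivial
    induction hX using Submodule.span_induction with
    | mem Y hY =>
      obtain ⟨σ, rfl⟩ := hY
      have := hW σ _ hx
      exact this
    | zero =>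
      have e : (0 : Matrix (Fin 2) (Fin 2) K) *ᵥ x = 0 := Matrix.zero_mulVec x
      rw [e]
      exact W.zero_mem
    | add Y Z _ _ hY hZ =>
      have e : (Y + Z) *ᵥ x = Y *ᵥ x + Z *ᵥ x := Matrix.add_mulVec Y Z x
      rw [e]
      exact W.add_mem hY hZ
    | smul a Y _ hY =>
      have e : (a • Y) *ᵥ x = a • (Y *ᵥ x) := Matrix.smul_mulVec a Y x
      rw [e]
      exact W.smul_mem a hY
  rw [eq_top_iff]
  intro w _
  obtain ⟨i, hi⟩ : ∃ i, v i ≠ 0 := by
    by_contra hcon
    push Not at hcon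
    exact hv0 (funext hcon)
  have h1 := hall (Matrix.of fun a b => if b = i then w a * (v i)⁻¹ else 0) v hv
  have e : (Matrix.of fun a b => if b = i then w a * (v i)⁻¹ else 0) *ᵥ v = w := by
    funext a
    change ∑ j, (Matrix.of fun a b => if b = i then w a * (v i)⁻¹ else 0) a j * v j = w a
    rw [Finset.sum_eq_single i]
    · rw [Matrix.of_apply, if_pos rfl, mul_assoc, inv_mul_cancel₀ hi, mul_one]
    · intro j _ hj
      rw [Matrix.of_apply, if_neg hj, zero_mul]
    · intro h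
      exact absurd (Finset.mem_univ _) h
  rw [e] at h1
  exact h1

/-- absolutely irreducible from the span -/
theorem absIrr_matResRep (hp2 : p ≠ 2) {T : GQ →* Matrix (Fin 2) (Fin 2) k}
    (hT : ∃ L : IntermediateField ℚ Qbar, FiniteDimensional ℚ L ∧
        ∀ σ : GQ, (∀ x ∈ L, σ x = x) → T σ = 1)
    (hspan : Submodule.span k (Set.range T) = ⊤)
    (hdet : ∀ σ, (T σ).det = algebraMap (ZMod p) k (chiK p (ZMod p) σ)) :
    (matResRep T hT).IsAbsolutelyIrreducible := by
  intro W hW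
  refine RT.irr_baseChange (F := k) (K := AlgebraicClosure k) (matResRep T hT).finrank_eq
    (RT.two_ne_zero_of hp2 (algebraMap (ZMod p) k)) (matResRep T hT).ρ
    (fun W hW => irr_matResRep hT hspan W hW)
    (c := (complexConjugation : GQ)) complexConjugation_mul_self ?_ W hW
  change LinearMap.det (Matrix.toLin' (T _)) = _
  rw [LinearMap.det_toLin', hdet, LR.chi_conj, map_neg, map_one]

end Fermat.Agent.TWG
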