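import Fermat.Agent.RT.LowSt
import Fermat.Agent.Newform.New

/-!
# Raising the level
-/

set_option autoImplicit false
set_option maxHeartbeats 400000

noncomputable section

namespace Fermat.Agent.TWG

open Fermat.Agent.S43Glue CuspForm Fermat.Agent.DefRing

local notation "Qbar" => AlgebraicClosure ℚ

/-- restriction of Hecke operators to old forms -/
theorem exists_restrict {M N : ℕ} [NeZero M] [NeZero N] (hMN : M ∣ N) {S : Set ℕ}
    (hNS : ∀ r : ℕ, r.Prime → r ∣ N → r ∈ S) :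
    ∃ R : heckeAlgebra N 2 S →+* heckeAlgebra M 2 S,
      ∀ (ℓ : ℕ) (hℓ : ℓ.Prime) (hℓM : ¬ ℓ ∣ M) (hℓN : ¬ ℓ ∣ N) (hℓS : ℓ ∉ S),
        R (heckeAlgebra.T hℓ hℓN hℓS) = heckeAlgebra.T hℓ hℓM hℓS := by
  have h1 : M * 1 ∣ N := by rwa [mul_one]
  let b := Newform.bL M N 1 one_ne_zero h1
  have hb : Function.Injective b := Newform.bL_injective one_ne_zero h1
  have hT : ∀ (ℓ : ℕ) (hℓ : ℓ.Prime) (hℓM : ¬ ℓ ∣ M) (hℓN : ¬ ℓ ∣ N)
      (f : CuspForm (CongruenceSubgroup.Gamma0 M) 2),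
      b (heckeTLin 2 hℓ hℓM f) = heckeTLin 2 hℓ hℓN (b f) := by
    intro ℓ hℓ hℓM hℓN f
    have h2 := Newform.bL_heckeOp (M := M) (N := N) one_ne_zero h1 hℓ
      (fun h => hℓ.one_lt.ne' (Nat.dvd_one.mp h)) (fun h => absurd h hℓN) f
    rw [DSLift.heckeOp_of_not_dvd hℓ hℓM, DSLift.heckeOp_of_not_dvd hℓ hℓN] at h2
    exact h2
  have key : ∀ t : heckeAlgebra N 2 S, ∃ t' : heckeAlgebra M 2 S,
      ∀ f, b ((t' : Module.End ℂ (CuspForm (CongruenceSubgroup.Gamma0 M) 2)) f) =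
        (t : Module.End ℂ (CuspForm (CongruenceSubgroup.Gamma0 N) 2)) (b f) := by
    rintro ⟨t, ht⟩
    refine Algebra.adjoin_induction (p := fun t _ => ∃ t' : heckeAlgebra M 2 S,
      ∀ f, b ((t' : Module.End ℂ (CuspForm (CongruenceSubgroup.Gamma0 M) 2)) f) =
        (t : Module.End ℂ (CuspForm (CongruenceSubgroup.Gamma0 N) 2)) (b f)) ?_ ?_ ?_ ?_ ht
    · rintro t (⟨ℓ, hℓ, hℓN, hℓS, rfl⟩ | ⟨q, hqN, hq, hqS, rfl⟩)
      · have hℓM : ¬ ℓ ∣ M := fun h => hℓN (h.trans hMN)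
        exact ⟨heckeAlgebra.T hℓ hℓM hℓS, fun f => hT ℓ hℓ hℓM hℓN f⟩
      · exact absurd (hNS q hq hqN) hqS
    · intro r
      refine ⟨algebraMap ℤ _ r, fun f => ?_⟩
      change b ((algebraMap ℤ (Module.End ℂ (CuspForm (CongruenceSubgroup.Gamma0 M) 2)) r) f) =
        (algebraMap ℤ (Module.End ℂ (CuspForm (CongruenceSubgroup.Gamma0 N) 2)) r) (b f)
      rw [Algebra.algebraMap_eq_smul_one, Algebra.algebraMap_eq_smul_one, LinearMap.smul_apply,
        LinearMap.smul_apply, Module.End.one_apply, Module.End.one_apply, map_zsmul]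
    · rintro x y - - ⟨x', hx⟩ ⟨y', hy⟩
      refine ⟨x' + y', fun f => ?_⟩
      change b ((x'.1 + y'.1) f) = (x + y) (b f)
      rw [LinearMap.add_apply, map_add, hx, hy, LinearMap.add_apply]
    · rintro x y - - ⟨x', hx⟩ ⟨y', hy⟩
      refine ⟨x' * y', fun f => ?_⟩
      change b ((x'.1 * y'.1) f) = (x * y) (b f)
      rw [Module.End.mul_apply, hx, hy, Module.End.mul_apply]
  choose R hR using key
  have huniq : ∀ s t : heckeAlgebra M 2 S,
      (∀ f, b ((s : Module.End ℂ (CuspForm (CongruenceSubgroup.Gamma0 M) 2)) f) =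
        b ((t : Module.End ℂ (CuspForm (CongruenceSubgroup.Gamma0 M) 2)) f)) → s = t := by
    intro s t h
    apply Subtype.ext
    exact LinearMap.ext fun f => hb (h f)
  refine ⟨{ toFun := R, map_one' := ?_, map_mul' := ?_, map_zero' := ?_, map_add' := ?_ }, ?_⟩
  · refine huniq _ _ fun f => ?_
    rw [hR]
    rfl
  · intro x y
    refine huniq _ _ fun f => ?_
    have e : ((R x * R y : heckeAlgebra M 2 S) :
        Module.End ℂ (CuspForm (CongruenceSubgroup.Gamma0 M) 2)) f = (R x).1 ((R y).1 f) := rfl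
    rw [hR, e, hR x, hR y]
    rfl
  · refine huniq _ _ fun f => ?_
    rw [hR]
    have e : ((0 : heckeAlgebra M 2 S) :
        Module.End ℂ (CuspForm (CongruenceSubgroup.Gamma0 M) 2)) f = 0 := rfl
    rw [e, map_zero]
    rfl
  · intro x y
    refine huniq _ _ fun f => ?_
    have e : ((R x + R y : heckeAlgebra M 2 S) :
        Module.End ℂ (CuspForm (CongruenceSubgroup.Gamma0 M) 2)) f = (R x).1 f + (R y).1 f := rfl
    rw [hR, e, map_add, hR x, hR y]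
    rfl
  · intro ℓ hℓ hℓM hℓN hℓS
    refine huniq _ _ fun f => ?_
    change b ((R _).1 f) = b (heckeTLin 2 hℓ hℓM f)
    rw [hR, hT ℓ hℓ hℓM hℓN]
    rfl

/-- **raising the level** -/
theorem raise (p : ℕ) [Fact p.Prime] : RaiseSt p := by
  intro ρ M N _ _ S hMN hNS h
  obtain ⟨θ, hθ⟩ := h
  obtain ⟨R, hR⟩ := exists_restrict hMN hNS
  refine ⟨θ.comp R, fun ℓ hℓ hℓN hℓS A hA τ hτ => ?_⟩
  have hℓM : ¬ ℓ ∣ M := fun h => hℓN (h.trans hMN)
  rw [RingHom.comp_apply, hR ℓ hℓ hℓM hℓN hℓS]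
  exact hθ ℓ hℓ hℓM hℓS A hA τ hτ

end Fermat.Agent.TWG
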