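import Fermat.Agent.TWDia.Point

/-!
# Local-global compatibility at the auxiliary primes, including `p = 3`
-/

set_option autoImplicit false
set_option linter.unusedSectionVars false

noncomputable section

namespace Fermat.Agent.TWG

open ModularCurve Fermat.Agent.ModFun Fermat.Agent.AnJac AlgebraicCurve IsLocalRing
open CongruenceSubgroup MatrixGroups Matrix Fermat.Agent.AnJacH

local notation "Qbar" => AlgebraicClosure ℚ
local notation "GQ" => Qbar ≃ₐ[ℚ] Qbar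

section A

/-- no elements of trace `±1` in `Γ₀(M)` when a prime `r ≡ 2 mod 3` divides `M` -/
theorem no_trace_one {r : ℕ} (hr : r.Prime) (hr3 : r % 3 = 2) {x y : ZMod r} (hxy : x * y = 1)
    {t : ZMod r} (ht : x + y = t) (ht1 : t = 1 ∨ t = -1) : False := by
  haveI : Fact r.Prime := ⟨hr⟩
  have hu : x ^ 2 - t * x + 1 = 0 := by
    rw [← ht]
    linear_combination -hxy
  have h3 : (r : ZMod 3) = 2 := by
    have := ZMod.natCast_mod r 3
    rw [hr3] at this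
    exact this.symm
  have hx3 : ∃ z : ZMod r, z ^ 3 = 1 ∧ z ^ 2 + z + 1 = 0 := by
    rcases ht1 with h | h
    · refine ⟨-x, ?_, ?_⟩
      · rw [h] at hu
        linear_combination (-(x + 1)) * hu
      · rw [h] at hu
        linear_combination hu
    · refine ⟨x, ?_, ?_⟩
      · rw [h] at hu
        linear_combination (x - 1) * hu
      · rw [h] at hu
        linear_combination hu
  obtain ⟨z, hz, hz2⟩ := hx3
  have hz0 : z ≠ 0 := by
    rintro rfl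
    norm_num at hz
  have h1 : z ^ (r - 1) = 1 := ZMod.pow_card_sub_one_eq_one hz0
  have hcop : Nat.Coprime 3 (r - 1) := by
    rw [Nat.Prime.coprime_iff_not_dvd Nat.prime_three]
    have := hr.one_lt
    omega
  have h2 : z = 1 := by
    have h4 := orderOf_dvd_of_pow_eq_one hz
    have h5 := orderOf_dvd_of_pow_eq_one h1
    have h6 := Nat.dvd_gcd h4 h5
    rw [Nat.coprime_iff_gcd_eq_one.mp hcop, Nat.dvd_one] at h6
    exact orderOf_eq_one_iff.mp h6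
  rw [h2] at hz2
  have h7 : ((3 : ℕ) : ZMod r) = 0 := by
    push_cast
    linear_combination hz2
  rw [ZMod.natCast_eq_zero_iff] at h7
  have h8 := (Nat.prime_dvd_prime_iff_eq hr Nat.prime_three).mp h7
  rw [h8] at hr3
  omega

/-- admissibility when there are no elliptic elements of order three -/
theorem adm_of_pow4 {M c : ℕ} [NeZero c] {hc : c ∣ M} {H₀ : Subgroup (ZMod c)ˣ}
    (hsq : Squarefree c) {r : ℕ} (hr : r.Prime) (hr3 : r % 3 = 2) (hrM : r ∣ M)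
    (hH : ∀ u : (ZMod c)ˣ, u ^ 4 = 1 → u ∈ H₀) :
    Adm M (GH M c hc H₀) := by
  refine adm_GH fun γ hγ => hH _ ?_
  set u := dM M c hc γ with hu
  set t : ℤ := (γ : SL(2, ℤ)) 0 0 + (γ : SL(2, ℤ)) 1 1 with ht
  have h3 : (((γ : SL(2, ℤ)) 1 0 : ℤ) : ZMod c) = 0 := entry_cast M γ hc
  have h3r : (((γ : SL(2, ℤ)) 1 0 : ℤ) : ZMod r) = 0 := entry_cast M γ hrM
  have h5 := Matrix.det_fin_two ((γ : SL(2, ℤ)) : Matrix (Fin 2) (Fin 2) ℤ)
  rw [Matrix.SpecialLinearGroup.det_coe] at h5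
  have h4 : (((γ : SL(2, ℤ)) 0 0 : ℤ) : ZMod c) * (((γ : SL(2, ℤ)) 1 1 : ℤ) : ZMod c) = 1 := by
    have h6 := congrArg (fun t : ℤ => (t : ZMod c)) h5
    push_cast at h6
    rw [h3, mul_zero, sub_zero] at h6
    exact h6.symm
  have h4r : (((γ : SL(2, ℤ)) 0 0 : ℤ) : ZMod r) * (((γ : SL(2, ℤ)) 1 1 : ℤ) : ZMod r) = 1 := by
    have h6 := congrArg (fun t : ℤ => (t : ZMod r)) h5
    push_cast at h6
    rw [h3r, mul_zero, sub_zero] at h6
    exact h6.symm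
  have htr : (((γ : SL(2, ℤ)) 0 0 : ℤ) : ZMod r) + (((γ : SL(2, ℤ)) 1 1 : ℤ) : ZMod r) =
      (t : ZMod r) := by
    rw [ht]
    push_cast
    ring
  have hd : (u : ZMod c) = ((γ : SL(2, ℤ)) 1 1 : ℤ) := coe_dM _ _ _ _
  have h5' : (u : ZMod c) ^ 2 - t * u + 1 = 0 := by
    rw [hd, ht]
    push_cast
    linear_combination -h4
  have htb : t = 0 ∨ t = 1 ∨ t = -1 ∨ t = 2 ∨ t = -2 := by
    rw [abs_le] at hγ
    obtain ⟨h1, h2⟩ := hγ
    interval_cases t <;> simp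
  have hred : ∀ x : ZMod c, x ^ 2 = 0 → x = 0 := by
    intro x hx
    have hcc : ((x.val : ℕ) : ZMod c) = x := ZMod.natCast_zmod_val x
    rw [← hcc, ← Nat.cast_pow, ZMod.natCast_eq_zero_iff] at hx
    have := (hsq.dvd_pow_iff_dvd (two_ne_zero)).1 hx
    rw [← hcc, ZMod.natCast_eq_zero_iff]
    exact this
  apply Units.ext
  rw [Units.val_pow_eq_pow_val, Units.val_one]
  rcases htb with h | h | h | h | h
  · rw [h] at h5'
    push_cast at h5'
    have e : (u : ZMod c) ^ 2 = -1 := by linear_combination h5'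
    calc (u : ZMod c) ^ 4 = ((u : ZMod c) ^ 2) ^ 2 := by ring
      _ = 1 := by rw [e]; ring
  · exact (no_trace_one hr hr3 h4r htr (by rw [h]; push_cast; exact Or.inl rfl)).elim
  · exact (no_trace_one hr hr3 h4r htr (by rw [h]; push_cast; exact Or.inr rfl)).elim
  · rw [h] at h5'
    push_cast at h5'
    have e : (u : ZMod c) = 1 := by
      have := hred ((u : ZMod c) - 1) (by linear_combination h5')
      linear_combination this
    rw [e, one_pow]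
  · rw [h] at h5'
    push_cast at h5'
    have e : (u : ZMod c) = -1 := by
      have := hred ((u : ZMod c) + 1) (by linear_combination h5')
      linear_combination this
    rw [e]
    ring

variable {p : ℕ} [hp : Fact p.Prime] {O : Type*} [CommRing O] [IsDomain O]
  [IsDiscreteValuationRing O] [Algebra ℤ_[p] O]

set_option maxHeartbeats 1600000 in
/-- **Local-global compatibility at `q`** for classes on `Γ_H` -/
theorem lgcA [Module.Finite ℤ_[p] O] [IsAddTorsionFree O] (hpO : (p : O) ∈ maximalIdeal O)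
    {L m : ℕ} [NeZero L] [NeZero m] {h : m ∣ L}
    {H₀ : Subgroup (ZMod m)ˣ} (hadm : Adm (L * m) (GH (L * m) m (dvd_mul_left m L) H₀))
    (h2 : ∀ u : (ZMod m)ˣ, u ^ 2 = 1 → u ∈ H₀) {e : ℕ}
    (hH : H₀.index = p ^ e) {q : ℕ} [hq : Fact q.Prime] [NeZero q] (hqL : q ∣ L) (hqp : q ≠ p)
    (hq1 : (q : ResidueField O) = 1)
    {v : Additive (GH L m h H₀) →+ O} (hv : v ∈ NHA (GH L m h H₀) O) (hv0 : v ≠ 0)
    {χ : Gamma0 L → O} (hχ : ∀ (g : Gamma0 L) (γ γ' : GH L m h H₀),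
      (γ' : SL(2,ℤ)) = g * γ * (g : SL(2,ℤ))⁻¹ →
      v (Additive.ofMul γ') = χ g * v (Additive.ofMul γ))
    (hχ1 : ∀ g, residue O (χ g) = 1)
    {S : Set ℕ} (hS : S.Finite) {t : ℕ → O}
    (hT : ∀ (ℓ : ℕ) (_ : Fact ℓ.Prime) (hℓL : ¬ ℓ ∣ L), ℓ ∉ S → ∀ (g : Gamma0 L)
      (hg : ((dM L m h g : (ZMod m)ˣ) : ZMod m) = ℓ),
      (hfTG L m h H₀ ℓ hℓL g hg).T v = t ℓ • v)
    {a : O} (hU : (hfUG L m h H₀ q hqL).T v = a • v)
    (ha : residue O a ^ 2 ≠ 1) (ha0 : residue O a ≠ 0)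
    {ρ : GQ →* Matrix (Fin 2) (Fin 2) O}
    (hcont : ∀ n, ∃ K : IntermediateField ℚ Qbar, FiniteDimensional ℚ K ∧
      ∀ σ : GQ, (∀ x ∈ K, σ x = x) → ∀ i j, ρ σ i j - (1 : Matrix (Fin 2) (Fin 2) O) i j ∈
        maximalIdeal O ^ n)
    (htr : ∀ ℓ : ℕ, ℓ.Prime → ¬ ℓ ∣ L * p → ℓ ∉ S → ∀ A : ValuationSubring Qbar,
      A.LiesOverPrime ℓ → ∀ Φ : GQ, A.IsFrobeniusAt Φ ℓ → (ρ Φ).trace = t ℓ)
    (hdet : ∀ ℓ : ℕ, ℓ.Prime → ¬ ℓ ∣ L * p → ℓ ∉ S → ∀ A : ValuationSubring Qbar,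
      A.LiesOverPrime ℓ → ∀ Φ : GQ, A.IsFrobeniusAt Φ ℓ → ∀ g : Gamma0 L,
      ((dM L m h g : (ZMod m)ˣ) : ZMod m) = ℓ → (ρ Φ).det = ℓ * χ g)
    {ℓ₁ : ℕ} (hℓ₁ : ℓ₁.Prime) (hℓ₁L : ¬ ℓ₁ ∣ L) (hℓ₁S : ℓ₁ ∉ S) (hℓ₁m : (ℓ₁ : ZMod m) = 1)
    (ht₁ : residue O (t ℓ₁) ≠ ℓ₁ + 1)
    {g₀ h₀ : GQ} (hne : residue O (ρ (g₀ * h₀ * g₀⁻¹ * h₀⁻¹)).trace ≠ 2)
    {A : ValuationSubring Qbar} (hA : A.LiesOverPrime q) {Φ : GQ} (hΦ : A.IsFrobeniusAt Φ q) :
    a ^ 2 - (ρ Φ).trace * a + (ρ Φ).det = 0 := by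
  -- the residue field
  have hchar : CharP (ResidueField O) p := by
    refine (CharP.charP_iff_prime_eq_zero hp.out).mpr ?_
    have h1 := (residue_eq_zero_iff _).mpr hpO
    rwa [map_natCast] at h1
  let alg : Algebra (ZMod p) (ResidueField O) := ZMod.algebra (ResidueField O) p
  have : Finite (ResidueField O) := finite_res_O hpO
  have hp0 : (p : O) ≠ 0 := by
    intro h0
    have h1 : p • (1 : O) = 0 := by rw [nsmul_eq_mul, h0, zero_mul]
    exact one_ne_zero ((nsmul_eq_zero_iff_right hp.out.ne_zero).mp h1)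
  have : Module.Free ℤ_[p] O := by
    have : Module.IsTorsionFree ℤ_[p] O := by
      rw [Module.isTorsionFree_iff_algebraMap_injective, injective_iff_map_eq_zero]
      intro c hc
      by_contra hc0
      rw [PadicInt.unitCoeff_spec hc0, map_mul, map_pow, map_natCast, mul_eq_zero] at hc
      rcases hc with hc | hc
      · exact ((PadicInt.unitCoeff hc0).isUnit.map (algebraMap ℤ_[p] O)).ne_zero hc
      · exact pow_ne_zero _ hp0 hc
    infer_instance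
  -- the level
  have hm' : m ∣ L * m := dvd_mul_left m L
  have hΓ : Adm (L * m) (GH (L * m) m hm' H₀) := hadm
  obtain ⟨θ, hθ, hQ⟩ := exists_isGen_QZ H₀ (mul_dvd_mul_right h m) hm' hΓ h2
  obtain ⟨e', -, he'⟩ : ∃ e' ≤ e, Nat.card (Dl (L * m) (GH (L * m) m hm' H₀)) = p ^ e' := by
    rw [← Nat.dvd_prime_pow hp.out, ← hH]
    exact card_Dl_dvd (L * m) m hm' H₀
  have hmL : ∀ ℓ : ℕ, ℓ.Prime → (¬ ℓ ∣ L * m ↔ ¬ ℓ ∣ L) := by
    intro ℓ hℓ
    rw [not_iff_not, hℓ.dvd_mul]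
    exact ⟨fun h1 => h1.elim id fun h2 => h2.trans h, Or.inl⟩
  have hmLp : ∀ ℓ : ℕ, ℓ.Prime → ¬ ℓ ∣ L * m * p → ¬ ℓ ∣ L * p := by
    intro ℓ hℓ h1 h2
    apply h1
    rw [mul_assoc, mul_comm m p, ← mul_assoc]
    exact h2.mul_right m
  -- the vector
  set v' := resM h v with hv'
  have hv'0 : v' ≠ 0 := resV_ne_zero _ (relIndex_GH h) hv0
  obtain ⟨y, hy0, hy⟩ := exists_EigA (hΓ := hΓ) (S := S) (q := q) (hqN := hqL.mul_right m)
    (v := v') (resV_mem _ hv) hv'0 (χ := fun g => χ (incl0 g)) (fun g => by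
      refine AddMonoidHom.ext fun γ => ?_
      exact hχ (incl0 g) (Subgroup.inclusion (GH_mul_le h) (Additive.toMul γ)) _ rfl)
    (t := t) (fun ℓ hℓ hℓN hℓS g hg => by
      have hℓL : ¬ ℓ ∣ L := (hmL ℓ hℓ.out).mp hℓN
      have hg' : ((dM L m h (incl0 g) : (ZMod m)ˣ) : ZMod m) = ℓ := by rw [dM_incl0, hg]
      rw [hv', resM_TG h ℓ hℓL hℓN g hg hg', hT ℓ hℓ hℓL hℓS _ hg']
      rfl)
    (a := a) (by
      rw [hv', resM_UG h q hqL, hU]
      rfl)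
  -- the Galois side
  have G : GalD p (L * m) m hm' S (fun g => χ (incl0 g)) t ρ := by
    refine ⟨fun g => hχ1 _, hcont, ?_, ?_⟩
    · intro ℓ hℓ hℓN hℓS A hA Φ hΦ
      exact htr ℓ hℓ (hmLp ℓ hℓ hℓN) hℓS A hA Φ hΦ
    · intro ℓ hℓ hℓN hℓS A hA Φ hΦ g hg
      exact hdet ℓ hℓ (hmLp ℓ hℓ hℓN) hℓS A hA Φ hΦ (incl0 g) (by rw [dM_incl0, hg])
  have : Fact ℓ₁.Prime := ⟨hℓ₁⟩
  exact lgcG (hθ := hθ) hpO hQ he' hS G ((hmL ℓ₁ hℓ₁).mpr hℓ₁L) hℓ₁S (by
    rw [map_one, Units.val_one, hℓ₁m]) ht₁ hqp hA hq1 ha ha0 hne hy hy0 hΦ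



end A

section B

open MvPolynomial Fermat.Agent.TWCoh Fermat.Agent.DefRing Fermat.Agent.TWDia
open scoped OnePoint



variable {O k Λ : Type} [CommRing O] [Field k] [Algebra O k] [CommRing Λ] [Algebra Λ k]
    {ε : Λ →+* O} {lam : Λ} {p N N'' : ℕ} {S : Set ℕ} {Q : Finset (PS S)} {I : Finset ℕ}
    {τ α β : PS S → k} {ψ₁ ψ₂ : ∀ q : ℕ, DirichletCharacter Λ q}
    [NeZero N] [IsLocalRing Λ] [IsNoetherianRing Λ]
    [IsAdicComplete (IsLocalRing.maximalIdeal Λ) Λ] [hpf : Fact p.Prime] [Algebra ℤ_[p] Λ]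
    [Module.Finite ℤ_[p] Λ]

set_option maxHeartbeats 1600000 in
/-- **local-global compatibility at a point of the Hecke algebra** -/
theorem EPt_lgcA {h : PCond ε lam p N N'' Q I τ α β ψ₁ ψ₂} (hp2 : p ≠ 2)
    (h3 : p ≠ 3 ∨ ∃ r : ℕ, r.Prime ∧ r % 3 = 2 ∧ r ∣ N) (hSf : S.Finite)
    {ψ : ∀ q : ℕ, DirichletCharacter Λ q} (hψ : ∀ q ∈ allP Q I, ∃ e, ψ q ^ p ^ e = 1)
    [NeZero (cdr Q I)] [Nontrivial (MQ (N := N) (I := I) τ α h.cdr_dvd ψ)]
    {K : Type} [Field K] [CharZero K] {κ : Λ →+* K} (e : EPt h ψ K κ)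
    {R : Type} [CommRing R] [IsLocalRing R] [Algebra ℤ_[p] R] [Algebra.IsIntegral ℤ_[p] R]
    (u : R →+* FN h ψ) {T : GQ →* Matrix (Fin 2) (Fin 2) R} (hT : MatCont T)
    (htr : ∀ l : PS (bad Q), ∀ A : ValuationSubring Qbar, A.LiesOverPrime l.1 → ∀ Φ : GQ,
      A.IsFrobeniusAt Φ l.1 → u (T Φ).trace = algebraMap Λ _ (ws ψ (allP Q I) l.1) *
        FN.X h ψ (inclPS (sub_bad Q) l))
    (hdet : ∀ l : PS (bad Q), ∀ A : ValuationSubring Qbar, A.LiesOverPrime l.1 → ∀ Φ : GQ,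
      A.IsFrobeniusAt Φ l.1 → (T Φ).det = (l.1 : R))
    {g₀ h₀ : GQ} (hne : resFN h ψ (u (T (g₀ * h₀ * g₀⁻¹ * h₀⁻¹)).trace) ≠ 2)
    {q : PS S} (hq : q ∈ Q) {A : ValuationSubring Qbar} (hA : A.LiesOverPrime q.1) {Φ : GQ}
    (hΦ : A.IsFrobeniusAt Φ q.1) :
    (κ (Wg ψ (allP Q I) (cdr Q I) Φ) * e.y (FN.X h ψ q)) ^ 2 -
      e.y (u (T Φ).trace) * (κ (Wg ψ (allP Q I) (cdr Q I) Φ) * e.y (FN.X h ψ q)) +
      e.y (u (T Φ).det) = 0 := by
  classical
  have hqP : Fact q.1.Prime := ⟨q.2.1⟩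
  have hq0 : NeZero q.1 := ⟨q.2.1.ne_zero⟩
  have hloc := isLocalRing_FN h ψ
  have hs : ∀ r ∈ allP Q I, r ∣ cdr Q I := fun r hr => dvd_cdr hr
  -- the discrete valuation ring
  obtain ⟨O', _, _, _, _, _, _, _, hpO, jO, y', hjO, hy'⟩ := exists_dvr (p := p) e.y
  have hcomap := comap_maximal hpO y'
  have hres : ∀ x, residue O' (y' x) = 0 ↔ resFN h ψ x = 0 := by
    intro x
    have h1 : (RingHom.ker (resFN h ψ)).IsMaximal := by
      refine RingHom.ker_isMaximal_of_surjective _ fun x => ?_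
      obtain ⟨r, rfl⟩ := h.hΛk x
      exact ⟨algebraMap Λ _ r, resFN_algebraMap h ψ r⟩
    rw [residue_eq_zero_iff, ← RingHom.mem_ker, eq_maximalIdeal h1, ← hcomap, Ideal.mem_comap]
  have hres' : ∀ x x', residue O' (y' x) = residue O' (y' x') ↔ resFN h ψ x = resFN h ψ x' := by
    intro x x'
    rw [← sub_eq_zero, ← map_sub, ← map_sub, hres, map_sub, sub_eq_zero]
  -- characters
  obtain ⟨E, hE⟩ := wch_pow (c := cdr Q I) hψ
  have hdE : ∀ v : (ZMod (cdr Q I))ˣ,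
      dch ψ (allP Q I) (cdr Q I) (v : ZMod (cdr Q I)) ^ p ^ E = 1 := by
    intro v
    rw [dch_eq_sq hs, ← pow_mul, mul_comm, pow_mul, hE, one_pow]
  let θK : (ZMod (cdr Q I))ˣ →* Kˣ :=
    MulChar.toUnitHom ((dch ψ (allP Q I) (cdr Q I)).ringHomComp κ)
  have hθK : ∀ v : (ZMod (cdr Q I))ˣ, ((θK v : Kˣ) : K) =
      κ (dch ψ (allP Q I) (cdr Q I) (v : ZMod (cdr Q I))) := fun v =>
    MulChar.coe_toUnitHom _ v
  have hθE : ∀ v, θK v ^ p ^ E = 1 := by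
    intro v
    apply Units.ext
    rw [Units.val_pow_eq_pow_val, hθK, ← map_pow, hdE, map_one, Units.val_one]
  have hcop4 : Nat.Coprime 4 (p ^ E) := by
    apply Nat.Coprime.pow_right
    rw [Nat.coprime_comm, Nat.Prime.coprime_iff_not_dvd hpf.out]
    intro hd
    have h2 : p ∣ 2 ^ 2 := hd
    exact hp2 ((Nat.prime_dvd_prime_iff_eq hpf.out Nat.prime_two).mp
      (hpf.out.dvd_of_dvd_pow h2))
  have hH : ∀ v ∈ θK.ker, κ (dch ψ (allP Q I) (cdr Q I) (v : ZMod (cdr Q I))) = 1 := by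
    intro v hv
    rw [← hθK, MonoidHom.mem_ker.mp hv, Units.val_one]
  have h4 : ∀ v : (ZMod (cdr Q I))ˣ, v ^ 4 = 1 → v ∈ θK.ker := by
    intro v hv
    rw [MonoidHom.mem_ker]
    apply Units.ext
    refine eq_one_of_coprime_pow hcop4 ?_ ?_
    · rw [← Units.val_pow_eq_pow_val, ← map_pow, hv, map_one, Units.val_one]
    · rw [← Units.val_pow_eq_pow_val, hθE, Units.val_one]
  have h12 : p ≠ 3 → ∀ v : (ZMod (cdr Q I))ˣ, v ^ 12 = 1 → v ∈ θK.ker := by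
    intro hp3 v hv
    have hcop : Nat.Coprime 12 (p ^ E) := by
      apply Nat.Coprime.pow_right
      rw [Nat.coprime_comm, Nat.Prime.coprime_iff_not_dvd hpf.out]
      intro hd
      have h2 : p ∣ 2 ^ 2 * 3 := hd
      rcases (Nat.Prime.dvd_mul hpf.out).mp h2 with h3 | h3
      · exact hp2 ((Nat.prime_dvd_prime_iff_eq hpf.out Nat.prime_two).mp
          (hpf.out.dvd_of_dvd_pow h3))
      · exact hp3 ((Nat.prime_dvd_prime_iff_eq hpf.out Nat.prime_three).mp h3)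
    rw [MonoidHom.mem_ker]
    apply Units.ext
    refine eq_one_of_coprime_pow hcop ?_ ?_
    · rw [← Units.val_pow_eq_pow_val, ← map_pow, hv, map_one, Units.val_one]
    · rw [← Units.val_pow_eq_pow_val, hθE, Units.val_one]
  have hadm : Adm (lvl N Q * cdr Q I) (GH (lvl N Q * cdr Q I) (cdr Q I)
      (dvd_mul_left (cdr Q I) (lvl N Q)) θK.ker) := by
    rcases h3 with h3 | ⟨r, hr, hr3, hrN⟩
    · exact adm_of_pow12 h.squarefree (h12 h3)
    · exact adm_of_pow4 h.squarefree hr hr3 (dvd_mul_of_dvd_left (dvd_mul_of_dvd_left hrN _) _) h4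
  obtain ⟨e', he'⟩ : ∃ e', θK.ker.index = p ^ e' := by
    have h1 : IsPGroup p θK.range := by
      rintro ⟨_, v, rfl⟩
      exact ⟨E, Subtype.ext (hθE v)⟩
    obtain ⟨n, hn⟩ := h1.exists_card_eq
    exact ⟨n, by rw [Subgroup.index_ker, hn]⟩
  -- the class
  let _ : Algebra O' K := jO.toAlgebra
  obtain ⟨v, hvN, hv0, hvχ, hvT, hvU⟩ := e.exists_class (H₀ := θK.ker) hH (D := O') hjO y' hy'
  -- the Galois side
  let w : GQ →* O' := ((y'.comp (algebraMap Λ (FN h ψ))).toMonoidHom).comp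
    (Wg ψ (allP Q I) (cdr Q I))
  have hw : ∀ g, w g = y' (algebraMap Λ _ (Wg ψ (allP Q I) (cdr Q I) g)) := fun g => rfl
  have hwL : ∃ L : IntermediateField ℚ Qbar, FiniteDimensional ℚ L ∧
      ∀ σ : GQ, (∀ x ∈ L, σ x = x) → w σ = 1 := by
    obtain ⟨L, hL, h1⟩ := cycM_level (cdr Q I)
    refine ⟨L, hL, fun σ hσ => ?_⟩
    rw [hw, Wg_apply, h1 σ hσ, Units.val_one, map_one, map_one, map_one]
  let T' : GQ →* Matrix (Fin 2) (Fin 2) O' := mapT (y'.comp u) T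
  have hT' : MatCont T' := hT.map _ (isLocalHom_of_comap (comap_maximal hpO (y'.comp u)))
  have hT'tr : ∀ g, (T' g).trace = y' (u (T g).trace) := fun g => mapT_trace _ _ _
  have hT'det : ∀ g, (T' g).det = y' (u (T g).det) := fun g => mapT_det _ _ _
  -- the noneisenstein prime
  obtain ⟨l₀, hl₀, hl₀τ⟩ := h.noneis
  have hl₀N : ¬ l₀.1 ∣ N'' := by
    intro h1
    have h2 : (l₀.1 : ℤ) ∣ l₀.1 - 1 := dvd_trans (by exact_mod_cast h1) hl₀
    have h3 : (l₀.1 : ℤ) ∣ 1 := by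
      have := dvd_sub (dvd_refl (l₀.1 : ℤ)) h2
      simpa using this
    exact l₀.2.1.one_lt.ne' (Nat.dvd_one.1 (by exact_mod_cast h3))
  have hl₀L : ¬ l₀.1 ∣ lvl N Q := fun h1 => hl₀N (h1.trans h.lvl_dvd)
  have hl₀Q : l₀ ∉ Q := fun h1 => hl₀L
    ((Finset.dvd_prod_of_mem (fun q : PS S => q.1) h1).trans (dvd_mul_left _ _))
  have hl₀B : l₀.1 ∉ bad Q := by
    rintro (h1 | ⟨q', hq', h1⟩)
    · exact l₀.2.2 h1
    · exact hl₀Q (by rwa [← Subtype.ext h1])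
  have hbad : (bad Q : Set ℕ).Finite := by
    refine Set.Finite.union hSf ?_
    refine (Q.finite_toSet.image fun q : PS S => q.1).subset ?_
    rintro l ⟨q', hq', rfl⟩
    exact ⟨q', hq', rfl⟩
  have hqL : q.1 ∣ lvl N Q :=
    (Finset.dvd_prod_of_mem (fun q : PS S => q.1) hq).trans (dvd_mul_left _ _)
  have hqp : q.1 ≠ p := by
    intro h1
    have h2 := h.tw.one q hq
    rw [h1, h.hp] at h2
    exact zero_ne_one h2
  have hαβ : α q * β q = 1 := by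
    have h1 := h.tw.prod q hq
    rw [MulChar.inv_apply, MulChar.one_apply (isUnit_of_subsingleton _), mul_one, map_natCast,
      h.tw.one q hq] at h1
    exact h1
  have hαne := h.tw.distinct q hq
  have hresq : resFN h ψ (FN.X h ψ q) = α q := by
    rw [resFN_X, modE, if_pos hq]
  -- the eigenvalues
  let t : ℕ → O' := fun l => if hl : l.Prime ∧ l ∉ S then y' (FN.X h ψ ⟨l, hl⟩) else 0
  have ht : ∀ l : PS S, t l.1 = y' (FN.X h ψ l) := fun l => by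
    simp only [t]
    rw [dif_pos l.2]
  have hcdr : ∀ l : PS (bad Q), ¬ l.1 ∣ cdr Q I := fun l h1 =>
    h.not_dvd l (h1.trans h.cdr_dvd)
  have hwl : ∀ l : PS (bad Q), ∀ A : ValuationSubring Qbar, A.LiesOverPrime l.1 → ∀ Φ : GQ,
      A.IsFrobeniusAt Φ l.1 → w Φ = y' (algebraMap Λ _ (ws ψ (allP Q I) l.1)) := by
    intro l A hA Φ hΦ
    rw [hw, Wg_frob hs l.2.1 hA hΦ (hcdr l)]
  have key := lgcA (p := p) (O := O') hpO (h := h.cdr_dvd) hadm
    (fun u hu => h4 u (by rw [show (4 : ℕ) = 2 * 2 from rfl, pow_mul, hu, one_pow])) he' (q := q.1) hqL hqp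
    (by
      have h1 : residue O' (y' ((q.1 : ℕ) : FN h ψ)) = residue O' (y' 1) := by
        rw [hres', map_natCast, h.tw.one q hq, map_one]
      rw [map_natCast, map_natCast, map_one, map_one] at h1
      exact h1)
    hvN hv0 (χ := fun g => y' (algebraMap Λ _ (dch ψ (allP Q I) (cdr Q I)
      (((g : SL(2,ℤ)) 0 0 : ℤ) : ZMod (cdr Q I)))))
    (fun g γ γ' e1 => hvχ g g.2 γ γ' e1)
    (fun g => by
      have h1 : IsUnit ((((g : SL(2,ℤ)) 0 0 : ℤ) : ZMod (cdr Q I))) :=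
        IsUnit.of_mul_eq_one _ (mul_00_11 h.cdr_dvd g)
      obtain ⟨v, hv⟩ := h1
      have h2 : residue O' (y' (algebraMap Λ (FN h ψ) (dch ψ (allP Q I) (cdr Q I)
          (((g : SL(2,ℤ)) 0 0 : ℤ) : ZMod (cdr Q I))))) = residue O' (y' 1) := by
        rw [hres', resFN_algebraMap, map_one, ← hv]
        exact pow_char_eq_one h.pp h.hp (e := E) (by rw [← map_pow, hdE, map_one])
      rw [h2, map_one, map_one])
    (S := bad Q) hbad (t := t) (fun l hl hlL hlS g hg => by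
      have h1 := hvT ⟨l, hl.out, fun h2 => hlS (sub_bad Q h2)⟩ hl hlL g hg
      have h2 := ht ⟨l, hl.out, fun h2 => hlS (sub_bad Q h2)⟩
      rw [h2]
      exact h1)
    (a := y' (FN.X h ψ q)) (hvU q hq0 hqL)
    (by
      intro h1
      have h2 : residue O' (y' (FN.X h ψ q ^ 2)) = residue O' (y' 1) := by
        rw [map_pow, map_pow, h1, map_one, map_one]
      rw [hres', map_pow, hresq, map_one, ← hαβ, pow_two] at h2
      exact hαne (mul_left_cancel₀ (h.tw.alpha q hq) h2))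
    (by
      rw [Ne, hres, hresq]
      exact h.tw.alpha q hq)
    (ρ := twM w T') (matCont_twM hT' hwL)
    (fun l hl hlL hlS A hA Φ hΦ => by
      have h1 := htr ⟨l, hl, hlS⟩ A hA Φ hΦ
      have h2 := ht (inclPS (sub_bad Q) ⟨l, hl, hlS⟩)
      have h3 := hwl ⟨l, hl, hlS⟩ A hA Φ hΦ
      rw [twM_trace, hT'tr, h1, map_mul, ← h3, ← mul_assoc, mul_comm (w Φ⁻¹), w_mul_inv, one_mul]
      exact h2.symm)
    (fun l hl hlL hlS A hA Φ hΦ g hg => by
      have h1 := hdet ⟨l, hl, hlS⟩ A hA Φ hΦ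
      have h3 := cycM_frob hl hA hΦ (hcdr ⟨l, hl, hlS⟩)
      have h4 : dch ψ (allP Q I) (cdr Q I) (((g : SL(2,ℤ)) 0 0 : ℤ) : ZMod (cdr Q I)) *
          Wg ψ (allP Q I) (cdr Q I) Φ ^ 2 = 1 := by
        rw [Wg_apply, ← dch_eq_sq hs, h3, ← hg, coe_dM]
        exact char_00_11 h.cdr_dvd g.2
      have h5 := congrArg (fun z => y' (algebraMap Λ (FN h ψ) z)) h4
      simp only [map_mul, map_pow, map_one] at h5
      rw [← hw] at h5
      have h6 : w Φ⁻¹ ^ 2 = y' (algebraMap Λ (FN h ψ) (dch ψ (allP Q I) (cdr Q I)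
          (((g : SL(2,ℤ)) 0 0 : ℤ) : ZMod (cdr Q I)))) := by
        have h7 : w Φ ^ 2 * w Φ⁻¹ ^ 2 = 1 := by rw [← mul_pow, w_mul_inv, one_pow]
        calc w Φ⁻¹ ^ 2 = (y' (algebraMap Λ (FN h ψ) (dch ψ (allP Q I) (cdr Q I)
          (((g : SL(2,ℤ)) 0 0 : ℤ) : ZMod (cdr Q I)))) * w Φ ^ 2) * w Φ⁻¹ ^ 2 := by
              rw [h5, one_mul]
          _ = _ := by rw [mul_assoc, h7, mul_one]
      rw [twM_det, hT'det, h1, map_natCast, map_natCast, h6, mul_comm])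
    (ℓ₁ := l₀.1) l₀.2.1 hl₀L hl₀B
    (by
      have h1 := (ZMod.intCast_zmod_eq_zero_iff_dvd _ (cdr Q I)).2
        ((Int.natCast_dvd_natCast.2 (h.cdr_dvd.trans h.lvl_dvd)).trans hl₀)
      push_cast at h1
      exact sub_eq_zero.1 h1)
    (by
      intro h1
      have h2 : residue O' (y' (FN.X h ψ l₀)) = residue O' (y' ((l₀.1 : FN h ψ) + 1)) := by
        rw [← ht, h1, map_add, map_natCast, map_one, map_add, map_natCast, map_one]
      rw [hres', resFN_X, modE, if_neg hl₀Q, map_add, map_natCast, map_one, add_comm] at h2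
      exact hl₀τ h2)
    (g₀ := g₀) (h₀ := h₀)
    (by
      have h1 : w (g₀ * h₀ * g₀⁻¹ * h₀⁻¹)⁻¹ = 1 := by
        simp only [_root_.mul_inv_rev, inv_inv, map_mul]
        have e1 := w_mul_inv w g₀
        have e2 := w_mul_inv w h₀
        calc w h₀ * (w g₀ * (w h₀⁻¹ * w g₀⁻¹)) = (w g₀ * w g₀⁻¹) * (w h₀ * w h₀⁻¹) := by ring
          _ = 1 := by rw [e1, e2, one_mul]
      rw [twM_trace, h1, one_mul, hT'tr]
      intro h2
      have h3 : residue O' (y' (u (T (g₀ * h₀ * g₀⁻¹ * h₀⁻¹)).trace)) =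
          residue O' (y' 2) := by
        rw [h2, map_ofNat, map_ofNat]
      rw [hres', map_ofNat] at h3
      exact hne h3) hA hΦ
  -- conclusion
  rw [twM_trace, twM_det, hT'tr, hT'det] at key
  set a := y' (FN.X h ψ q) with ha
  have h2 : (w Φ * a) ^ 2 - y' (u (T Φ).trace) * (w Φ * a) + y' (u (T Φ).det) = 0 := by
    have e1 := w_mul_inv w Φ
    have e2 := congrArg (fun z => w Φ ^ 2 * z) key
    simp only [mul_zero] at e2
    linear_combination e2 + ((y' (u (T Φ).trace)) * w Φ * a - y' (u (T Φ).det) *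
      (1 + w Φ * w Φ⁻¹)) * e1
  have h3 := congrArg jO h2
  rw [map_add, map_sub, map_mul, map_pow, map_mul, map_zero, hy', hy', hw, hy', hy',
    e.y_algebraMap] at h3
  exact h3

end B



end Fermat.Agent.TWG
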