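import Fermat.Agent.TWG.NewStep
import Fermat.Agent.TWG.Raise

/-!
# T7: level lowering to the minimal level
-/

set_option autoImplicit false
set_option maxHeartbeats 800000

noncomputable section

namespace Fermat.Agent.TWG

open Fermat.Agent.DefRing Fermat.Agent.GalRep Fermat.Agent.S43Glue Fermat.Agent.TW56

local notation "Qbar" => AlgebraicClosure ℚ

theorem low {p : ℕ} [hpf : Fact p.Prime] (hp2 : p ≠ 2) (HD : RT.DatumB) (hMaz : MazG p)
    (hA2 : A2St p) (hA3 : A3St p) : LowSt p := by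
  classical
  intro ρ hρ hloc M₀ _ S hS hpS hM₀S hM₀p hM₀3 hmod
  have hp : p.Prime := hpf.out
  have hspan := hρ.span_top
  -- the auxiliary prime
  have hunrS : ∀ q : ℕ, q.Prime → q ∉ S → UnrAt ρ q := fun q hq hqS A hA σ hσ =>
    hmod.unramified hρ.level hρ.det hspan hS hpS hq (fun h => hqS (hM₀S q hq h))
      (fun h => hqS (h ▸ hpS)) hA hσ
  obtain ⟨r, hr⟩ : ∃ r : ℕ, (p ≠ 3 ∧ r = 1) ∨
      (p = 3 ∧ r.Prime ∧ r ∉ S ∧ r % 3 = 2 ∧ AuxAt p ρ r) := by
    by_cases hp3 : p = 3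
    · obtain ⟨r, h1, h2, h3, h4, h5⟩ := auxPrime p ρ hρ hp3 S hS hunrS
      exact ⟨r, Or.inr ⟨hp3, h1, h2, h3, hunrS r h1 h2, h4, h5⟩⟩
    · exact ⟨1, Or.inl ⟨hp3, rfl⟩⟩
  have hr0 : r ≠ 0 := by
    rcases hr with h | h
    · rw [h.2]; exact one_ne_zero
    · exact h.2.1.ne_zero
  have hdr : ∀ q : ℕ, q.Prime → q ∣ r → q = r ∧ q ∉ S ∧ AuxAt p ρ q ∧ ¬ q ∣ M₀ ∧ p = 3 ∧
      q % 3 = 2 := by
    intro q hq hqr
    rcases hr with h | h
    · rw [h.2] at hqr
      exact absurd (Nat.dvd_one.mp hqr) hq.one_lt.ne'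
    · have e := (Nat.prime_dvd_prime_iff_eq hq h.2.1).mp hqr
      subst e
      exact ⟨rfl, h.2.2.1, h.2.2.2.2, fun h' => h.2.2.1 (hM₀S q hq h'), h.1, h.2.2.2.1⟩
  have hpr : ¬ p ∣ r := fun h => (hdr p hp h).2.1 hpS
  haveI : NeZero (M₀ * r) := ⟨mul_ne_zero (NeZero.ne M₀) hr0⟩
  have hlev2 : ¬ p ^ 2 ∣ M₀ * r := by
    intro h
    exact hM₀p ((Nat.Coprime.pow_left 2
      ((Nat.Prime.coprime_iff_not_dvd hp).mpr hpr)).dvd_of_dvd_mul_right h)
  have hrsq : ∀ q : ℕ, q.Prime → q ∣ r → ¬ q ^ 2 ∣ M₀ * r := by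
    intro q hq hqr h
    obtain ⟨e, -, -, h1, -⟩ := hdr q hq hqr
    subst e
    rw [pow_two] at h
    exact h1 (Nat.dvd_of_mul_dvd_mul_right hq.pos h)
  have hlev3 : ∀ q : ℕ, q.Prime → q ≠ p → ¬ q ^ 3 ∣ M₀ * r := by
    intro q hq hqp h
    by_cases hqr : q ∣ r
    · exact hrsq q hq hqr ((pow_dvd_pow q (by norm_num)).trans h)
    · exact hM₀3 q hq hqp ((Nat.Coprime.pow_left 3
        ((Nat.Prime.coprime_iff_not_dvd hq).mpr hqr)).dvd_of_dvd_mul_right h)
  set S' : Set ℕ := S ∪ {r} with hS'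
  have hS'f : S'.Finite := hS.union (Set.finite_singleton r)
  have hpS' : p ∈ S' := Or.inl hpS
  have hMS' : ∀ q : ℕ, q.Prime → q ∣ M₀ * r → q ∈ S' := by
    intro q hq h
    rcases hq.dvd_mul.mp h with h | h
    · exact Or.inl (hM₀S q hq h)
    · exact Or.inr (hdr q hq h).1
  have hmod' : HMod ρ (M₀ * r) S' :=
    raise p ρ M₀ (M₀ * r) S' (dvd_mul_right _ _) hMS' (hmod.mono Set.subset_union_left)
  -- the minimal level
  let Good : ℕ → Prop := fun M => ∃ _ : NeZero M, M ∣ M₀ * r ∧ r ∣ M ∧ HMod ρ M S'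
  have hQ : ∃ M, Good M := ⟨M₀ * r, inferInstance, dvd_rfl, dvd_mul_left _ _, hmod'⟩
  obtain ⟨M, ⟨hM0, hMM₀, hrM, hM⟩, hmin⟩ : ∃ M, Good M ∧ ∀ M', Good M' → M ≤ M' :=
    ⟨Nat.find hQ, Nat.find_spec hQ, fun M' h => Nat.find_min' hQ h⟩
  have hMS : ∀ q : ℕ, q.Prime → q ∣ M → q ∈ S' := fun q hq h => hMS' q hq (h.trans hMM₀)
  have hv3 : ∀ N : ℕ, r ∣ N → (p ≠ 3 ∨ ∃ r : ℕ, r.Prime ∧ r % 3 = 2 ∧ r ∣ N) := by
    intro N hN
    rcases hr with h | h
    · exact Or.inl h.1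
    · exact Or.inr ⟨r, h.2.1, h.2.2.2.1, hN⟩
  -- squarefree
  have hsqf : Squarefree M := by
    rw [Nat.squarefree_iff_prime_squarefree]
    intro q hq hqq
    have hqp : q ≠ p := by
      rintro rfl
      exact hlev2 (by rw [pow_two]; exact hqq.trans hMM₀)
    have hqr : ¬ q ∣ r := fun h => hrsq q hq h (by rw [pow_two]; exact hqq.trans hMM₀)
    obtain ⟨N, hN⟩ := hqq
    have hMN : M = q ^ 2 * N := by rw [hN, pow_two]
    have hN0 : N ≠ 0 := by
      rintro rfl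
      exact NeZero.ne M (by rw [hN, mul_zero])
    have hqN : ¬ q ∣ N := by
      rintro ⟨N', rfl⟩
      refine hlev3 q hq hqp (Dvd.dvd.trans ⟨N', ?_⟩ hMM₀)
      rw [hN]; ring
    have hrN : r ∣ N := by
      have h1 : Nat.Coprime r (q ^ 2) :=
        (Nat.Coprime.pow_left 2 ((Nat.Prime.coprime_iff_not_dvd hq).mpr hqr)).symm
      rw [hMN] at hrM
      exact h1.dvd_of_dvd_mul_left hrM
    subst hMN
    haveI : NeZero (q * N) := ⟨mul_ne_zero hq.ne_zero hN0⟩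
    have h1 := hA3 q N S' ρ hq hqp hqN hS'f hpS' (fun l hl h => hMS l hl (by
      rw [pow_two, mul_assoc]
      exact h.mul_left q)) (hv3 N hrN) hρ.level hρ.det hspan
      (fun A hA σ hσ => hρ.unip q hq hqp A hA σ hσ) hM
    have h2 := hmin (q * N) ⟨inferInstance, Dvd.dvd.trans ⟨q, by ring⟩ hMM₀,
      hrN.mul_left q, h1⟩
    have h3 : q * N * 1 < q * N * q := Nat.mul_lt_mul_of_pos_left hq.one_lt (NeZero.pos (q * N))
    have h4 : q ^ 2 * N = q * N * q := by ring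
    omega
  have hsq : ∀ {q N : ℕ}, q.Prime → M = N * q → ¬ q ∣ N := by
    intro q N hq hMN hqN
    have h1 : q * q ∣ M := by rw [hMN]; exact mul_dvd_mul_right hqN q
    exact hq.one_lt.ne' (Nat.isUnit_iff.mp (hsqf q h1))
  -- at `p`
  have hP : ¬ p ∣ M ∨ (p ∣ M ∧ ¬ FlatRes p ρ ∧ MOrd p ρ) := by
    by_cases hpM : p ∣ M
    · right
      have hnf : ¬ FlatRes p ρ := by
        intro hflat
        obtain ⟨N, hN⟩ := hpM
        have hpN : ¬ p ∣ N := hsq hp (by rw [hN, mul_comm])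
        have hN0 : N ≠ 0 := by
          rintro rfl
          exact NeZero.ne M (by rw [hN, mul_zero])
        have hrN : r ∣ N := by
          have h1 : Nat.Coprime r p := ((Nat.Prime.coprime_iff_not_dvd hp).mpr hpr).symm
          rw [hN] at hrM
          exact h1.dvd_of_dvd_mul_left hrM
        subst hN
        haveI : NeZero N := ⟨hN0⟩
        have h1 := hA2 N S' ρ hpN hS'f hpS' hMS (hv3 N hrN) hρ.level hρ.det hspan hflat hM
        have h2 := hmin N ⟨inferInstance, Dvd.dvd.trans (dvd_mul_left N p) hMM₀, hrN, h1⟩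
        have h3 : 1 * N < p * N := Nat.mul_lt_mul_of_pos_right hp.one_lt (NeZero.pos N)
        omega
      exact ⟨hpM, hnf, hloc.resolve_left hnf⟩
    · exact Or.inl hpM
  -- at the other primes
  have hall : ∀ q : ℕ, q.Prime → q ∣ M → q ≠ p → ¬ UnrAt ρ q ∨ ScalAt p ρ q ∨ AuxAt p ρ q := by
    intro q hq hqM hqp
    by_cases hunr : UnrAt ρ q
    · right
      by_cases hqr : q ∣ r
      · exact Or.inr (hdr q hq hqr).2.2.1
      · left
        obtain ⟨N, hN⟩ := hqM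
        have hMN : M = N * q := by rw [hN, mul_comm]
        have hqN : ¬ q ∣ N := hsq hq hMN
        have hN0 : N ≠ 0 := by
          rintro rfl
          exact NeZero.ne M (by rw [hN, mul_zero])
        have hrN : r ∣ N := by
          have h1 : Nat.Coprime r q := ((Nat.Prime.coprime_iff_not_dvd hq).mpr hqr).symm
          rw [hN] at hrM
          exact h1.dvd_of_dvd_mul_left hrM
        clear hN
        subst hMN
        haveI : NeZero N := ⟨hN0⟩
        rcases hMaz N q S' ρ hq hqN hqp hS'f hpS' hMS (hv3 N hrN) hρ.level hρ.det hspan hunr hM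
          with h1 | h1
        · exfalso
          have h2 := hmin N ⟨inferInstance, Dvd.dvd.trans (dvd_mul_right N q) hMM₀, hrN, h1⟩
          have h3 : N * 1 < N * q := Nat.mul_lt_mul_of_pos_left hq.one_lt (NeZero.pos N)
          omega
        · exact ⟨hunr, h1⟩
    · exact Or.inl hunr
  obtain ⟨N₀, hN₀0, hN₀M, hN₀, hN₀mod⟩ := new_step hp2 HD hsqf hS'f hpS' hMS (hv3 M hrM) hρ hM
    hall hP
  have hcop : Nat.Coprime N₀ r := by
    rcases hr with h | h
    · rw [h.2]; exact Nat.coprime_one_right N₀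
    · refine ((Nat.Prime.coprime_iff_not_dvd h.2.1).mpr fun h' => ?_).symm
      have hrp : r ≠ p := fun e => h.2.2.1 (e ▸ hpS)
      exact (hN₀.ram r h.2.1 hrp).mp h' h.2.2.2.2.1
  have hN₀M₀ : N₀ ∣ M₀ := hcop.dvd_of_dvd_mul_right (hN₀M.trans hMM₀)
  refine ⟨N₀, hN₀0, hN₀M₀, hN₀, ?_⟩
  exact hN₀mod.shrink hρ.level hρ.det hS'f Set.subset_union_left hpS
    (fun q hq h => hM₀S q hq (h.trans hN₀M₀))

end Fermat.Agent.TWG
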