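import Mathlib

/-!
# Commutators in absolutely irreducible groups
-/

set_option autoImplicit false
set_option maxHeartbeats 400000

noncomputable section

namespace Fermat.Agent.TWG

open Matrix

variable {G : Type*} [Group G] {k : Type*} [Field k]

theorem eigen_vec {M : Matrix (Fin 2) (Fin 2) k} {α β : k} (ht : M.trace = α + β)
    (hd : M.det = α * β) : ∃ v : Fin 2 → k, v ≠ 0 ∧ M *ᵥ v = α • v := by
  have h1 : (M - α • (1 : Matrix (Fin 2) (Fin 2) k)).det = 0 := by
    rw [Matrix.trace_fin_two] at ht
    rw [Matrix.det_fin_two] at hd ⊢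
    simp only [Matrix.sub_apply, Matrix.smul_apply, Matrix.one_apply_eq, smul_eq_mul, mul_one,
      ne_eq, zero_ne_one, one_ne_zero, not_false_eq_true, Matrix.one_apply_ne, mul_zero, sub_zero]
    linear_combination hd - α * ht
  obtain ⟨v, hv, hv'⟩ := Matrix.exists_mulVec_eq_zero_iff.mpr h1
  refine ⟨v, hv, ?_⟩
  rw [Matrix.sub_mulVec, Matrix.smul_mulVec, Matrix.one_mulVec, sub_eq_zero] at hv'
  exact hv'

/-- the entries in a basis given by the columns of `P` -/
theorem conj_col {M P Q : Matrix (Fin 2) (Fin 2) k} (hQP : Q * P = 1) (j : Fin 2) {a : k}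
    (h : M *ᵥ (fun i => P i j) = a • (fun i => P i j)) (i : Fin 2) :
    (Q * M * P) i j = a * (1 : Matrix (Fin 2) (Fin 2) k) i j := by
  have h1 : (Q * M * P) i j = (Q *ᵥ (M *ᵥ (fun i => P i j))) i := by
    rw [mul_assoc]
    rw [Matrix.mul_apply]
    rfl
  rw [h1, h, Matrix.mulVec_smul]
  have h2 : (Q *ᵥ fun i => P i j) i = (Q * P) i j := rfl
  rw [Pi.smul_apply, h2, hQP, smul_eq_mul]

theorem low_false {ρ : G →* Matrix (Fin 2) (Fin 2) k}
    (hspan : Submodule.span k (Set.range ρ) = ⊤) {P Q : Matrix (Fin 2) (Fin 2) k}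
    (hQP : Q * P = 1) (i j : Fin 2) (h : ∀ g, (Q * ρ g * P) i j = 0) : False := by
  have key : ∀ X ∈ Submodule.span k (Set.range ρ), (Q * X * P) i j = 0 := by
    intro X hX
    induction hX using Submodule.span_induction with
    | mem x hx => obtain ⟨g, rfl⟩ := hx; exact h g
    | zero => rw [mul_zero, zero_mul, Matrix.zero_apply]
    | add x y _ _ hx hy => rw [mul_add, add_mul, Matrix.add_apply, hx, hy, add_zero]
    | smul a x _ hx => rw [Matrix.mul_smul, Matrix.smul_mul, Matrix.smul_apply, hx, smul_zero]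
  have h1 := key (P * Matrix.single i j (1 : k) * Q) (by rw [hspan]; trivial)
  have h2 : Q * (P * Matrix.single i j (1 : k) * Q) * P = Matrix.single i j (1 : k) := by
    calc _ = (Q * P) * Matrix.single i j (1 : k) * (Q * P) := by simp only [mul_assoc]
      _ = _ := by rw [hQP, one_mul, mul_one]
  rw [h2, Matrix.single_apply_same] at h1
  exact one_ne_zero h1

/-- **an absolutely irreducible group contains a commutator with trace different from two** -/
theorem exists_comm_ne (ρ : G →* Matrix (Fin 2) (Fin 2) k)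
    (hspan : Submodule.span k (Set.range ρ) = ⊤)
    (hsplit : ∀ σ, ∃ α β : k, (ρ σ).trace = α + β ∧ (ρ σ).det = α * β) :
    ∃ g h : G, (ρ (g * h * g⁻¹ * h⁻¹)).trace ≠ 2 := by
  by_contra hcon
  push Not at hcon
  have hinv : ∀ g, ρ g * ρ g⁻¹ = 1 := fun g => by rw [← map_mul, mul_inv_cancel, map_one]
  have hinv' : ∀ g, ρ g⁻¹ * ρ g = 1 := fun g => by rw [← map_mul, inv_mul_cancel, map_one]
  have hdet0 : ∀ g, (ρ g).det ≠ 0 := fun g h0 => by
    have h1 := congrArg Matrix.det (hinv g)
    rw [Matrix.det_mul, h0, zero_mul, Matrix.det_one] at h1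
    exact zero_ne_one h1
  -- the determinants of the brackets
  have hbr : ∀ g h, (ρ g * ρ h - ρ h * ρ g).det = 0 := by
    intro g h
    set C := ρ (g * h * g⁻¹ * h⁻¹) with hC
    have h1 : ρ g * ρ h - ρ h * ρ g = (C - 1) * (ρ h * ρ g) := by
      rw [sub_mul, one_mul, hC, map_mul, map_mul, map_mul]
      congr 1
      calc ρ g * ρ h = ρ g * ρ h * (ρ g⁻¹ * (ρ h⁻¹ * ρ h) * ρ g) := by
            rw [hinv' h, mul_one, hinv' g, mul_one]
        _ = _ := by simp only [mul_assoc]
    have h2 : C.det = 1 := by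
      rw [hC, map_mul, map_mul, map_mul, Matrix.det_mul, Matrix.det_mul, Matrix.det_mul]
      have e1 := congrArg Matrix.det (hinv g)
      have e2 := congrArg Matrix.det (hinv h)
      rw [Matrix.det_mul, Matrix.det_one] at e1 e2
      calc (ρ g).det * (ρ h).det * (ρ g⁻¹).det * (ρ h⁻¹).det =
          ((ρ g).det * (ρ g⁻¹).det) * ((ρ h).det * (ρ h⁻¹).det) := by ring
        _ = 1 := by rw [e1, e2, one_mul]
    have h3 : (C - 1).det = 0 := by
      have h4 := hcon g h
      rw [← hC, Matrix.trace_fin_two] at h4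
      rw [Matrix.det_fin_two] at h2 ⊢
      simp only [Matrix.sub_apply, Matrix.one_apply_eq, ne_eq, zero_ne_one, one_ne_zero,
        not_false_eq_true, Matrix.one_apply_ne, sub_zero]
      linear_combination h2 - h4
    rw [h1, Matrix.det_mul, h3, zero_mul]
  -- a non scalar element
  obtain ⟨g, hg⟩ : ∃ g, ∀ a : k, ρ g ≠ a • (1 : Matrix (Fin 2) (Fin 2) k) := by
    by_contra hall
    push Not at hall
    refine low_false hspan (P := 1) (Q := 1) (one_mul 1) 0 1 fun g => ?_
    obtain ⟨a, ha⟩ := hall g
    rw [one_mul, mul_one, ha, Matrix.smul_apply, Matrix.one_apply_ne (by decide), smul_zero]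
  obtain ⟨α, β, ht, hd⟩ := hsplit g
  have hconj : ∀ (P Q : Matrix (Fin 2) (Fin 2) k), P * Q = 1 → Q * P = 1 → ∀ h,
      ((Q * ρ g * P) * (Q * ρ h * P) - (Q * ρ h * P) * (Q * ρ g * P)).det = 0 := by
    intro P Q hPQ hQP h
    have e1 : (Q * ρ g * P) * (Q * ρ h * P) - (Q * ρ h * P) * (Q * ρ g * P) =
        Q * (ρ g * ρ h - ρ h * ρ g) * P := by
      have e2 : (Q * ρ g * P) * (Q * ρ h * P) = Q * (ρ g * ρ h) * P := by
        calc _ = Q * ρ g * (P * Q) * ρ h * P := by simp only [mul_assoc]
          _ = _ := by rw [hPQ, mul_one]; simp only [mul_assoc]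
      have e3 : (Q * ρ h * P) * (Q * ρ g * P) = Q * (ρ h * ρ g) * P := by
        calc _ = Q * ρ h * (P * Q) * ρ g * P := by simp only [mul_assoc]
          _ = _ := by rw [hPQ, mul_one]; simp only [mul_assoc]
      rw [e2, e3, mul_sub, sub_mul]
    rw [e1, Matrix.det_mul, Matrix.det_mul, hbr, mul_zero, zero_mul]
  by_cases hab : α = β
  · -- a single eigenvalue
    subst hab
    obtain ⟨v, hv, hv'⟩ := eigen_vec ht hd
    obtain ⟨P, Q, hPQ, hQP, hcol⟩ : ∃ P Q : Matrix (Fin 2) (Fin 2) k, P * Q = 1 ∧ Q * P = 1 ∧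
        (fun i => P i 0) = v := by
      by_cases h0 : v 0 = 0
      · have h1 : v 1 ≠ 0 := fun h1 => hv (by ext i; fin_cases i <;> assumption)
        let P : Matrix (Fin 2) (Fin 2) k := !![v 0, 1; v 1, 0]
        have hu : IsUnit P.det := by
          rw [Matrix.det_fin_two_of]
          exact isUnit_iff_ne_zero.mpr (by rw [mul_zero, zero_sub, one_mul]; exact neg_ne_zero.mpr h1)
        refine ⟨P, P⁻¹, Matrix.mul_nonsing_inv P hu, Matrix.nonsing_inv_mul P hu, ?_⟩
        ext i
        fin_cases i <;> rfl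
      · let P : Matrix (Fin 2) (Fin 2) k := !![v 0, 0; v 1, 1]
        have hu : IsUnit P.det := by
          rw [Matrix.det_fin_two_of]
          exact isUnit_iff_ne_zero.mpr (by rw [mul_one, zero_mul, sub_zero]; exact h0)
        refine ⟨P, P⁻¹, Matrix.mul_nonsing_inv P hu, Matrix.nonsing_inv_mul P hu, ?_⟩
        ext i
        fin_cases i <;> rfl
    have hM := conj_col (M := ρ g) hQP 0 (a := α) (by rw [hcol]; exact hv')
    set M' := Q * ρ g * P with hM'
    have h00 : M' 0 0 = α := by rw [hM 0, Matrix.one_apply_eq, mul_one]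
    have h10 : M' 1 0 = 0 := by rw [hM 1, Matrix.one_apply_ne (by decide), mul_zero]
    have htr' : M'.trace = α + α := by
      rw [hM', Matrix.trace_mul_comm, ← mul_assoc, hPQ, one_mul, ht]
    have h11 : M' 1 1 = α := by
      rw [Matrix.trace_fin_two, h00] at htr'
      exact add_left_cancel htr'
    have h01 : M' 0 1 ≠ 0 := by
      intro h01
      have e1 : M' = α • (1 : Matrix (Fin 2) (Fin 2) k) := by
        ext i j
        fin_cases i <;> fin_cases j
        · simp only [Fin.zero_eta, Matrix.smul_apply, Matrix.one_apply_eq, smul_eq_mul, mul_one]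
          exact h00
        · change M' 0 1 = _
          rw [h01]
          simp
        · change M' 1 0 = _
          rw [h10]
          simp
        · change M' 1 1 = _
          rw [h11]
          simp
      apply hg α
      calc ρ g = (P * Q) * ρ g * (P * Q) := by rw [hPQ, one_mul, mul_one]
        _ = P * M' * Q := by rw [hM']; simp only [mul_assoc]
        _ = _ := by rw [e1, Matrix.mul_smul, mul_one, Matrix.smul_mul, hPQ]
    refine low_false hspan hQP 1 0 fun h => ?_
    have e2 := hconj P Q hPQ hQP h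
    rw [← hM'] at e2
    set X := Q * ρ h * P with hX
    rw [Matrix.det_fin_two] at e2
    simp only [Matrix.sub_apply, Matrix.mul_apply, Fin.sum_univ_two] at e2
    rw [h00, h10, h11] at e2
    have e3 : (M' 0 1 * X 1 0) ^ 2 = 0 := by linear_combination -e2
    have e4 := pow_eq_zero_iff two_ne_zero |>.mp e3
    exact (mul_eq_zero.mp e4).resolve_left h01
  · -- two eigenvalues
    obtain ⟨v, hv, hv'⟩ := eigen_vec ht hd
    obtain ⟨w, hw, hw'⟩ := eigen_vec (α := β) (β := α) (by rw [ht, add_comm]) (by rw [hd, mul_comm])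
    let P : Matrix (Fin 2) (Fin 2) k := !![v 0, w 0; v 1, w 1]
    have hP0 : (fun i => P i 0) = v := by ext i; fin_cases i <;> rfl
    have hP1 : (fun i => P i 1) = w := by ext i; fin_cases i <;> rfl
    have hdet : P.det ≠ 0 := by
      intro h0
      obtain ⟨c, hc, hc'⟩ := Matrix.exists_mulVec_eq_zero_iff.mpr h0
      have e1 : c 0 • v + c 1 • w = 0 := by
        ext i
        have e2 := congrFun hc' i
        rw [Matrix.mulVec, dotProduct, Fin.sum_univ_two] at e2
        have e3 : P i 0 = v i := congrFun hP0 i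
        have e4 : P i 1 = w i := congrFun hP1 i
        rw [e3, e4] at e2
        simp only [Pi.add_apply, Pi.smul_apply, smul_eq_mul, Pi.zero_apply] at e2 ⊢
        linear_combination e2
      have e2 := congrArg (fun x => ρ g *ᵥ x) e1
      simp only [Matrix.mulVec_add, Matrix.mulVec_smul, Matrix.mulVec_zero, hv', hw'] at e2
      -- (α - β) c₁ w = 0
      have e3 : (c 1 * (β - α)) • w = 0 := by
        have e4 : c 0 • α • v = - (c 1 • α • w) := by
          have e5 := congrArg (fun x => α • x) e1
          simp only [smul_add, smul_zero] at e5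
          rw [smul_comm, smul_comm (c 1)]
          exact eq_neg_of_add_eq_zero_left e5
        rw [e4] at e2
        have e6 : (c 1 * (β - α)) • w = -(c 1 • α • w) + c 1 • β • w := by
          rw [smul_smul, smul_smul, ← neg_smul, ← add_smul]
          congr 1
          ring
        rw [e6, e2]
      rcases smul_eq_zero.mp e3 with e4 | e4
      · rcases mul_eq_zero.mp e4 with e5 | e5
        · rw [e5, zero_smul, add_zero] at e1
          rcases smul_eq_zero.mp e1 with e6 | e6
          · exact hc (by ext i; fin_cases i <;> assumption)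
          · exact hv e6
        · exact hab (sub_eq_zero.mp e5).symm
      · exact hw e4
    have hu : IsUnit P.det := isUnit_iff_ne_zero.mpr hdet
    set Q := P⁻¹ with hQ
    have hPQ : P * Q = 1 := Matrix.mul_nonsing_inv P hu
    have hQP : Q * P = 1 := Matrix.nonsing_inv_mul P hu
    have hM0 := conj_col (M := ρ g) hQP 0 (a := α) (by rw [hP0]; exact hv')
    have hM1 := conj_col (M := ρ g) hQP 1 (a := β) (by rw [hP1]; exact hw')
    set M' := Q * ρ g * P with hM'
    have h00 : M' 0 0 = α := by rw [hM0 0, Matrix.one_apply_eq, mul_one]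
    have h10 : M' 1 0 = 0 := by rw [hM0 1, Matrix.one_apply_ne (by decide), mul_zero]
    have h01 : M' 0 1 = 0 := by rw [hM1 0, Matrix.one_apply_ne (by decide), mul_zero]
    have h11 : M' 1 1 = β := by rw [hM1 1, Matrix.one_apply_eq, mul_one]
    let X : G → Matrix (Fin 2) (Fin 2) k := fun h => Q * ρ h * P
    have hXm : ∀ a b, X (a * b) = X a * X b := by
      intro a b
      change Q * ρ (a * b) * P = (Q * ρ a * P) * (Q * ρ b * P)
      rw [map_mul]
      calc _ = Q * ρ a * 1 * ρ b * P := by rw [mul_one]; simp only [mul_assoc]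
        _ = _ := by rw [← hPQ]; simp only [mul_assoc]
    have hXd : ∀ a, (X a).det ≠ 0 := by
      intro a h0
      change (Q * ρ a * P).det = 0 at h0
      rw [Matrix.det_mul, Matrix.det_mul] at h0
      have e1 := congrArg Matrix.det hQP
      rw [Matrix.det_mul, Matrix.det_one] at e1
      apply hdet0 a
      linear_combination h0 - (ρ a).det * e1
    have hyz : ∀ h, X h 0 1 = 0 ∨ X h 1 0 = 0 := by
      intro h
      have e2 := hconj P Q hPQ hQP h
      rw [← hM'] at e2
      change (M' * X h - X h * M').det = 0 at e2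
      rw [Matrix.det_fin_two] at e2
      simp only [Matrix.sub_apply, Matrix.mul_apply, Fin.sum_univ_two] at e2
      rw [h00, h10, h01, h11] at e2
      have e3 : (α - β) ^ 2 * (X h 0 1 * X h 1 0) = 0 := by linear_combination e2
      have e4 := (mul_eq_zero.mp e3).resolve_left (pow_ne_zero 2 (sub_ne_zero.mpr hab))
      exact mul_eq_zero.mp e4
    obtain ⟨a, ha⟩ : ∃ a, X a 1 0 ≠ 0 := by
      by_contra hh
      push Not at hh
      exact low_false hspan hQP 1 0 hh
    obtain ⟨b, hb⟩ : ∃ b, X b 0 1 ≠ 0 := by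
      by_contra hh
      push Not at hh
      exact low_false hspan hQP 0 1 hh
    have ha' : X a 0 1 = 0 := (hyz a).resolve_right ha
    have hb' : X b 1 0 = 0 := (hyz b).resolve_left hb
    have hda := hXd a
    have hdb := hXd b
    rw [Matrix.det_fin_two, ha', zero_mul, sub_zero] at hda
    rw [Matrix.det_fin_two, hb', mul_zero, sub_zero] at hdb
    rcases hyz (a * b) with h | h
    · rw [hXm, Matrix.mul_apply, Fin.sum_univ_two, ha', zero_mul, add_zero] at h
      rcases mul_eq_zero.mp h with h | h
      · exact hda (by rw [h, zero_mul])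
      · exact hb h
    · rw [hXm, Matrix.mul_apply, Fin.sum_univ_two, hb', mul_zero, add_zero] at h
      rcases mul_eq_zero.mp h with h | h
      · exact ha h
      · exact hdb (by rw [h, zero_mul])

end Fermat.Agent.TWG
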