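import Fermat.Agent.RT.LowSt
import Fermat.Agent.TWPr.Prime
import Fermat.Agent.LR.Chb

/-!
# The auxiliary prime for `p = 3`
-/

set_option autoImplicit false
set_option maxHeartbeats 400000

noncomputable section

namespace Fermat.Agent.TWG

open Fermat.Agent.S43Glue CuspForm Fermat.Agent.DefRing Matrix

local notation "Qbar" => AlgebraicClosure ℚ

open scoped Pointwise in
/-- the trace of Frobenius does not depend on the Frobenius element -/
theorem trace_frob_all {F : Type} [Field F] {ρ : GQ →* Matrix (Fin 2) (Fin 2) F} {q : ℕ}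
    (hq : q.Prime)
    (hunr : ∀ A : ValuationSubring Qbar, A.LiesOverPrime q → ∀ σ ∈ A.inertiaSubgroupIn ℚ, ρ σ = 1)
    {A A' : ValuationSubring Qbar} (hA : A.LiesOverPrime q) (hA' : A'.LiesOverPrime q) {τ τ' : GQ}
    (hτ : A.IsFrobeniusAt τ q) (hτ' : A'.IsFrobeniusAt τ' q) :
    (ρ τ').trace = (ρ τ).trace ∧ (ρ τ').det = (ρ τ).det := by
  obtain ⟨g, rfl⟩ := Frob.exists_eq_smul_Qbar A A' hq hA hA'
  have h1 := FrobDens.isFrobeniusAt_conj hτ g
  have h2 := TWPr.frob_inertia hq hA' h1 hτ'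
  have h3 : ρ τ' = ρ g * ρ τ * ρ g⁻¹ := by
    have h4 := hunr _ hA' _ h2
    have h5 : τ' = (g * τ * g⁻¹) * ((g * τ * g⁻¹)⁻¹ * τ') := by group
    rw [h5, map_mul, h4, mul_one, map_mul, map_mul]
  have h4 : ρ g⁻¹ * ρ g = 1 := by rw [← map_mul, inv_mul_cancel, map_one]
  have h5 : ρ g * ρ g⁻¹ = 1 := by rw [← map_mul, mul_inv_cancel, map_one]
  refine ⟨?_, ?_⟩
  · rw [h3, Matrix.trace_mul_comm, ← mul_assoc, h4, one_mul]
  · rw [h3, Matrix.det_mul, Matrix.det_mul, mul_comm, ← mul_assoc, ← Matrix.det_mul, h4,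
      Matrix.det_one, one_mul]

theorem cayley2 {F : Type} [Field F] (X : Matrix (Fin 2) (Fin 2) F) (ht : X.trace = 0)
    (hd : X.det = -1) : X * X = 1 := by
  rw [Matrix.trace_fin_two] at ht
  rw [Matrix.det_fin_two] at hd
  ext i j
  rw [Matrix.mul_apply, Fin.sum_univ_two]
  fin_cases i <;> fin_cases j <;> simp only [Fin.zero_eta, Fin.mk_one, Fin.isValue,
    Matrix.one_apply_eq, ne_eq, zero_ne_one, one_ne_zero, not_false_eq_true, Matrix.one_apply_ne]
  · linear_combination X 0 0 * ht - hd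
  · linear_combination X 0 1 * ht
  · linear_combination X 1 0 * ht
  · linear_combination X 1 1 * ht - hd

theorem z3a : ∀ x : ZMod 3, x = 0 ∨ x = 1 ∨ x = -1 := by decide
theorem z3b : (-1 : ZMod 3) ≠ 1 := by decide
theorem z3c : (-1 + 1 : ZMod 3) = 0 := by decide
theorem z3d : ((Fintype.card (Fin 2) : ℕ) : ZMod 3) ≠ 0 := by decide

/-- **the auxiliary prime** -/
theorem auxPrime (p : ℕ) [Fact p.Prime] : AuxPrimeSt p := by
  intro ρ hρ hp3 S hS hunr
  subst hp3
  -- the kernel of the cyclotomic character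
  let χ : GQ →* (ZMod 3)ˣ := (chiK 3 (ZMod 3)).toHomUnits
  have hχ : ∀ g, ((χ g : (ZMod 3)ˣ) : ZMod 3) = chiK 3 (ZMod 3) g := fun g => rfl
  have hH : χ.ker.index = 1 ∨ χ.ker.index = 2 := by
    rw [Subgroup.index_ker]
    have h1 : Nat.card χ.range ≤ Nat.card (ZMod 3)ˣ :=
      Nat.card_le_card_of_injective _ Subtype.val_injective
    have h2 : Nat.card (ZMod 3)ˣ = 2 := by
      rw [Nat.card_eq_fintype_card]
      rfl
    have h3 : 0 < Nat.card χ.range := Nat.card_pos
    omega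
  have hsp := hρ.span χ.ker hH
  set c : GQ := complexConjugation with hc
  have hcdet : (ρ c).det = -1 := by rw [hρ.det, hc, LR.chi_conj]
  have hcinv : ρ c * ρ c⁻¹ = 1 := by rw [← map_mul, mul_inv_cancel, map_one]
  -- an element with determinant `-1` and nonzero trace
  obtain ⟨h, hh, htr⟩ : ∃ h ∈ χ.ker, (ρ (c * h)).trace ≠ 0 := by
    by_contra hcon
    push Not at hcon
    have key : ∀ X : Matrix (Fin 2) (Fin 2) (ZMod 3), (ρ c * X).trace = 0 := by
      intro X
      have hX : X ∈ Submodule.span (ZMod 3) (ρ '' (χ.ker : Set GQ)) := by rw [hsp]; trivial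
      induction hX using Submodule.span_induction with
      | mem Y hY =>
        obtain ⟨g, hg, rfl⟩ := hY
        rw [← map_mul]
        exact hcon g hg
      | zero => rw [mul_zero, Matrix.trace_zero]
      | add Y Z _ _ hY hZ => rw [mul_add, Matrix.trace_add, hY, hZ, add_zero]
      | smul a Y _ hY => rw [Matrix.mul_smul, Matrix.trace_smul, hY, smul_zero]
    have h1 := key (ρ c⁻¹)
    rw [hcinv, Matrix.trace_one] at h1
    exact z3d h1
  set γ := c * h with hγ
  have hγdet : (ρ γ).det = -1 := by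
    have h1 : (ρ h).det = 1 := by
      rw [hρ.det, ← hχ, MonoidHom.mem_ker.mp hh, Units.val_one]
    rw [hγ, map_mul, Matrix.det_mul, hcdet, h1, mul_one]
  obtain ⟨L, hL, hLk⟩ := hρ.level
  haveI := hL
  obtain ⟨r, hr, hrS, A, hA, τ, hτ, n, m, hn, hm⟩ := FrobDens.exists_frobenius L
    (S ∪ {3}) (hS.union (Set.finite_singleton 3)) γ
  have hrS1 : r ∉ S := fun h => hrS (Or.inl h)
  have hr3 : r ≠ 3 := fun h => hrS (Or.inr h)
  have hρn : ρ γ = ρ τ ^ n := by
    rw [← map_pow]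
    exact FinLevel.congr hLk fun x hx => (hn x hx).symm
  have hdet : (ρ τ).det = (r : ZMod 3) := by
    rw [hρ.det, chiK_frob 3 _ hr hA hr3 hτ]
  -- `r ≡ 2 mod 3`
  have hr0 : (r : ZMod 3) ≠ 0 := by
    intro h
    rw [ZMod.natCast_eq_zero_iff] at h
    exact hr3 ((Nat.prime_dvd_prime_iff_eq Nat.prime_three hr).mp h).symm
  have hcases : ∀ x : ZMod 3, x = 0 ∨ x = 1 ∨ x = -1 := z3a
  have hr2 : (r : ZMod 3) = -1 := by
    rcases hcases (r : ZMod 3) with h | h | h
    · exact absurd h hr0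
    · exfalso
      have h1 : (ρ γ).det = 1 := by rw [hρn, Matrix.det_pow, hdet, h, one_pow]
      rw [hγdet] at h1
      exact z3b h1
    · exact h
  have hmod : r % 3 = 2 := by
    have h1 : ((r + 1 : ℕ) : ZMod 3) = 0 := by
      push_cast
      rw [hr2]; exact z3c
    rw [ZMod.natCast_eq_zero_iff] at h1
    omega
  have hnodd : Odd n := by
    by_contra hcon
    rw [Nat.not_odd_iff_even] at hcon
    have h1 : (ρ γ).det = 1 := by rw [hρn, Matrix.det_pow, hdet, hr2, hcon.neg_one_pow]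
    rw [hγdet] at h1
    exact z3b h1
  have htrτ : (ρ τ).trace ≠ 0 := by
    intro h
    have h1 := cayley2 (ρ τ) h (by rw [hdet, hr2])
    obtain ⟨k, rfl⟩ := hnodd
    have h2 : ρ γ = ρ τ := by
      rw [hρn, pow_succ, pow_mul, pow_two, h1, one_pow, one_mul]
    exact htr (by rw [h2, h])
  refine ⟨r, hr, hrS1, hmod, ?_, ?_⟩
  · change (r : ZMod 3) ≠ 1
    rw [hr2]
    exact z3b
  · intro A' hA' τ' hτ' h
    change (ρ τ').trace ^ 2 = ((r : ZMod 3) + 1) ^ 2 at h
    rw [(trace_frob_all hr (hunr r hr hrS1) hA hA' hτ hτ').1, hr2] at h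
    have h2 : (ρ τ).trace ^ 2 = 0 := by
      rw [h]
      have h3 : ((-1 : ZMod 3) + 1) = 0 := z3c
      rw [h3]
      exact zero_pow two_ne_zero
    exact htrτ ((pow_eq_zero_iff two_ne_zero).mp h2)

end Fermat.Agent.TWG
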