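import Fermat.Agent.TWInst.Tame
import Fermat.Agent.TWGal.TameInertia

/-!
# Unipotent representations at primes where the residual representation is not of Steinberg type
-/

set_option autoImplicit false
set_option maxHeartbeats 400000

noncomputable section

namespace Fermat.Agent.TWG

open IsLocalRing Matrix Fermat.Agent.DefRing Fermat.Agent.GalRep Fermat.Agent.TWGal
  Fermat.Agent.TWInst

local notation "Qbar" => AlgebraicClosure ℚ

section Alg

variable {R : Type*} [CommRing R]

/-- matrices with `F n = q n F` vanish when `q`, `q - 1` and `(q+1)² - (tr F)²` are units -/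
theorem eq_zero_of_rel {F n : Matrix (Fin 2) (Fin 2) R} {q : R} (hd : F.det = q)
    (h : F * n = q • (n * F)) (hq : IsUnit q) (hq1 : IsUnit (q - 1))
    (ht : IsUnit ((q + 1) ^ 2 - F.trace ^ 2)) : n = 0 := by
  set t := F.trace with htd
  have hCH : F * F = t • F - q • (1 : Matrix (Fin 2) (Fin 2) R) := by
    rw [htd, ← hd, Matrix.trace_fin_two, Matrix.det_fin_two]
    ext i j
    rw [Matrix.mul_apply, Fin.sum_univ_two]
    fin_cases i <;> fin_cases j <;>
      simp only [Fin.zero_eta, Fin.mk_one, Fin.isValue, Matrix.sub_apply, Matrix.smul_apply,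
        Matrix.one_apply_eq, ne_eq, zero_ne_one, one_ne_zero, not_false_eq_true,
        Matrix.one_apply_ne, smul_eq_mul, mul_zero, sub_zero, mul_one] <;> ring
  have e1 : F * (F * n) = (q * q) • (n * (F * F)) := by
    rw [h, Matrix.mul_smul, ← mul_assoc, h, Matrix.smul_mul, smul_smul, mul_assoc]
  rw [← mul_assoc, hCH, sub_mul, Matrix.smul_mul, Matrix.smul_mul, one_mul, h, mul_sub,
    Matrix.mul_smul, Matrix.mul_smul, mul_one] at e1
  -- e1 : t • q • (n * F) - q • n = (q * q) • (t • (n * F) - q • n)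
  have e2 : (q * (q - 1)) • (t • (n * F) - (q + 1) • n) = 0 := by
    have : (q * (q - 1)) • (t • (n * F) - (q + 1) • n) =
        (q * q) • (t • (n * F) - q • n) - (t • q • (n * F) - q • n) := by
      module
    rw [this, ← e1, sub_self]
  have e3 : t • (n * F) = (q + 1) • n := by
    obtain ⟨u, hu⟩ := hq.mul hq1
    rw [← hu] at e2
    have e4 := congrArg (fun X => (↑u⁻¹ : R) • X) e2
    simp only [smul_smul, Units.inv_mul, one_smul, smul_zero] at e4
    exact sub_eq_zero.mp e4
  have e5 : t • (n * (F * F)) = (q + 1) • (n * F) := by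
    rw [← mul_assoc, ← Matrix.smul_mul, e3, Matrix.smul_mul]
  rw [hCH, mul_sub, Matrix.mul_smul, Matrix.mul_smul, mul_one] at e5
  -- e5 : t • (t • (n * F) - q • n) = (q + 1) • (n * F)
  have e6 : t • n = (q + 1) • (n * F) := by
    rw [← e5, e3]
    module
  have e7 : ((q + 1) ^ 2 - t ^ 2) • n = 0 := by
    have e8 : (t * t) • n = ((q + 1) * (q + 1)) • n := by
      calc (t * t) • n = t • (t • n) := by rw [smul_smul]
        _ = (q + 1) • (t • (n * F)) := by rw [e6, smul_smul, smul_smul, mul_comm]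
        _ = _ := by rw [e3, smul_smul]
    rw [sub_smul, pow_two, pow_two, e8, sub_self]
  obtain ⟨u, hu⟩ := ht
  rw [← hu] at e7
  have e9 := congrArg (fun X => (↑u⁻¹ : R) • X) e7
  simp only [smul_smul, Units.inv_mul, one_smul, smul_zero] at e9
  exact e9

/-- powers of `1 + n` with `n² = 0` -/
theorem pow_unip {M : Matrix (Fin 2) (Fin 2) R} (hM : (M - 1) * (M - 1) = 0) (k : ℕ) :
    M ^ k = 1 + (k : R) • (M - 1) := by
  induction k with
  | zero => simp
  | succ k ih =>
    have h1 : M = 1 + (M - 1) := by rw [add_sub_cancel]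
    have h2 : M ^ (k + 1) = (1 + (k : R) • (M - 1)) * (1 + (M - 1)) := by
      rw [pow_succ, ih, ← h1]
    rw [h2, add_mul, mul_add, mul_add, mul_one, mul_one, one_mul, Matrix.smul_mul, hM, smul_zero,
      add_zero]
    push_cast
    rw [add_smul, one_smul]
    abel

end Alg

variable {R : Type} [CommRing R] [IsLocalRing R] [IsHausdorff (maximalIdeal R) R]
  {T : GQ →* Matrix (Fin 2) (Fin 2) R} {A : ValuationSubring Qbar} {p q : ℕ}

/-- **unipotent implies unramified** at primes where the residual representation is unramified and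
not of Steinberg type -/
theorem unram_of_unip (hT : MatCont T) (hq : q.Prime) (hA : A.LiesOverPrime q)
    (hp : p.Prime) (hpq : p ≠ q) (hpR : (p : R) ∈ maximalIdeal R)
    (hI : ∀ σ ∈ A.inertiaSubgroupIn ℚ, ∀ i j, (T σ - 1) i j ∈ maximalIdeal R)
    (htr : ∀ σ ∈ A.inertiaSubgroupIn ℚ, (T σ).trace = 2)
    (hdet : ∀ σ ∈ A.inertiaSubgroupIn ℚ, (T σ).det = 1)
    {φ : GQ} (hφ : A.IsFrobeniusAt φ q) (hdφ : (T φ).det = (q : R))
    (hq0 : IsUnit (q : R)) (hq1 : IsUnit ((q : R) - 1))
    (ht : IsUnit (((q : R) + 1) ^ 2 - (T φ).trace ^ 2)) {σ : GQ}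
    (hσ : σ ∈ A.inertiaSubgroupIn ℚ) : T σ = 1 := by
  obtain ⟨σ₀, hσI, hσ₀⟩ := TWGal.exists_inertia_moving hq hA hp hpq
  have hN := sq_zero_of_trace_two (htr σ₀ hσI) (hdet σ₀ hσI)
  have hrel := tame_rel hT hq hA hp hpq hpR hI hφ hσI hσ₀
  rw [pow_unip hN] at hrel
  have h1 : T φ * (T σ₀ - 1) = (q : R) • ((T σ₀ - 1) * T φ) := by
    rw [mul_sub, mul_one, hrel, add_mul, one_mul, Matrix.smul_mul, add_sub_cancel_left]
  have h2 := eq_zero_of_rel hdφ h1 hq0 hq1 ht
  exact eq_one_of_eq_one hT hq hA hp hpq hpR hI hσI hσ₀ (sub_eq_zero.mp h2) hσ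

end Fermat.Agent.TWG
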