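import Fermat.Agent.TWG.Final
import Fermat.Agent.TWG.AuxP
import Fermat.Agent.SSMod.Ram
import Fermat.Agent.Carayol.K0Thm
import Fermat.Agent.CarayolY.Main

/-!
# The newform of minimal level
-/

set_option autoImplicit false
set_option maxHeartbeats 800000

noncomputable section

namespace Fermat.Agent.TWG

open Fermat.Agent.TWInst

open IsLocalRing Matrix Fermat.Agent.DefRing Fermat.Agent.GalRep Fermat.Agent.TWPatch
  Fermat.Agent.TWGal CuspForm Fermat.Agent.HeckeQ CongruenceSubgroup ModularFormClass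
  Fermat.Agent.AnJac Fermat.Agent.S43Glue Fermat.Agent.TW56

local notation "Qbar" => AlgebraicClosure ℚ

variable {p : ℕ} [hpf : Fact p.Prime]

/-- descending the coefficient field -/
theorem hmod_of_hom {M : ℕ} [NeZero M] {S : Set ℕ}
    {ρ : GQ →* Matrix (Fin 2) (Fin 2) (ZMod p)} (hMS : ∀ q : ℕ, q.Prime → q ∣ M → q ∈ S)
    {k : Type} [Field k] (φ : ZMod p →+* k) (ψ : heckeAlgebra M 2 S →+* k)
    (hval : ∀ (ℓ : ℕ) (hℓ : ℓ.Prime) (hℓM : ¬ ℓ ∣ M) (hℓS : ℓ ∉ S),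
      ∀ A : ValuationSubring Qbar, A.LiesOverPrime ℓ → ∀ τ : GQ, A.IsFrobeniusAt τ ℓ →
      ψ (heckeAlgebra.T hℓ hℓM hℓS) = φ (ρ τ).trace) : HMod ρ M S := by
  have hrange : ∀ x, ψ x ∈ φ.fieldRange := by
    intro x
    refine heckeAlgebra_range_le ψ _ (fun ℓ hℓ hℓM hℓS => ?_) hMS x
    obtain ⟨A, hA, τ, hτ⟩ := Frob.exists_place_frobenius hℓ
    rw [hval ℓ hℓ hℓM hℓS A hA τ hτ]
    exact ⟨_, rfl⟩
  choose θ' hθ' using hrange
  have hinj : Function.Injective φ := φ.injective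
  refine ⟨{ toFun := θ', map_one' := ?_, map_mul' := ?_, map_zero' := ?_, map_add' := ?_ }, ?_⟩
  · apply hinj
    rw [hθ', map_one, map_one]
  · intro x y
    apply hinj
    rw [map_mul, hθ', hθ', hθ', map_mul]
  · apply hinj
    rw [hθ', map_zero, map_zero]
  · intro x y
    apply hinj
    rw [map_add, hθ', hθ', hθ', map_add]
  · intro ℓ hℓ hℓM hℓS A hA τ hτ
    apply hinj
    show _ = φ (θ' _)
    rw [hθ', hval ℓ hℓ hℓM hℓS A hA τ hτ]

/-- the trace of inertia at `q ∥ M` for representations attached to the Hecke algebra -/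
theorem trace_uni_of {M : ℕ} [NeZero M] {S : Set ℕ} (hS : S.Finite) (hpS : p ∈ S)
    {D : Type} [CommRing D] [CNL D] (hpD : (p : D) ∈ maximalIdeal D)
    (x : heckeAlgebra M 2 S →+* D) {T : GQ →* Matrix (Fin 2) (Fin 2) D} (hT : MatCont T)
    (hfr : ∀ (ℓ : ℕ) (hℓ : ℓ.Prime) (hℓM : ¬ ℓ ∣ M) (hℓS : ℓ ∉ S),
        ∀ A : ValuationSubring Qbar, A.LiesOverPrime ℓ → ∀ τ : GQ, A.IsFrobeniusAt τ ℓ →
          (T τ).trace = x (heckeAlgebra.T hℓ hℓM hℓS) ∧ (T τ).det = (ℓ : D))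
    {q : ℕ} (hq : q.Prime) (hqM : q ∣ M) (hq2 : ¬ q ^ 2 ∣ M) (hqp : q ≠ p)
    {A : ValuationSubring Qbar} (hA : A.LiesOverPrime q) {σ : GQ}
    (hσ : σ ∈ A.inertiaSubgroupIn ℚ) : (T σ).trace = 2 := by
  have hfr' : HData.FrobCond (piH (p := p) x) T := by
    intro ℓ hℓ hℓM hℓS A hA τ hτ
    rw [piH_T _ hℓ hℓM hℓS]
    exact hfr ℓ hℓ _ hℓS A hA τ hτ
  have hc : cycP p σ = 1 := cycP_inertia p hq hA hqp hσ
  have hth : (hdata M p (esHyp M p)).th σ = castHom _ ℤ_[p]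
      ((2 : (hdata M p (esHyp M p)).TT S) : Matrix _ _ ℤ) :=
    SSMod.th_of_unip hc (SSMod.rho_inertia_unip SSMod.jl23 hq hqM hq2 hqp hA hσ)
  have htr := SSMod.trace_of_th hS (NeZero.ne M) hpD hT hfr' hth
  rwa [map_ofNat] at htr

/-- **level lowering at the scalar primes** -/
theorem new_step (hp2 : p ≠ 2) (HD : RT.DatumB) {M : ℕ} [NeZero M]
    {S : Set ℕ} {ρ : GQ →* Matrix (Fin 2) (Fin 2) (ZMod p)} (hsqf : Squarefree M)
    (hS : S.Finite) (hpS : p ∈ S) (hMS : ∀ q : ℕ, q.Prime → q ∣ M → q ∈ S)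
    (v3 : p ≠ 3 ∨ ∃ r : ℕ, r.Prime ∧ r % 3 = 2 ∧ r ∣ M) (hρ : SSRep p ρ) (hmod : HMod ρ M S)
    (hall : ∀ q : ℕ, q.Prime → q ∣ M → q ≠ p → ¬ UnrAt ρ q ∨ ScalAt p ρ q ∨ AuxAt p ρ q)
    (hP : ¬ p ∣ M ∨ (p ∣ M ∧ ¬ FlatRes p ρ ∧ MOrd p ρ)) :
    ∃ (N₀ : ℕ) (_ : NeZero N₀), N₀ ∣ M ∧ IsMinLevel p ρ N₀ ∧ HMod ρ N₀ S := by
  obtain ⟨D, i1, i2, i3, i4, hpD, x, T, hT, hTspan, hfr, ⟨k, j1, φ, κ, hκ0, hκ⟩, hunr⟩ :=
    point_of hp2 (CarayolY.carayolCore_of Carayol.carayolK0) HD hsqf hS hpS hMS v3 hρ hmod hall hP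
  obtain ⟨M₁, hM₁0, hM₁, g, hg, chig, iota, hchig, hiota⟩ := exists_newform_of_point hMS x
  have hM₁S : ∀ r : ℕ, r.Prime → r ∣ M₁ → r ∈ S := fun r hr hrM => hMS r hr (hrM.trans hM₁)
  have hM₁sq : Squarefree M₁ := hsqf.squarefree_of_dvd hM₁
  have hsq2 : ∀ {m : ℕ}, Squarefree m → ∀ {q : ℕ}, q.Prime → ¬ q ^ 2 ∣ m := by
    intro m hm q hq h
    rw [pow_two] at h
    exact hq.one_lt.ne' (Nat.isUnit_iff.mp (hm q h))
  haveI : CharP k p := charP_of_injective_ringHom φ.injective p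
  -- `ρ` is modular of level `M₁`
  have hmod₁ : HMod ρ M₁ S := by
    refine hmod_of_hom hM₁S φ (κ.comp (iota.comp chig.rangeRestrict)) ?_
    intro ℓ hℓ hℓM₁ hℓS A hA τ hτ
    have hℓM : ¬ ℓ ∣ M := fun h => hℓS (hMS ℓ hℓ h)
    rw [← hκ ℓ hℓ hℓM hℓS A hA τ hτ, ← hiota ℓ hℓ hℓM hℓS]
    rfl
  -- the residual representation of `T`
  let Tk : GQ →* Matrix (Fin 2) (Fin 2) k := mapT κ T
  let ρk : GQ →* Matrix (Fin 2) (Fin 2) k := φ.mapMatrix.toMonoidHom.comp ρ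
  have hρk : ∀ g, ρk g = φ.mapMatrix (ρ g) := fun g => rfl
  have hTk : ∀ g, Tk g = κ.mapMatrix (T g) := fun g => rfl
  have hTklev : FinLevel Tk := by
    obtain ⟨L, hL, h1⟩ := hT 1
    refine ⟨L, hL, fun σ hσ => ?_⟩
    ext i j
    have h2 := h1 σ hσ i j
    rw [pow_one] at h2
    have h3 := hκ0 _ h2
    rw [map_sub, sub_eq_zero] at h3
    refine h3.trans ?_
    rw [Matrix.one_apply, Matrix.one_apply]
    split_ifs
    · rw [map_one]
    · rw [map_zero]
  have hρklev : FinLevel ρk := by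
    obtain ⟨L, hL, h1⟩ := hρ.level
    exact ⟨L, hL, fun σ hσ => by rw [hρk, h1 σ hσ, map_one]⟩
  have htrk : ∀ g, (Tk g).trace = (ρk g).trace := by
    have hMfin : {q : ℕ | q ∣ M}.Finite := (Set.finite_le_nat M).subset fun q hq =>
      Nat.le_of_dvd (NeZero.pos M) hq
    intro g
    refine trace_eq_of_frob hTklev hρklev (S ∪ {q | q ∣ M}) (hS.union hMfin) ?_ g
    intro ℓ hℓ hℓS A hA τ hτ
    have hℓS1 : ℓ ∉ S := fun h => hℓS (Or.inl h)
    have hℓM : ¬ ℓ ∣ M := fun h => hℓS (Or.inr h)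
    have hℓp : ℓ ≠ p := fun h => hℓS1 (h ▸ hpS)
    obtain ⟨h1, h2⟩ := hfr ℓ hℓ hℓM hℓS1 A hA τ hτ
    refine ⟨?_, ?_⟩
    · have e1 : (Tk τ).trace = κ (T τ).trace := by
        rw [Matrix.trace_fin_two, Matrix.trace_fin_two, map_add]
        rfl
      have e2 : (ρk τ).trace = φ (ρ τ).trace := by
        rw [Matrix.trace_fin_two, Matrix.trace_fin_two, map_add]
        rfl
      rw [e1, e2, h1, hκ ℓ hℓ hℓM hℓS1 A hA τ hτ]
    · rw [hTk, hρk, ← RingHom.map_det, ← RingHom.map_det, h2, hρ.det,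
        chiK_frob p _ hℓ hA hℓp hτ, map_natCast, map_natCast]
  have hTkspan : Submodule.span k (Set.range Tk) = ⊤ := span_map_eq_top κ hTspan
  -- no unramified primes divide `M₁`
  have hno : ∀ q : ℕ, q.Prime → q ∣ M₁ → q ≠ p → ¬ UnrAt ρ q := by
    intro q hq hqM₁ hqp hunrq
    have hqM : q ∣ M := hqM₁.trans hM₁
    obtain ⟨A, hA, σ, hσ, hne⟩ := SSMod.newformRamified p M₁ S g hg hS hpS hM₁S D hpD chig hchig
      iota T hT hTspan (by
      intro ℓ hℓ hℓM₁ hℓS A hA τ hτ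
      have hℓM : ¬ ℓ ∣ M := fun h => hℓS (hMS ℓ hℓ h)
      obtain ⟨h1, h2⟩ := hfr ℓ hℓ hℓM hℓS A hA τ hτ
      exact ⟨by rw [h1, ← hiota ℓ hℓ hℓM hℓS], h2⟩) q hq hqp hqM₁ (hsq2 hM₁sq hq)
    rcases hall q hq hqM hqp with h | h | h
    · exact h hunrq
    · exact hne (hunr q hq hqM hqp h A hA σ hσ)
    · obtain ⟨h1, h2, h3⟩ := h
      apply hne
      obtain ⟨φ', hφ'⟩ := Frob.exists_isFrobeniusAt_Qbar A hq hA
      have hun : ∀ y : D, κ y ≠ 0 → IsUnit y := fun y hy => by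
        by_contra hu
        exact hy (hκ0 y hu)
      have hfr' : HData.FrobCond (piH (p := p) x) T := by
        intro ℓ hℓ hℓM hℓS A hA τ hτ
        rw [piH_T _ hℓ hℓM hℓS]
        exact hfr ℓ hℓ _ hℓS A hA τ hτ
      have hTk1 : ∀ σ ∈ A.inertiaSubgroupIn ℚ, Tk σ = 1 := by
        intro σ hσ
        rw [← sub_eq_zero]
        refine eq_zero_of_trace_mul_eq_zero (M := Tk) hTkspan _ fun g => ?_
        rw [sub_mul, one_mul, Matrix.trace_sub, ← map_mul, htrk, htrk, map_mul]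
        have e : ρk σ = 1 := by rw [hρk, h1 A hA σ hσ, map_one]
        rw [e, one_mul, sub_self]
      have hnz : ((q : ℕ) : k) ≠ 0 := by
        intro h
        exact hqp ((Nat.prime_dvd_prime_iff_eq hpf.out hq).mp
          ((CharP.cast_eq_zero_iff k p q).mp h)).symm
      have htrφ : κ (T φ').trace = φ (ρ φ').trace := by
        have e1 : (Tk φ').trace = κ (T φ').trace := by
          rw [Matrix.trace_fin_two, Matrix.trace_fin_two, map_add]
          rfl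
        have e2 : (ρk φ').trace = φ (ρ φ').trace := by
          rw [Matrix.trace_fin_two, Matrix.trace_fin_two, map_add]
          rfl
        rw [← e1, ← e2, htrk]
      refine unram_of_unip hT hq hA hpf.out hqp.symm hpD ?_
        (fun σ hσ => trace_uni_of hS hpS hpD x hT hfr hq hqM (hsq2 hsqf hq) hqp hA hσ)
        (fun σ hσ => by
          have h4 := SSMod.det_of_cycP hS (NeZero.ne M) hpD hT hfr' (σ := σ) (y := 1)
            (by rw [cycP_inertia p hq hA hqp hσ, Int.cast_one])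
          rw [h4, Int.cast_one]) hφ'
        (by
          have h4 := SSMod.det_of_cycP hS (NeZero.ne M) hpD hT hfr' (σ := φ') (y := q)
            (by rw [cycP_frob p hq hA hqp hφ', Int.cast_natCast])
          rw [h4, Int.cast_natCast]) (hun _ ?_) (hun _ ?_) (hun _ ?_) hσ
      · intro σ hσ a b
        by_contra hu
        have h4 : IsUnit ((T σ - 1) a b) := by
          by_contra h5
          exact hu h5
        have h5 : κ ((T σ - 1) a b) = 0 := by
          have h6 := congrFun (congrFun (hTk1 σ hσ) a) b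
          rw [Matrix.sub_apply, map_sub]
          have h7 : κ (T σ a b) = (1 : Matrix (Fin 2) (Fin 2) k) a b := h6
          rw [h7, Matrix.one_apply, Matrix.one_apply]
          split_ifs
          · rw [map_one, sub_self]
          · rw [map_zero, sub_self]
        exact (h4.map κ).ne_zero h5
      · rw [map_natCast]; exact hnz
      · rw [map_sub, map_natCast, map_one]
        intro h4
        apply h2
        apply φ.injective
        rw [map_natCast, map_one]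
        exact sub_eq_zero.mp h4
      · rw [map_sub, map_pow, map_add, map_natCast, map_one, map_pow, htrφ]
        intro h4
        apply h3 A hA φ' hφ'
        apply φ.injective
        rw [map_pow, map_pow, map_add, map_natCast, map_one]
        exact (sub_eq_zero.mp h4).symm
  refine ⟨M₁, hM₁0, hM₁, ⟨hM₁sq, ?_, ?_⟩, hmod₁⟩
  · intro q hq hqp
    refine ⟨fun h => hno q hq h hqp, fun h => ?_⟩
    by_contra hqM₁
    exact h fun A hA σ hσ => hmod₁.unramified hρ.level hρ.det hρ.span_top hS hpS hq hqM₁ hqp hA hσ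
  · refine ⟨fun h => ?_, fun h => ?_⟩
    · rcases hP with h1 | h1
      · exact absurd (h.trans hM₁) h1
      · exact h1.2.1
    · by_contra hpM₁
      exact h (flatRes_of_hmod hp2 hρ hpM₁ hS hpS hmod₁)

end Fermat.Agent.TWG
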