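import Fermat.Agent.TWG.Tangent
import Fermat.Agent.TWInst.Fields

/-!
# The core theorem for the global data
-/

set_option autoImplicit false
set_option maxHeartbeats 400000

noncomputable section

namespace Fermat.Agent.TWG

open Fermat.Agent.TWInst

open IsLocalRing Matrix Fermat.Agent.DefRing Fermat.Agent.GalRep Fermat.Agent.TWPatch
  Fermat.Agent.TWLoc Fermat.Agent.TWGal CuspForm Fermat.Agent.AnJac Fermat.Agent.HeckeQ
  CongruenceSubgroup ModularFormClass
open Fermat.Agent.TWCoh hiding GQ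

local notation "Qbar" => AlgebraicClosure ℚ

section Three

variable {k : Type} [Field k] {ρb : GQ →* Matrix (Fin 2) (Fin 2) k}

/-- the coboundaries have dimension three -/
theorem three_le_finrank (h2 : (2 : k) ≠ 0) (hspan : Submodule.span k (Set.range ρb) = ⊤)
    (Z : Submodule k (GQ → Matrix (Fin 2) (Fin 2) k)) [FiniteDimensional k Z]
    (hZ : ∀ X : Matrix (Fin 2) (Fin 2) k, X.trace = 0 →
      (fun g => X - ρb g * X * ρb g⁻¹) ∈ Z) : 3 ≤ Module.finrank k Z := by
  let F : (Fin 3 → k) →ₗ[k] Z :=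
    { toFun := fun u => ⟨fun g => !![u 0, u 1; u 2, -u 0] - ρb g * !![u 0, u 1; u 2, -u 0] *
        ρb g⁻¹, hZ _ (by rw [Matrix.trace_fin_two_of, add_neg_cancel])⟩
      map_add' := by
        intro u v
        apply Subtype.ext
        funext g
        change !![u 0 + v 0, u 1 + v 1; u 2 + v 2, -(u 0 + v 0)] -
          ρb g * !![u 0 + v 0, u 1 + v 1; u 2 + v 2, -(u 0 + v 0)] * ρb g⁻¹ =
          (!![u 0, u 1; u 2, -u 0] - ρb g * !![u 0, u 1; u 2, -u 0] * ρb g⁻¹) +
          (!![v 0, v 1; v 2, -v 0] - ρb g * !![v 0, v 1; v 2, -v 0] * ρb g⁻¹)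
        have h1 : !![u 0 + v 0, u 1 + v 1; u 2 + v 2, -(u 0 + v 0)] =
            !![u 0, u 1; u 2, -u 0] + !![v 0, v 1; v 2, -v 0] := by
          ext i j
          fin_cases i <;> fin_cases j <;> simp [add_comm]
        rw [h1, mul_add, add_mul]
        abel
      map_smul' := by
        intro a u
        apply Subtype.ext
        funext g
        change !![a * u 0, a * u 1; a * u 2, -(a * u 0)] -
          ρb g * !![a * u 0, a * u 1; a * u 2, -(a * u 0)] * ρb g⁻¹ =
          a • (!![u 0, u 1; u 2, -u 0] - ρb g * !![u 0, u 1; u 2, -u 0] * ρb g⁻¹)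
        have h1 : !![a * u 0, a * u 1; a * u 2, -(a * u 0)] = a • !![u 0, u 1; u 2, -u 0] := by
          ext i j
          fin_cases i <;> fin_cases j <;> simp
        rw [h1, smul_sub, Matrix.mul_smul, Matrix.smul_mul] }
  have hF : Function.Injective F := by
    rw [injective_iff_map_eq_zero]
    intro u hu
    set X : Matrix (Fin 2) (Fin 2) k := !![u 0, u 1; u 2, -u 0] with hX
    have h7 : ∀ g, X * ρb g = ρb g * X := by
      intro g
      have h8 : X - ρb g * X * ρb g⁻¹ = 0 := congrFun (congrArg Subtype.val hu) g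
      have h9 : X = ρb g * X * ρb g⁻¹ := sub_eq_zero.mp h8
      have h10 : ρb g⁻¹ * ρb g = 1 := by rw [← map_mul, inv_mul_cancel, map_one]
      conv_lhs => rw [h9]
      rw [mul_assoc, h10, mul_one]
    have h8 : ∀ Y : Matrix (Fin 2) (Fin 2) k, X * Y = Y * X := by
      intro Y
      have hY : Y ∈ Submodule.span k (Set.range ρb) := by rw [hspan]; trivial
      induction hY using Submodule.span_induction with
      | mem y hy => obtain ⟨g, rfl⟩ := hy; exact h7 g
      | zero => rw [mul_zero, zero_mul]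
      | add y z _ _ hy hz => rw [mul_add, add_mul, hy, hz]
      | smul a y _ hy => rw [Matrix.mul_smul, Matrix.smul_mul, hy]
    have h9 := h8 !![0, 1; 0, 0]
    have h10 := h8 !![0, 0; 1, 0]
    rw [hX, Matrix.mul_fin_two, Matrix.mul_fin_two] at h9 h10
    have e0 := congrFun (congrFun h9 0) 0
    have e1 := congrFun (congrFun h9 0) 1
    have e2 := congrFun (congrFun h10 0) 0
    simp at e0 e1 e2
    have hu0 : u 0 = 0 := by
      have : (2 : k) * u 0 = 0 := by linear_combination e1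
      exact (mul_eq_zero.mp this).resolve_left h2
    funext i
    fin_cases i
    · exact hu0
    · exact e2
    · exact e0.symm
  have h13 := LinearMap.finrank_le_finrank_of_injective hF
  rwa [Module.finrank_fin_fun] at h13

end Three

attribute [local instance] algDk LevD.cnl

variable {p : ℕ} [hpf : Fact p.Prime] {O : Type} [CommRing O] [CNL O] (G : Glob p O)

variable {G}

theorem SelH_le {CP : (GQ → Matrix (Fin 2) (Fin 2) (ResidueField O)) → Prop} {r : ℕ}
    (h : SelH p G.Smin G.I G.S G.ρb CP r) : 3 * G.I.card ≤ r := by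
  obtain ⟨Q, -, -, Z, hZ, h1, -, h2⟩ := h 0
  haveI := hZ
  have := three_le_finrank G.two_ne G.span Z h2
  omega

/-- the auxiliary data of level `n` from a set of primes -/
theorem exists_LevD_of_finset {r n : ℕ} {Q : Finset ℕ} (hQ : Q.card = r)
    (h : ∀ q ∈ Q, q.Prime ∧ q ∉ G.S ∧ p ^ (n + 1) ∣ q - 1 ∧
    ∃ α β : ResidueField O, α ≠ β ∧ α * β = 1 ∧ ∀ A : ValuationSubring Qbar,
      A.LiesOverPrime q → ∀ τ : GQ, A.IsFrobeniusAt τ q → (G.ρb τ).trace = α + β) :
    ∃ L : LevD G r n, L.Qf = Q := by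
  classical
  choose h1 h2 h3 α β h4 h5 h6 using h
  let e : Q ≃ Fin r := Q.equivFinOfCardEq hQ
  let qs : Fin r → PS G.S := fun j => ⟨(e.symm j : ℕ), h1 _ (e.symm j).2, h2 _ (e.symm j).2⟩
  let α' : PS G.S → ResidueField O := fun l => if hl : l.1 ∈ Q then α l.1 hl else 0
  let β' : PS G.S → ResidueField O := fun l => if hl : l.1 ∈ Q then β l.1 hl else 0
  have hα : ∀ j, α' (qs j) = α _ (e.symm j).2 := fun j => dif_pos (e.symm j).2
  have hβ : ∀ j, β' (qs j) = β _ (e.symm j).2 := fun j => dif_pos (e.symm j).2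
  obtain ⟨L, hL, -, -⟩ := exists_LevD (G := G) r n qs (fun i j hij => by
      have h7 : (qs i).1 = (qs j).1 := by rw [hij]
      exact e.symm.injective (Subtype.ext h7)) (fun j => h3 _ (e.symm j).2) α' β'
    (fun j => by
      obtain ⟨A, hA, τ, hτ⟩ := Frob.exists_place_frobenius (qs j).2.1
      rw [← G.trace_frob (qs j) hA hτ, hα, hβ]
      exact h6 _ (e.symm j).2 A hA τ hτ)
    (fun j => by rw [hα, hβ]; exact h5 _ (e.symm j).2)
    (fun j => by rw [hα, hβ]; exact h4 _ (e.symm j).2)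
  refine ⟨L, ?_⟩
  ext q
  rw [L.mem_Qf, hL]
  constructor
  · rintro ⟨j, rfl⟩
    exact (e.symm j).2
  · intro hq
    exact ⟨e ⟨q, hq⟩, by show ((e.symm (e ⟨q, hq⟩) : Q) : ℕ) = q; rw [e.symm_apply_apply]⟩

section

variable [IsDomain O] [CharZero O] [Algebra ℤ_[p] O] [Module.Finite ℤ_[p] O]
  [Nontrivial (M0 O G.N G.τ)] [CNL G.R₀] {ρ₀ : Rep0 G} (HC : Carayol.CarayolCore)
  {CP : (GQ → Matrix (Fin 2) (Fin 2) (ResidueField O)) → Prop}
  (hCP : ∀ (r n : ℕ) (L : LevD G r n) (gn : heckeAlgebra L.NN 2 (bad L.Q) →+* L.R)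
    (ρn : RepN (ρ₀ := ρ₀) gn) (ℓ : L.R → ResidueField O),
    (∀ l : PS (bad L.Q), gn (gT L.pcond.dat₁.avoid l) = TN.T L.pcond l) →
    ℓ ∈ Der L.κ (jset G.LD G.ε ρn.T) → CP (coc ρn.T G.ρb ℓ))

include HC hCP in
/-- **the data of level `n`** -/
theorem exists_level (φK : O →+* KK p) (hinj : Function.Injective φK) {r : ℕ} 
    (hsel : SelH p G.Smin G.I G.S G.ρb CP r)
    {d : ℕ} (b₀ : Module.Basis (Fin d) O (M0 O G.N G.τ)) (n : ℕ) :
    Nonempty (Lvl (((algebraicClosure ℚ_[p] ℂ_[p]).val : KK p →+* ℂ_[p]).comp φK) G.LD G.ε G.ρb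
      G.lam (r - 3 * G.I.card) r d n ρ₀.T (G.a₀ b₀)) := by
  letI : Algebra O (KK p) := φK.toAlgebra
  have hinj' : Function.Injective (algebraMap O (KK p)) := hinj
  obtain ⟨Q, hQ, h1, Z, hZ, h2, h3, h4⟩ := hsel (n + 1)
  obtain ⟨L, hL⟩ := exists_LevD_of_finset hQ h1
  obtain ⟨gn, hg⟩ := L.exists_hecke φK hinj
  obtain ⟨hsurj, ⟨ρn⟩⟩ := exists_RepN (ρ₀ := ρ₀) gn hg
  obtain ⟨j⟩ := exists_complex (p := p)
  have hgen := exists_trace_gen (K := KK p) hinj' hg ρn (lgc₁ hg ρn) (lgc₂ hg ρn)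
  haveI := hZ
  have hle := SelH_le hsel
  obtain ⟨hder, hder'⟩ := finrank_der_le (J := jset G.LD G.ε ρn.T) ρn.res G.span G.two_ne hgen Z
    (g := r - 3 * G.I.card) (by omega)
    (fun X hX c hc => Z.add_mem hc (h4 X hX))
    (fun ℓ hℓ => h3 _ (by rw [← hL]; exact selCoc_of_der ρn hℓ (hCP _ _ L gn ρn ℓ hg hℓ)))
  exact exists_Lvl (((algebraicClosure ℚ_[p] ℂ_[p]).val : KK p →+* ℂ_[p]).comp φK)
    ((algebraicClosure ℚ_[p] ℂ_[p]).val : KK p →+* ℂ_[p]) hinj' (fun a => rfl) b₀ L hsurj ρn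
    hder hder'
    (fun e i => tr₁_of j hg ρn e i) (fun e i => tr₂_of hinj' HC j hg ρn e i)

end

end Fermat.Agent.TWG
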