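import Fermat.Agent.TWG.SelC
import Fermat.Agent.TW56.Fin

/-!
# The Selmer bound (general form)
-/

set_option autoImplicit false
set_option maxHeartbeats 800000
set_option linter.unusedSectionVars false

noncomputable section

namespace Fermat.Agent.TWG

open IsLocalRing Matrix Fermat.Agent.DefRing Fermat.Agent.GalRep Fermat.Agent.TWGal
  Fermat.Agent.TWPatch GaloisRep Fermat.Agent.FlatLoc Fermat.Agent.TWPr Fermat.Agent.TW56

local notation "Qbar" => AlgebraicClosure ℚ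

variable {p : ℕ} [hp : Fact p.Prime] {k : Type} [Field k] [Finite k] [Algebra (ZMod p) k]
  {ρb : GQ →* Matrix (Fin 2) (Fin 2) k}

/-- **the Selmer bound** -/
theorem selH_of_cond (hcond : TWCond p k ρb) (Smin I : Finset ℕ) {S : Set ℕ}
    (hS : S.Finite)
    (hIp : ∀ q ∈ I, q.Prime ∧ q ≠ p) (hdisj : ∀ q ∈ I, q ∉ Smin)
    (hunr : ∀ q : ℕ, q.Prime → q ≠ p → q ∉ Smin → ∀ A : ValuationSubring Qbar,
      A.LiesOverPrime q → ∀ σ ∈ A.inertiaSubgroupIn ℚ, ρb σ = 1)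
    (hunip : ∀ q ∈ Smin, q.Prime → q ≠ p → ∀ A : ValuationSubring Qbar, A.LiesOverPrime q →
      ∀ σ ∈ A.inertiaSubgroupIn ℚ, (ρb σ - 1) * (ρb σ - 1) = 0)
    (hram : ∀ q ∈ Smin, q.Prime → q ≠ p → ∀ A : ValuationSubring Qbar, A.LiesOverPrime q →
      ∃ σ ∈ A.inertiaSubgroupIn ℚ, ρb σ ≠ 1)
    (hscal : ∀ q ∈ I, ∀ A : ValuationSubring Qbar, A.LiesOverPrime q →
      ∀ σ ∈ A.decompositionSubgroup ℚ, ∃ a : k, ρb σ = a • (1 : Matrix (Fin 2) (Fin 2) k))
    (Lp : Submodule k (DD (padicPlace p) → Matrix (Fin 2) (Fin 2) k)) (hLf : Module.Finite k Lp)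
    (hLr : Module.finrank k Lp ≤ 4)
    (hLc : ∀ X : Matrix (Fin 2) (Fin 2) k, X.trace = 0 →
      (fun σ : DD (padicPlace p) => X - ρb (σ : GQ) * X * ρb (σ : GQ)⁻¹) ∈ Lp)
    {CP : (GQ → Matrix (Fin 2) (Fin 2) k) → Prop}
    (hCP : ∀ c, IsCock ρb c → (∀ σ, (c σ).trace = 0) → FinLev c 0 → CP c →
      (fun σ : DD (padicPlace p) => c (σ : GQ)) ∈ Lp) :
    ∃ r, SelH p Smin I S ρb CP r := by
  classical
  haveI : CharP k p := charP_of_injective_algebraMap (algebraMap (ZMod p) k).injective p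
  let Sm : Finset ℕ := insert p Smin
  let Sm' : Finset Nat.Primes := Sm.subtype Nat.Prime
  let s' : Finset Nat.Primes := I.subtype Nat.Prime
  have hm : ∀ q : Nat.Primes, q ∈ Sm' ↔ ((q : ℕ) = p ∨ (q : ℕ) ∈ Smin) := by
    intro q
    have e : q ∈ Sm' ↔ (q : ℕ) ∈ Sm := Finset.mem_subtype
    rw [e, Finset.mem_insert]
  have hs : ∀ q : Nat.Primes, q ∈ s' ↔ (q : ℕ) ∈ I := fun q =>
    Finset.mem_subtype
  have hscard : s'.card = I.card := by
    show (I.subtype Nat.Prime).card = _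
    rw [Finset.card_subtype, Finset.filter_true_of_mem fun q hq => (hIp q hq).1]
  have H : SelHyp p k ρb Sm' s' Lp :=
    { cond := hcond
      hpS := (hm _).mpr (Or.inl rfl)
      disj := fun q hq hq' => by
        rcases (hm q).mp hq' with h | h
        · exact (hIp q ((hs q).mp hq)).2 h
        · exact hdisj q ((hs q).mp hq) h
      unr := fun q hq A hA σ hσ => by
        rw [hm, not_or] at hq
        exact hunr q q.2 hq.1 hq.2 A hA σ hσ
      unip := fun q hq hqp σ hσ =>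
        hunip q (((hm q).mp hq).resolve_left hqp) q.2 hqp _ (CFT.padicPlace_liesOver (q : ℕ)) σ hσ
      ram := fun q hq hqp =>
        hram q (((hm q).mp hq).resolve_left hqp) q.2 hqp _ (CFT.padicPlace_liesOver (q : ℕ))
      scal := fun q hq σ hσ =>
        hscal q ((hs q).mp hq) _ (CFT.padicPlace_liesOver (q : ℕ)) σ hσ
      Lfin := hLf
      Lrank := hLr
      Lcob := by
        intro X hX
        have h1 := Lp.neg_mem (hLc X hX)
        have e : TWPr.resD k (CFT.pP p) (TWPr.cob ρb X) =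
            -(fun σ : DD (padicPlace p) => X - ρb (σ : GQ) * X * ρb (σ : GQ)⁻¹) := by
          funext σ
          change ρb (σ : GQ) * X * ρb (σ : GQ)⁻¹ - X = -(X - ρb (σ : GQ) * X * ρb (σ : GQ)⁻¹)
          rw [neg_sub]
        rw [e]
        exact h1 }
  obtain ⟨r, hr⟩ := H.exists_selmer (l3Hyp hcond.lev) S hS
  refine ⟨r, fun n => ?_⟩
  obtain ⟨Q, hQr, hQ, Z, hZf, hZ, hZs, hZc⟩ := hr n
  refine ⟨Q, hQr, fun q hq => ?_, Z, hZf, ?_, ?_, ?_⟩
  · obtain ⟨h1, h2, h3, h4, h5⟩ := hQ q hq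
    exact ⟨h1, fun h => h2 h, h4, h5⟩
  · rwa [hscard] at hZ
  · intro c hc
    refine hZs c ⟨⟨hc.coc, hc.tr, hc.lev⟩, ?_, ?_, ?_, hCP c hc.coc hc.tr hc.lev hc.loc⟩
    · intro q hq hqs hqQ A hA σ hσ
      rw [hm, not_or] at hq
      exact hc.unr q q.2 hq.1 hq.2 (fun h => hqs ((hs q).mpr h)) hqQ A hA σ hσ
    · intro q hq hqp σ hσ
      have h1 := ((hm q).mp hq).resolve_left hqp
      exact hc.uni q q.2 h1 (fun h => hdisj q h h1) hqp _ (CFT.padicPlace_liesOver (q : ℕ)) σ hσ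
    · intro q hq σ hσ
      exact hc.spl q ((hs q).mp hq) _ (CFT.padicPlace_liesOver (q : ℕ)) σ hσ
  · intro X hX
    have h1 := Z.neg_mem (hZc X hX)
    have e : -(TWPr.cob ρb X) = fun g => X - ρb g * X * ρb g⁻¹ := by
      funext g
      change -(ρb g * X * ρb g⁻¹ - X) = _
      rw [neg_sub]
    rwa [e] at h1

end Fermat.Agent.TWG
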