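import Fermat.Agent.TWG.Tangent
import Fermat.Agent.TWG.Res

/-!
# The strictly ordinary condition at `p` for the cocycles of level `n`
-/

set_option autoImplicit false
set_option maxHeartbeats 400000

noncomputable section

namespace Fermat.Agent.TWG

open Fermat.Agent.TWInst

open IsLocalRing Matrix Fermat.Agent.DefRing Fermat.Agent.GalRep Fermat.Agent.TWPatch
  Fermat.Agent.TWLoc Fermat.Agent.TWGal CuspForm Fermat.Agent.AnJac Fermat.Agent.HeckeQ
  CongruenceSubgroup ModularFormClass Fermat.Agent.TW56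
open Fermat.Agent.TWCoh hiding GQ

local notation "Qbar" => AlgebraicClosure ℚ

attribute [local instance] algDk LevD.cnl

/-- the strictly ordinary condition at `p` -/
def CPord (p : ℕ) [Fact p.Prime] {k : Type} [Field k] [Algebra (ZMod p) k]
    (ρb : GQ →* Matrix (Fin 2) (Fin 2) k) (P Q : Matrix (Fin 2) (Fin 2) k)
    (c : GQ → Matrix (Fin 2) (Fin 2) k) : Prop :=
  (fun σ : FlatLoc.DD (padicPlace p) => c (σ : GQ)) ∈
    Lord (repD (padicPlace p) ρb) P Q (Z1c p k (padicPlace p))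

variable {p : ℕ} [hpf : Fact p.Prime] {O : Type} [CommRing O] [CNL O] {G : Glob p O}
  {r n : ℕ} (L : LevD G r n)

section

variable [Nontrivial (M0 O G.N G.τ)] [CNL G.R₀] {ρ₀ : Rep0 G} {L}
  {gn : heckeAlgebra L.NN 2 (bad L.Q) →+* L.R} (ρn : RepN (ρ₀ := ρ₀) gn)

/-- the representation of level `n` is strictly ordinary -/
theorem mord_level [IsDomain O] [IsDiscreteValuationRing O] [CharZero O]
    [Finite (ResidueField O)] [Algebra (ZMod p) (ResidueField O)] (HD : RT.DatumB)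
    (hpN : p ∣ G.N) (hpI : p ∉ G.I)
    (hdet : ∀ σ, (G.ρb σ).det = algebraMap (ZMod p) (ResidueField O) (S43Glue.chiK p (ZMod p) σ))
    (hord : MOrd p G.ρb) (hnf : ¬ FlatLoc.IsFlatMod (FlatLoc.Zloc p) (FlatLoc.vk G.ρb)) :
    MDet p ρn.T ∧ MOrd p ρn.T := by
  classical
  have hlev := G.cont
  set ρbar := matResRep G.ρb hlev with hρbar
  have habs : ρbar.IsAbsolutelyIrreducible := absIrr_matResRep G.hp2 hlev G.span hdet
  let b : Module.Basis (Fin 2) (ResidueField O) ρbar.V := Pi.basisFun (ResidueField O) (Fin 2)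
  have hres : ∀ σ, resMat ρbar b σ = G.ρb σ := fun σ => by
    rw [resMat]
    exact LinearMap.toMatrix'_toLin' (G.ρb σ)
  have hrep : repMat (GaloisRepAdic.ofResidualGaloisRep ρbar) b = G.ρb :=
    MonoidHom.ext fun σ => hres σ
  have hpk : (p : ResidueField O) ∈ maximalIdeal (ResidueField O) := by
    rw [G.pk]
    exact zero_mem _
  have hmem : ∀ x : L.R, x ∈ maximalIdeal L.R ↔ L.κ x = 0 := fun x => by
    rw [← ker_kappa L.κ]; exact Iff.rfl
  have hκ : ∀ (x : L.R) (y : O), L.κ x = residue O y → residue L.R x = residue L.R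
      (algebraMap O L.R y) := by
    intro x y h
    rw [← sub_eq_zero, ← map_sub, residue_eq_zero_iff, hmem, map_sub, h, AlgHom.commutes]
    exact sub_self _
  haveI : Module.Finite O L.R := L.fin
  haveI : IsLocalHom (algebraMap O L.R) := ⟨fun a ha => by
    by_contra hu
    have h1 : residue O a = 0 := (residue_eq_zero_iff a).mpr hu
    have h2 : L.κ (algebraMap O L.R a) = 0 := by
      rw [AlgHom.commutes]
      exact h1
    exact ((hmem _).mpr h2) ha⟩
  have hsurj : Function.Surjective (residue L.R ∘ algebraMap O L.R) := by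
    intro y
    obtain ⟨x, rfl⟩ := residue_surjective y
    obtain ⟨y, hy⟩ := residue_surjective (L.κ x)
    exact ⟨y, (hκ x y hy.symm).symm⟩
  have hflat : ¬ (GaloisRepAdic.ofResidualGaloisRep ρbar).IsFlatAt p := by
    intro h
    apply hnf
    have h1 := ((flatAt_iff _ b).mp h).2
    rw [hrep] at h1
    have h2 := h1.flat (RingHom.id (ResidueField O))
    have h3 : mapT (RingHom.id (ResidueField O)) G.ρb = G.ρb := MonoidHom.ext fun g => rfl
    rw [h3] at h2
    exact h2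
  have hordR : (GaloisRepAdic.ofResidualGaloisRep ρbar).IsOrdinaryAt p :=
    ((ord_iff _ b).mpr ⟨hpk, by rw [hrep]; exact hord⟩).isOrdinaryAt
  have hp2N : ¬ p ^ 2 ∣ L.NN := L.not_sq_dvd hpf.out hpN hpI
  have hpNN : p ∣ L.NN := (hpN.mul_right _).mul_right _
  have h := HD O p G.hp2 G.hpO ρbar habs b L.NN (bad L.Q) L.bad_finite.toFinset
    (Set.Finite.coe_toFinset _) (Or.inl G.hpS)
    (fun q hq hqN => by
      rcases L.prime_NN' hq hqN with h | h
      · exact Or.inl (G.hNS q hq h)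
      · obtain ⟨j, hj⟩ := L.mem_Qf.mp h
        right
        exact ⟨L.qs j, L.mem_Q.mpr ⟨j, rfl⟩, hj⟩)
    L.R hsurj gn ρn.T ρn.cont
    (fun σ i j => by
      obtain ⟨y, hy⟩ := residue_surjective (G.ρb σ i j)
      have h1 : L.κ (ρn.T σ i j) = residue O y := by
        rw [hy, ← ρn.res σ]
        rfl
      rw [hκ _ y h1, hres, ← hy]
      rfl)
    (fun ℓ hℓ hℓN hℓS A hA τ hτ => by
      have hℓp : ℓ ≠ p := fun h => hℓS (Or.inl (h ▸ G.hpS))
      have hℓNp : ¬ ℓ ∣ L.NN * p := NN_p_of (L := L) hℓ hℓN hℓp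
      obtain ⟨h1, h2⟩ := ρn.frob ℓ hℓ hℓNp hℓS A hA τ hτ
      rw [piH_T _ hℓ hℓNp hℓS] at h1
      exact ⟨h1, h2⟩)
    RT.PType.st ∅ (fun q hq => absurd hq (Finset.notMem_empty q))
    ⟨hpNN, hp2N, hordR, hflat⟩
  obtain ⟨b', hb'⟩ := exists_basis_matRep ρn.T ρn.cont
  refine ⟨?_, ?_⟩
  · have := ((detCyc_iff _ b').mp h.1.1).2
    rwa [hb'] at this
  · have := ((ord_iff _ b').mp h.1.2.1).2
    rwa [hb'] at this

theorem cpOrd [IsDomain O] [IsDiscreteValuationRing O] [CharZero O]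
    [Finite (ResidueField O)] [Algebra (ZMod p) (ResidueField O)] (HD : RT.DatumB)
    (hpN : p ∣ G.N) (hpI : p ∉ G.I)
    (hdet : ∀ σ, (G.ρb σ).det = algebraMap (ZMod p) (ResidueField O) (S43Glue.chiK p (ZMod p) σ))
    (hord : MOrd p G.ρb) (hnf : ¬ FlatLoc.IsFlatMod (FlatLoc.Zloc p) (FlatLoc.vk G.ρb))
    {P Q : Matrix (Fin 2) (Fin 2) (ResidueField O)} (hPQ : Adap p (padicPlace p) G.ρb P Q)
    {ℓ : L.R → ResidueField O} (h : ℓ ∈ Der L.κ (jset G.LD G.ε ρn.T)) :
    CPord p G.ρb P Q (coc ρn.T G.ρb ℓ) := by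
  obtain ⟨h1, h2⟩ := mord_level ρn HD hpN hpI hdet hord hnf
  exact coc_mem_Lord G.hp2 (CFT.padicPlace_liesOver p) ρn.res h G.pk ρn.cont h1 h2 G.cont hPQ

end

end Fermat.Agent.TWG
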