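import Fermat.Agent.TWG.Prime
import Fermat.Agent.TWG.SelB
import Fermat.Agent.TWG.Comm
import Fermat.Agent.TWG.TanOrd
import Fermat.Agent.S43Glue.Ring
import Fermat.Agent.CycRk.Fin
import Fermat.Agent.TW56.H1

/-!
# The point of the Hecke algebra for semistable residual representations
-/

set_option autoImplicit false
set_option maxHeartbeats 800000

noncomputable section

namespace Fermat.Agent.TWG

open Fermat.Agent.TWInst

open IsLocalRing Matrix Fermat.Agent.DefRing Fermat.Agent.GalRep Fermat.Agent.TWPatch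
  Fermat.Agent.TWLoc Fermat.Agent.TWGal CuspForm Fermat.Agent.AnJac Fermat.Agent.HeckeQ
  CongruenceSubgroup ModularFormClass Fermat.Agent.S43Glue Fermat.Agent.TW56
open Fermat.Agent.TWCoh hiding GQ

local notation "Qbar" => AlgebraicClosure ℚ

attribute [local instance] algDk LevD.cnl

/-- the image of a spanning set of matrices spans -/
theorem span_image_eq_top {A B : Type} [CommRing A] [CommRing B] (φ : A →+* B)
    {X : Set (Matrix (Fin 2) (Fin 2) A)} (h : Submodule.span A X = ⊤) :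
    Submodule.span B (φ.mapMatrix '' X) = ⊤ := by
  have h1 : ∀ M : Matrix (Fin 2) (Fin 2) A, φ.mapMatrix M ∈ Submodule.span B (φ.mapMatrix '' X) := by
    intro M
    have hM : M ∈ Submodule.span A X := by rw [h]; trivial
    induction hM using Submodule.span_induction with
    | mem Y hY => exact Submodule.subset_span ⟨Y, hY, rfl⟩
    | zero => rw [map_zero]; exact Submodule.zero_mem _
    | add Y Z _ _ hY hZ => rw [map_add]; exact Submodule.add_mem _ hY hZ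
    | smul a Y _ hY =>
      have e : φ.mapMatrix (a • Y) = φ a • φ.mapMatrix Y := by
        ext i j
        rw [RingHom.mapMatrix_apply, Matrix.map_apply, Matrix.smul_apply, Matrix.smul_apply,
          smul_eq_mul, smul_eq_mul, map_mul, RingHom.mapMatrix_apply, Matrix.map_apply]
      rw [e]
      exact Submodule.smul_mem _ _ hY
  rw [eq_top_iff]
  intro M _
  rw [Matrix.matrix_eq_sum_single M]
  refine Submodule.sum_mem _ fun i _ => Submodule.sum_mem _ fun j _ => ?_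
  have e : Matrix.single i j (M i j) = M i j • φ.mapMatrix (Matrix.single i j 1) := by
    rw [RingHom.mapMatrix_apply, Matrix.map_single, map_one, Matrix.smul_single, smul_eq_mul,
      mul_one]
  rw [e]
  exact Submodule.smul_mem _ _ (h1 _)

variable {p : ℕ} [hpf : Fact p.Prime]

/-- the scalar primes -/
def ScalAt (p : ℕ) [Fact p.Prime] (ρ : GQ →* Matrix (Fin 2) (Fin 2) (ZMod p)) (q : ℕ) : Prop :=
  UnrAt ρ q ∧ p ∣ q - 1 ∧ ∀ A : ValuationSubring Qbar, A.LiesOverPrime q →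
    ∀ τ : GQ, A.IsFrobeniusAt τ q → ρ τ = 1 ∨ ρ τ = -1

/-- the harmless primes -/
def AuxAt (p : ℕ) [Fact p.Prime] (ρ : GQ →* Matrix (Fin 2) (Fin 2) (ZMod p)) (q : ℕ) : Prop :=
  UnrAt ρ q ∧ (q : ZMod p) ≠ 1 ∧ ∀ A : ValuationSubring Qbar, A.LiesOverPrime q →
    ∀ τ : GQ, A.IsFrobeniusAt τ q → (ρ τ).trace ^ 2 ≠ ((q : ZMod p) + 1) ^ 2

/-- **the point of the Hecke algebra, unramified at the scalar primes** -/
theorem point_of (hp2 : p ≠ 2) (HC : Carayol.CarayolCore) (HD : RT.DatumB) {M : ℕ} [NeZero M]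
    {S : Set ℕ} {ρ : GQ →* Matrix (Fin 2) (Fin 2) (ZMod p)} (hsqf : Squarefree M)
    (hS : S.Finite) (hpS : p ∈ S) (hMS : ∀ q : ℕ, q.Prime → q ∣ M → q ∈ S)
    (v3 : p ≠ 3 ∨ ∃ r : ℕ, r.Prime ∧ r % 3 = 2 ∧ r ∣ M) (hρ : SSRep p ρ) (hmod : HMod ρ M S)
    (hall : ∀ q : ℕ, q.Prime → q ∣ M → q ≠ p → ¬ UnrAt ρ q ∨ ScalAt p ρ q ∨ AuxAt p ρ q)
    (hP : ¬ p ∣ M ∨ (p ∣ M ∧ ¬ FlatRes p ρ ∧ MOrd p ρ)) :
    ∃ (D : Type) (_ : CommRing D) (_ : IsDomain D) (_ : CharZero D) (_ : CNL D)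
      (_ : (p : D) ∈ maximalIdeal D) (x : heckeAlgebra M 2 S →+* D)
      (T : GQ →* Matrix (Fin 2) (Fin 2) D), MatCont T ∧
      Submodule.span D (Set.range T) = ⊤ ∧
      (∀ (ℓ : ℕ) (hℓ : ℓ.Prime) (hℓM : ¬ ℓ ∣ M) (hℓS : ℓ ∉ S),
        ∀ A : ValuationSubring Qbar, A.LiesOverPrime ℓ → ∀ τ : GQ, A.IsFrobeniusAt τ ℓ →
          (T τ).trace = x (heckeAlgebra.T hℓ hℓM hℓS) ∧ (T τ).det = (ℓ : D)) ∧
      (∃ (k : Type) (_ : Field k) (φ : ZMod p →+* k) (κ : D →+* k),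
        (∀ y ∈ maximalIdeal D, κ y = 0) ∧
        ∀ (ℓ : ℕ) (hℓ : ℓ.Prime) (hℓM : ¬ ℓ ∣ M) (hℓS : ℓ ∉ S),
        ∀ A : ValuationSubring Qbar, A.LiesOverPrime ℓ → ∀ τ : GQ, A.IsFrobeniusAt τ ℓ →
          κ (x (heckeAlgebra.T hℓ hℓM hℓS)) = φ (ρ τ).trace) ∧
      ∀ q : ℕ, q.Prime → q ∣ M → q ≠ p → ScalAt p ρ q → ∀ A : ValuationSubring Qbar,
        A.LiesOverPrime q → ∀ σ ∈ A.inertiaSubgroupIn ℚ, T σ = 1 := by
  classical
  have hp : p.Prime := hpf.out
  have hunrM : ∀ q : ℕ, q.Prime → q ≠ p → ¬ q ∣ M → UnrAt ρ q := fun q hq hqp hqM A hA σ hσ =>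
    hmod.unramified hρ.level hρ.det hρ.span_top hS hpS hq hqM hqp hA hσ
  have hflat : ¬ p ∣ M → FlatRes p ρ := fun h => flatRes_of_hmod hp2 hρ h hS hpS hmod
  obtain ⟨θ, hθ⟩ := hmod
  set I : Finset ℕ := M.primeFactors.filter (fun q => q ≠ p ∧ ScalAt p ρ q) with hI
  have hI0 : ∀ q, q ∈ I ↔ q.Prime ∧ q ∣ M ∧ q ≠ p ∧ ScalAt p ρ q := by
    intro q
    rw [hI, Finset.mem_filter, Nat.mem_primeFactors]
    exact ⟨fun h => ⟨h.1.1, h.1.2.1, h.2⟩, fun h => ⟨⟨h.1, h.2.1, NeZero.ne M⟩, h.2.2⟩⟩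
  set Smin : Finset ℕ := M.primeFactors.filter (fun q => q ≠ p ∧ ¬ UnrAt ρ q) with hSm
  have hSm0 : ∀ q, q ∈ Smin ↔ q.Prime ∧ q ∣ M ∧ q ≠ p ∧ ¬ UnrAt ρ q := by
    intro q
    rw [hSm, Finset.mem_filter, Nat.mem_primeFactors]
    exact ⟨fun h => ⟨h.1.1, h.1.2.1, h.2⟩, fun h => ⟨⟨h.1, h.2.1, NeZero.ne M⟩, h.2.2⟩⟩
  have hI1 : ∀ q ∈ I, q.Prime ∧ q ∣ M ∧ q ≠ p := fun q hq =>
    ⟨((hI0 q).mp hq).1, ((hI0 q).mp hq).2.1, ((hI0 q).mp hq).2.2.1⟩
  have hI2 : ∀ q ∈ I, ScalAt p ρ q := fun q hq => ((hI0 q).mp hq).2.2.2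
  have hpq : ∀ q ∈ I, p ≠ q := fun q hq h => (hI1 q hq).2.2 h.symm
  -- exponents
  let a : I → ℕ := fun i => ((i : ℕ) - 1).factorization p
  let m : I → ℕ := fun i => ((i : ℕ) - 1) / p ^ a i
  have hq1 : ∀ i : I, (i : ℕ) - 1 ≠ 0 := fun i => by
    have := (hI1 i i.2).1.one_lt
    omega
  have hqm : ∀ i : I, (i : ℕ) = p ^ a i * m i + 1 := fun i => by
    have h1 : p ^ a i * m i = (i : ℕ) - 1 := Nat.ordProj_mul_ordCompl_eq_self _ p
    have h2 := (hI1 i i.2).1.one_lt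
    omega
  have ha : ∀ i, a i ≠ 0 := fun i => by
    have h1 := (hI2 i i.2).2.1
    exact (hp.factorization_pos_of_dvd (hq1 i) h1).ne'
  have hm : ∀ i, ¬ p ∣ m i := fun i => Nat.not_dvd_ordCompl hp (hq1 i)
  let Am : ℕ := Finset.univ.sup a
  have hAm : ∀ i, a i ≤ Am := fun i => Finset.le_sup (Finset.mem_univ i)
  -- the coefficient ring
  obtain ⟨O, i1, i2, i3, i4, i5, i6, i7, htf, hpO, ⟨ζ, hζ⟩, hquad⟩ := exists_coeff p Am
  haveI : CharP (ResidueField O) p := by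
    have h1 : ((p : ℕ) : ResidueField O) = 0 := by
      rw [← map_natCast (residue O), residue_eq_zero_iff]
      exact hpO
    exact (CharP.charP_iff_prime_eq_zero hp).mpr h1
  letI : Algebra (ZMod p) (ResidueField O) := ZMod.algebra _ p
  haveI : Finite (ResidueField O) := CNL.finRes
  -- places
  have hpl : ∀ i : I, ∃ (A : ValuationSubring Qbar) (φ σ : GQ), A.LiesOverPrime i ∧
      A.IsFrobeniusAt φ i ∧ σ ∈ A.inertiaSubgroupIn ℚ ∧ ∀ π : Qbar, π ^ p = (i : ℕ) → σ π ≠ π := by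
    intro i
    obtain ⟨A, hA, φ, hφ⟩ := Frob.exists_place_frobenius (hI1 i i.2).1
    obtain ⟨σ, hσ, hσ'⟩ := TWGal.exists_inertia_moving (hI1 i i.2).1 hA hp (hpq i i.2)
    exact ⟨A, φ, σ, hA, hφ, hσ, hσ'⟩
  choose A φ σ hA hφ hσ hσ' using hpl
  let LD : LocD p I :=
    { q := fun i => i
      hq := fun i => (hI1 i i.2).1
      hpq := fun i => hpq i i.2
      A := A
      hA := hA
      φ := φ
      hφ := hφ
      σ := σ
      hσ := hσ
      hσ' := hσ' }
  have hpm : ∀ i, ρ (φ i) = 1 ∨ ρ (φ i) = -1 := fun i =>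
    (hI2 i i.2).2.2 (A i) (hA i) (φ i) (hφ i)
  let ε : I → O := fun i => if ρ (φ i) = 1 then 1 else -1
  have hε : ∀ i, ε i ^ 2 = 1 := fun i => by
    by_cases h : ρ (φ i) = 1
    · simp only [ε, if_pos h, one_pow]
    · simp only [ε, if_neg h, neg_one_sq]
  let ρb := FlatLoc.rk (ResidueField O) ρ
  have hρb : ∀ g, ρb g = (algebraMap (ZMod p) (ResidueField O)).mapMatrix (ρ g) := fun g => rfl
  have htr : ∀ g, (ρb g).trace = algebraMap (ZMod p) (ResidueField O) (ρ g).trace := fun g => by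
    rw [hρb, Matrix.trace_fin_two, Matrix.trace_fin_two, map_add]
    rfl
  have hdetb : ∀ g, (ρb g).det = algebraMap (ZMod p) (ResidueField O) (chiK p (ZMod p) g) :=
    fun g => by rw [hρb, ← RingHom.map_det, hρ.det]
  have hρ1 : ∀ g, ρb g = 1 → ρ g = 1 := by
    intro g h
    have h1 : (algebraMap (ZMod p) (ResidueField O)).mapMatrix (ρ g) =
        (algebraMap (ZMod p) (ResidueField O)).mapMatrix 1 := by
      rw [← hρb, h, map_one]
    ext i j
    have h2 := congrFun (congrFun h1 i) j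
    exact (algebraMap (ZMod p) (ResidueField O)).injective h2
  have hρ1' : ∀ g, ρ g = 1 → ρb g = 1 := fun g h => by rw [hρb, h, map_one]
  have hspanb : ∀ H : Subgroup GQ, H.index = 1 ∨ H.index = 2 →
      Submodule.span (ResidueField O) (ρb '' (H : Set GQ)) = ⊤ := by
    intro H hH
    have h1 := span_image_eq_top (algebraMap (ZMod p) (ResidueField O)) (hρ.span H hH)
    rwa [Set.image_image] at h1
  have hspanT : Submodule.span (ResidueField O) (Set.range ρb) = ⊤ := by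
    have := hspanb ⊤ (Or.inl Subgroup.index_top)
    rwa [Subgroup.coe_top, Set.image_univ] at this
  have hspl : ∀ σ, ∃ α β : ResidueField O, (ρb σ).trace = α + β ∧ (ρb σ).det = α * β := by
    intro σ
    obtain ⟨α, β, h⟩ := hquad (algebraMap (ZMod p) (ResidueField O)) (ρ σ).trace (ρ σ).det
    refine ⟨α, β, ?_⟩
    have hd : (ρb σ).det = algebraMap (ZMod p) (ResidueField O) (ρ σ).det := by
      rw [hρb, ← RingHom.map_det]
    rw [htr, hd]
    have e : (Polynomial.X - Polynomial.C α) * (Polynomial.X - Polynomial.C β) =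
        Polynomial.X ^ 2 - Polynomial.C (α + β) * Polynomial.X + Polynomial.C (α * β) := by
      rw [map_add, map_mul]; ring
    rw [e] at h
    have h3 := congrArg (fun P => P.coeff 1) h
    have h4 := congrArg (fun P => P.coeff 0) h
    simp only [Polynomial.coeff_add, Polynomial.coeff_sub, Polynomial.coeff_X_pow,
      Polynomial.coeff_C_mul, Polynomial.coeff_X_one, mul_one, Polynomial.coeff_C_succ,
      add_zero, if_neg (by norm_num : ¬ (1 : ℕ) = 2), zero_sub, neg_inj] at h3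
    simp only [Polynomial.coeff_add, Polynomial.coeff_sub, Polynomial.coeff_X_pow,
      Polynomial.coeff_C_mul, Polynomial.coeff_X_zero, mul_zero, Polynomial.coeff_C_zero,
      sub_zero, if_neg (by norm_num : ¬ (0 : ℕ) = 2), zero_add] at h4
    exact ⟨h3, h4⟩
  have hlevb : FlatLoc.FinLev ρb 1 := by
    obtain ⟨L, hL, h1⟩ := hρ.level
    exact ⟨L, hL, fun σ hσ => hρ1' _ (h1 σ hσ)⟩
  have hcond : TWPr.TWCond p (ResidueField O) ρb :=
    twCond_of hp2 (h1Van hp2) hlevb hdetb hspanb hspl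
  have hres : ResCond LD ε ρb := by
    refine ⟨fun i => ?_, fun i σ hσ => ?_⟩
    · by_cases h : ρ (φ i) = 1
      · have h1 : ε i = 1 := if_pos h
        rw [h1, hρb]
        change (algebraMap (ZMod p) (ResidueField O)).mapMatrix (ρ (φ i)) = _
        rw [h, map_one, map_one, one_smul]
      · have h1 : ε i = -1 := if_neg h
        rw [h1, hρb]
        change (algebraMap (ZMod p) (ResidueField O)).mapMatrix (ρ (φ i)) = _
        rw [(hpm i).resolve_left h, map_neg, map_one, map_neg, map_one, neg_smul, one_smul]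
    · exact hρ1' _ ((hI2 i i.2).1 (A i) (hA i) σ hσ)
  obtain ⟨lam, hlam⟩ := (IsDiscreteValuationRing.exists_irreducible O)
  have hlam' : maximalIdeal O = Ideal.span {lam} :=
    (IsDiscreteValuationRing.irreducible_iff_uniformizer _).mp hlam
  let G : Glob p O :=
    { N := M
      nz := inferInstance
      sqf := hsqf
      v3 := v3
      hp2 := hp2
      hpO := hpO
      S := S
      hS := hS
      hpS := hpS
      hNS := hMS
      ρb := ρb
      cont := hlevb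
      span := hspanT
      f := (algebraMap (ZMod p) (ResidueField O)).comp θ
      frob := fun ℓ hℓ hℓN hℓS A hA τ hτ => by
        refine ⟨?_, ?_⟩
        · rw [htr, hθ ℓ hℓ hℓN hℓS A hA τ hτ]
          rfl
        · rw [hdetb, chiK_frob p _ hℓ hA (fun h => hℓS (h ▸ hpS)) hτ, map_natCast]
      comm := exists_comm_ne ρb hspanT hspl
      I := I
      hI := hI1
      Smin := Smin
      hSm := fun q hq => ((hSm0 q).mp hq).2.1
      aux := fun q hq hqM hqp hqI hqS => by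
        have haux : AuxAt p ρ q := by
          rcases hall q hq hqM hqp with h | h | h
          · exact absurd ((hSm0 q).mpr ⟨hq, hqM, hqp, h⟩) hqS
          · exact absurd ((hI0 q).mpr ⟨hq, hqM, hqp, h⟩) hqI
          · exact h
        obtain ⟨h1, h2, h3⟩ := haux
        refine ⟨?_, ?_, fun A hA => ⟨fun σ hσ => hρ1' _ (h1 A hA σ hσ), fun φ hφ h => ?_⟩⟩
        · intro h
          exact hqp ((Nat.prime_dvd_prime_iff_eq hp hq).mp
            ((CharP.cast_eq_zero_iff (ResidueField O) p q).mp h)).symm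
        · intro h
          apply h2
          apply (algebraMap (ZMod p) (ResidueField O)).injective
          rw [map_natCast, map_one, h]
        · apply h3 A hA φ hφ
          apply (algebraMap (ZMod p) (ResidueField O)).injective
          rw [map_pow, ← htr, h, map_pow, map_add, map_natCast, map_one]
      LD := LD
      hLD := fun i => rfl
      ε := ε
      hε := hε
      res := hres
      a := a
      m := m
      hqm := hqm
      ha := ha
      hm := hm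
      ζ := fun i => ζ ^ p ^ (Am - a i)
      hζ := fun i => hζ.pow (pow_pos hp.pos _) (by rw [← pow_add, Nat.sub_add_cancel (hAm i)])
      lam := lam
      hlam := hlam' }
  -- local data for the Selmer bound
  have hdisj : ∀ q ∈ I, q ∉ Smin := fun q hq h =>
    ((hSm0 q).mp h).2.2.2 (hI2 q hq).1
  have hunr : ∀ q : ℕ, q.Prime → q ≠ p → q ∉ Smin → ∀ A : ValuationSubring Qbar,
      A.LiesOverPrime q → ∀ σ ∈ A.inertiaSubgroupIn ℚ, ρb σ = 1 := by
    intro q hq hqp hqS A hA σ hσ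
    apply hρ1'
    by_cases hqM : q ∣ M
    · by_contra h
      exact hqS ((hSm0 q).mpr ⟨hq, hqM, hqp, fun h' => h (h' A hA σ hσ)⟩)
    · exact hunrM q hq hqp hqM A hA σ hσ
  have hunip : ∀ q ∈ Smin, q.Prime → q ≠ p → ∀ A : ValuationSubring Qbar, A.LiesOverPrime q →
      ∀ σ ∈ A.inertiaSubgroupIn ℚ, (ρb σ - 1) * (ρb σ - 1) = 0 := by
    intro q _ hq hqp A hA σ hσ
    rw [hρb, ← map_one ((algebraMap (ZMod p) (ResidueField O)).mapMatrix), ← map_sub, ← map_mul,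
      hρ.unip q hq hqp A hA σ hσ, map_zero]
  have hram : ∀ q ∈ Smin, q.Prime → q ≠ p → ∀ A : ValuationSubring Qbar, A.LiesOverPrime q →
      ∃ σ ∈ A.inertiaSubgroupIn ℚ, ρb σ ≠ 1 := by
    intro q hqS hq hqp A hA
    have h1 := ((hSm0 q).mp hqS).2.2.2
    unfold UnrAt at h1
    push Not at h1
    obtain ⟨A', hA', σ, hσ, hne⟩ := h1
    exact ram_all (ρb := ρb) hq hA' ⟨σ, hσ, fun h => hne (hρ1 _ h)⟩ hA
  have hscal : ∀ q ∈ I, ∀ A : ValuationSubring Qbar, A.LiesOverPrime q →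
      ∀ σ ∈ A.decompositionSubgroup ℚ, ∃ a : ResidueField O,
        ρb σ = a • (1 : Matrix (Fin 2) (Fin 2) (ResidueField O)) := by
    intro q hqI A hA σ hσ
    have hq := (hI1 q hqI).1
    obtain ⟨φ, hφ⟩ := Frob.exists_isFrobeniusAt_Qbar A hq hA
    obtain ⟨L, hL, hLev⟩ := hρ.level
    obtain ⟨n, τ, hτ, h⟩ := TWGal.exists_frob_mul_inertia hq hA hφ hσ L
    have h1 : ρ σ = ρ (φ ^ n * τ) := (FinLevel.congr hLev h).symm
    have h2 : ρ τ = 1 := (hI2 q hqI).1 _ hA τ hτ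
    have h3 : ∃ a : ZMod p, ρ σ = a • (1 : Matrix (Fin 2) (Fin 2) (ZMod p)) := by
      rw [h1, map_mul, h2, mul_one, map_pow]
      rcases (hI2 q hqI).2.2 _ hA φ hφ with h4 | h4
      · exact ⟨1, by rw [h4, one_pow, one_smul]⟩
      · refine ⟨(-1) ^ n, ?_⟩
        rw [h4, show (-1 : Matrix (Fin 2) (Fin 2) (ZMod p)) = (-1 : ZMod p) • 1 by
          rw [neg_smul, one_smul], smul_pow, one_pow]
    obtain ⟨a, ha⟩ := h3
    refine ⟨algebraMap (ZMod p) (ResidueField O) a, ?_⟩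
    rw [hρb, ha]
    ext i j
    rw [RingHom.mapMatrix_apply, Matrix.map_apply, Matrix.smul_apply, Matrix.smul_apply,
      smul_eq_mul, smul_eq_mul, map_mul, Matrix.one_apply, Matrix.one_apply]
    split_ifs
    · rw [map_one]
    · rw [map_zero]
  have hIp : ∀ q ∈ I, q.Prime ∧ q ≠ p := fun q hq => ⟨(hI1 q hq).1, (hI1 q hq).2.2⟩
  have hfinal : ∀ {CP : (GQ → Matrix (Fin 2) (Fin 2) (ResidueField O)) → Prop},
      (∀ [Nontrivial (M0 O G.N G.τ)] [CNL G.R₀] (ρ₀ : Rep0 G) (r n : ℕ) (L : LevD G r n)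
      (gn : heckeAlgebra L.NN 2 (bad L.Q) →+* L.R)
      (ρn : RepN (ρ₀ := ρ₀) gn) (ℓ : L.R → ResidueField O),
      (∀ l : PS (bad L.Q), gn (gT L.pcond.dat₁.avoid l) = TN.T L.pcond l) →
      ℓ ∈ Der L.κ (jset G.LD G.ε ρn.T) → CP (coc ρn.T G.ρb ℓ)) →
      (∃ r, SelH p Smin I S ρb CP r) →
      ∃ (D : Type) (_ : CommRing D) (_ : IsDomain D) (_ : CharZero D) (_ : CNL D)
      (_ : (p : D) ∈ maximalIdeal D) (x : heckeAlgebra M 2 S →+* D)
      (T : GQ →* Matrix (Fin 2) (Fin 2) D), MatCont T ∧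
      Submodule.span D (Set.range T) = ⊤ ∧
      (∀ (ℓ : ℕ) (hℓ : ℓ.Prime) (hℓM : ¬ ℓ ∣ M) (hℓS : ℓ ∉ S),
        ∀ A : ValuationSubring Qbar, A.LiesOverPrime ℓ → ∀ τ : GQ, A.IsFrobeniusAt τ ℓ →
          (T τ).trace = x (heckeAlgebra.T hℓ hℓM hℓS) ∧ (T τ).det = (ℓ : D)) ∧
      (∃ (k : Type) (_ : Field k) (φ : ZMod p →+* k) (κ : D →+* k),
        (∀ y ∈ maximalIdeal D, κ y = 0) ∧
        ∀ (ℓ : ℕ) (hℓ : ℓ.Prime) (hℓM : ¬ ℓ ∣ M) (hℓS : ℓ ∉ S),
        ∀ A : ValuationSubring Qbar, A.LiesOverPrime ℓ → ∀ τ : GQ, A.IsFrobeniusAt τ ℓ →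
          κ (x (heckeAlgebra.T hℓ hℓM hℓS)) = φ (ρ τ).trace) ∧
      ∀ q : ℕ, q.Prime → q ∣ M → q ≠ p → ScalAt p ρ q → ∀ A : ValuationSubring Qbar,
        A.LiesOverPrime q → ∀ σ ∈ A.inertiaSubgroupIn ℚ, T σ = 1 := by
    intro CP hCP ⟨r, hr⟩
    obtain ⟨D, j1, j2, j3, j4, hpD, x, T, h1, h2, h3, ⟨κ, hκ0, hκ⟩, h5⟩ :=
      exists_point (G := G) htf HC (CP := CP) hCP (r := r) hr
    refine ⟨D, j1, j2, j3, j4, hpD, x, T, h1, h2, h3, ⟨ResidueField O, inferInstance,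
      algebraMap (ZMod p) (ResidueField O), κ, hκ0, ?_⟩, ?_⟩
    · intro ℓ hℓ hℓM hℓS A hA τ hτ
      have h6 := hκ ⟨ℓ, hℓ, hℓS⟩
      have h7 := G.trace_frob ⟨ℓ, hℓ, hℓS⟩ hA hτ
      rw [← htr]
      exact h6.trans h7.symm
    · intro q hq hqM hqp hsc
      exact h5 q ((hI0 q).mpr ⟨hq, hqM, hqp, hsc⟩)
  rcases hP with hpM | ⟨hpM, hnf, hord⟩
  · -- the flat case
    have hV := FlatLoc.flat_rk (k := ResidueField O) (hflat hpM)
    have hLp := TWPr.LpFlat_rank hp2 hcond.det hcond.lev hV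
    refine hfinal (CP := CPflat p ρb) ?_ ?_
    · intro _ _ ρ₀ r n L gn ρn ℓ _ hℓ
      exact cpFlat ρn hpM hℓ
    · refine selH_of_cond hcond Smin I hS hIp hdisj hunr hunip hram hscal
        (TWPr.LpFlat p ρb hV) hLp.1 hLp.2 (fun X hX => ⟨_, FlatLoc.gfk_cob hV hcond.lev hX, rfl⟩) ?_
      intro c hc1 hc2 hc3 hc4
      obtain ⟨_, hc4⟩ := hc4
      exact ⟨c, ⟨hc1, hc2, hc3, hc4⟩, rfl⟩
  · -- the strictly ordinary case
    have hpI : p ∉ I := fun h => (hI1 p h).2.2 rfl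
    have hordb : MOrd p ρb := hord.map (f := algebraMap (ZMod p) (ResidueField O))
    have hnfb : ¬ FlatLoc.IsFlatMod (FlatLoc.Zloc p) (FlatLoc.vk ρb) := fun h =>
      hnf (flatRes_of_ext h)
    have hA0 := CFT.padicPlace_liesOver p
    have hpk : (p : ResidueField O) = 0 := by rw [CharP.cast_eq_zero]
    obtain ⟨B, B', e1, e2, e3, e4, e5⟩ := hordb _ hA0
    have hPQ : Adap p (padicPlace p) ρb B B' := by
      have := adap_of_mord (𝒪 := O) (R := ResidueField O) (κ := AlgHom.id O (ResidueField O))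
        (T := ρb) (ρb := ρb) (fun g => by ext i j; rfl) hpk e1 e2 e3 e4 e5
      have f1 : B.map (AlgHom.id O (ResidueField O)) = B := by ext i j; rfl
      have f2 : B'.map (AlgHom.id O (ResidueField O)) = B' := by ext i j; rfl
      rwa [f1, f2] at this
    obtain ⟨hLf, hLr⟩ := finrank_Lord (ρ := repD (padicPlace p) ρb) (P := B) (Q := B')
      (Z1c p (ResidueField O) (padicPlace p)) (CycRk.z1Bound hp2 _)
    refine hfinal (CP := CPord p ρb B B') ?_ ?_
    · intro _ _ ρ₀ r n L gn ρn ℓ _ hℓ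
      exact cpOrd ρn HD hpM hpI hdetb hordb hnfb hPQ hℓ
    · refine selH_of_cond hcond Smin I hS hIp hdisj hunr hunip hram hscal
        (Lord (repD (padicPlace p) ρb) B B' (Z1c p (ResidueField O) (padicPlace p))) hLf hLr
        (fun X _ => cob_mem_Lord hlevb hPQ X) ?_
      intro c _ _ _ hc4
      exact hc4

end Fermat.Agent.TWG
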