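import Fermat.Agent.TWG.RepN

/-!
# The data of level `n`
-/

set_option autoImplicit false
set_option maxHeartbeats 400000

noncomputable section

namespace Fermat.Agent.TWG

open Fermat.Agent.TWInst

open IsLocalRing Matrix Fermat.Agent.DefRing Fermat.Agent.GalRep Fermat.Agent.TWPatch
  Fermat.Agent.TWLoc Fermat.Agent.TWGal CuspForm Fermat.Agent.AnJac Fermat.Agent.HeckeQ
open Fermat.Agent.TWCoh hiding GQ

local notation "Qbar" => AlgebraicClosure ℚ

attribute [local instance] algDk LevD.cnl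

variable {p : ℕ} [hpf : Fact p.Prime] {O : Type} [CommRing O] [CNL O] {G : Glob p O}

section Points

variable {K : Type} [Field K] [CharZero K] [IsAlgClosed K] [Algebra O K] {r n : ℕ} (L : LevD G r n)

/-- points of the first type -/
def LevD.P₁ (K : Type) [Field K] [Algebra O K] : Type :=
  Σ χ : DG p n r →* Kˣ, EPt L.pcond L.ψ₁ K (chHom O K (DG p n r) χ)

/-- points of the second type -/
def LevD.P₂ (K : Type) [Field K] [Algebra O K] : Type :=
  Σ χ : DG p n r →* Kˣ, EPt L.pcond L.ψ₂ K (chHom O K (DG p n r) χ)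

variable {L}

/-- the values of the points -/
def yy₁ (e : L.P₁ K) : L.R →+* K := e.2.y.comp (toFN₁ L.pcond)

/-- the values of the points -/
def yy₂ (e : L.P₂ K) : L.R →+* K := e.2.y.comp (toFN₂ L.pcond)

theorem yy₁_Λ (e : L.P₁ K) (x : DRing O p n r) :
    yy₁ e (algebraMap _ L.R x) = chHom O K (DG p n r) e.1 x := by
  rw [yy₁, RingHom.comp_apply, toFN₁_algebraMap, e.2.y_algebraMap]

theorem yy₂_Λ (e : L.P₂ K) (x : DRing O p n r) :
    yy₂ e (algebraMap _ L.R x) = chHom O K (DG p n r) e.1 x := by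
  rw [yy₂, RingHom.comp_apply, toFN₂_algebraMap, e.2.y_algebraMap]

theorem algebraMap_RO (a : O) :
    algebraMap O L.R a = algebraMap (DRing O p n r) L.R (algebraMap O _ a) := rfl

theorem yy₁_O (e : L.P₁ K) (a : O) : yy₁ e (algebraMap O L.R a) = algebraMap O K a := by
  rw [algebraMap_RO, yy₁_Λ, chHom_algebraMap]

theorem yy₂_O (e : L.P₂ K) (a : O) : yy₂ e (algebraMap O L.R a) = algebraMap O K a := by
  rw [algebraMap_RO, yy₂_Λ, chHom_algebraMap]

variable (hinj : Function.Injective (algebraMap O K))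

include hinj in
theorem exists_P₁ {t : L.R} (ht : toFN₁ L.pcond t ≠ 0) : ∃ e : L.P₁ K, yy₁ e t ≠ 0 := by
  haveI := G.cnlDk n r
  obtain ⟨χ, e, he⟩ := exists_EPt₁ L.pcond (fun χ : DG p n r →* Kˣ => chHom O K (DG p n r) χ)
    (fun x hx => chHom_injective hinj x hx) ht
  exact ⟨⟨χ, e⟩, he⟩

include hinj in
theorem exists_P₂ {t : L.R} (ht : toFN₂ L.pcond t ≠ 0) : ∃ e : L.P₂ K, yy₂ e t ≠ 0 := by
  haveI := G.cnlDk n r
  obtain ⟨χ, e, he⟩ := exists_EPt₂ L.pcond (fun χ : DG p n r →* Kˣ => chHom O K (DG p n r) χ)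
    (fun x hx => chHom_injective hinj x hx) ht
  exact ⟨⟨χ, e⟩, he⟩

include hinj in
/-- the points are jointly injective -/
theorem ext_points {s t : L.R} (h1 : ∀ e : L.P₁ K, yy₁ e s = yy₁ e t)
    (h2 : ∀ e : L.P₂ K, yy₂ e s = yy₂ e t) : s = t := by
  rw [← sub_eq_zero]
  refine TN_ext L.pcond ?_ ?_
  · by_contra hne
    obtain ⟨e, he⟩ := exists_P₁ hinj hne
    exact he (by rw [map_sub, h1, sub_self])
  · by_contra hne
    obtain ⟨e, he⟩ := exists_P₂ hinj hne
    exact he (by rw [map_sub, h2, sub_self])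

end Points

section Level

variable [Nontrivial (M0 O G.N G.τ)] [CNL G.R₀] {ρ₀ : Rep0 G}
  {C : Type} [Field C] (φC : O →+* C) {K : Type} [Field K] [CharZero K] [IsAlgClosed K]
  [Algebra O K] (ι : K →+* C)

/-- **the data of level `n`** -/
theorem exists_Lvl (hinj : Function.Injective (algebraMap O K))
    (hι : ∀ a, ι (algebraMap O K a) = φC a) {d : ℕ} (b₀ : Module.Basis (Fin d) O (M0 O G.N G.τ))
    {r n g : ℕ} (L : LevD G r n) {gn : heckeAlgebra L.NN 2 (bad L.Q) →+* L.R}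
    (hsurj : Function.Surjective L.bt) (ρn : RepN (ρ₀ := ρ₀) gn)
    (hder : FiniteDimensional (ResidueField O) (Der L.κ (jset G.LD G.ε ρn.T)))
    (hder' : Module.finrank (ResidueField O) (Der L.κ (jset G.LD G.ε ρn.T)) ≤ g)
    (tr₁ : ∀ (e : L.P₁ K) i, yy₁ e (ρn.T (G.LD.σ i)).trace = 2)
    (tr₂ : ∀ (e : L.P₂ K) i, yy₂ e (ρn.T (G.LD.σ i)).trace ≠ 2) :
    Nonempty (Lvl φC G.LD G.ε G.ρb G.lam g r d n ρ₀.T (G.a₀ b₀)) := by
  haveI := G.cnlDk n r
  obtain ⟨X₁, X₂, h1, h2, h3, h4, h5, h6⟩ := exists_matrices L.pcond b₀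
  exact ⟨
  { R := L.R
    fin := L.fin
    κ := L.κ
    T := ρn.T
    cont := ρn.cont
    hρ := ρn.res
    det := fun i => by
      rw [ρn.det]
      exact cyc_frob p _ _ (G.LD.hq i) (G.LD.hA i) (G.LD.hpq i).symm (G.LD.hφ i)
    detσ := fun i => by
      rw [ρn.det]
      exact cyc_inertia p _ _ (G.LD.hq i) (G.LD.hA i) (G.LD.hpq i).symm (G.LD.hσ i)
    β := L.bt
    hβ := hsurj
    hβT := ρn.red
    hder := hder
    hder' := hder'
    X₁ := X₁
    X₂ := X₂
    hX₁ := fun s => ⟨_, h3 s⟩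
    hX₂ := fun s => ⟨_, h4 s⟩
    hX₁O := fun a => h3 _
    hX₂O := fun a => h4 _
    haug := fun t => by
      obtain ⟨t, rfl⟩ := Ideal.Quotient.mk_surjective t
      refine (h5 t).trans ?_
      rw [L.bt_mk, G.a₀_mk]
    hcong := h6
    J₁ := L.P₁ K
    y₁ := fun e => ι.comp (yy₁ e)
    hy₁ := fun e => RingHom.ext fun a => by
      rw [RingHom.comp_apply, RingHom.comp_apply, yy₁_O, hι]
    sep₁ := fun t ht => by
      rw [h1, ← toFN₁_eq_zero]
      by_contra hne
      obtain ⟨e, he⟩ := exists_P₁ hinj hne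
      apply he
      apply ι.injective
      rw [map_zero]
      exact ht e
    tr₁ := fun e i => by
      rw [RingHom.comp_apply, tr₁, map_ofNat]
    J₂ := L.P₂ K
    y₂ := fun e => ι.comp (yy₂ e)
    hy₂ := fun e => RingHom.ext fun a => by
      rw [RingHom.comp_apply, RingHom.comp_apply, yy₂_O, hι]
    sep₂ := fun t ht => by
      rw [h2, ← toFN₂_eq_zero]
      by_contra hne
      obtain ⟨e, he⟩ := exists_P₂ hinj hne
      apply he
      apply ι.injective
      rw [map_zero]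
      exact ht e
    tr₂ := fun e i h => by
      rw [RingHom.comp_apply, ← map_ofNat ι 2] at h
      exact tr₂ e i (ι.injective h) }⟩

end Level

end Fermat.Agent.TWG
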