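import Fermat.Agent.TWG.Low
import Fermat.Agent.RT.MazSt

/-!
# Mazur's principle in the form used by `low`
-/

set_option autoImplicit false

namespace Fermat.Agent.TWG

open Fermat.Agent.S43Glue

theorem mazG_of (H : RT.MazSt) {p : ℕ} [Fact p.Prime] (hp2 : p ≠ 2) : MazG p := by
  intro M q _ _ S ρ hq hqM hqp hS hpS hMS h3 hlev hdet hspan hunr hmod
  exact H p hp2 M q S ρ h3 hq hqM hqp hS hpS hMS hlev hdet hspan hunr hmod

end Fermat.Agent.TWG
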