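import Fermat.Agent.TWG.Core

/-!
# The point of the Hecke algebra unramified at the odd primes
-/

set_option autoImplicit false
set_option maxHeartbeats 400000

noncomputable section

namespace Fermat.Agent.TWG

open Fermat.Agent.TWInst

open IsLocalRing Matrix Fermat.Agent.DefRing Fermat.Agent.GalRep Fermat.Agent.TWPatch
  Fermat.Agent.TWLoc Fermat.Agent.TWGal CuspForm Fermat.Agent.AnJac Fermat.Agent.HeckeQ
  CongruenceSubgroup ModularFormClass
open Fermat.Agent.TWCoh hiding GQ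

local notation "Qbar" => AlgebraicClosure ℚ

attribute [local instance] algDk LevD.cnl

variable {p : ℕ} [hpf : Fact p.Prime] {O : Type} [CommRing O] [CNL O] (G : Glob p O)

theorem Glob.tf_M0 [IsDomain O] (a : O) (ha : a ≠ 0) (x : M0 O G.N G.τ) (h : a • x = 0) :
    x = 0 := by
  apply Subtype.ext
  apply MS.ext'
  intro u v
  have h1 : a * x.1.1 u v = 0 := by
    have h2 := congrArg (fun z : M0 O G.N G.τ => z.1.1 u v) h
    exact h2
  exact (mul_eq_zero.mp h1).resolve_left ha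

theorem Glob.free_M0 [IsDomain O] [IsDiscreteValuationRing O] : Module.Free O (M0 O G.N G.τ) := by
  haveI : Module.IsTorsionFree O (M0 O G.N G.τ) := by
    rw [Module.isTorsionFree_iff_smul_eq_zero]
    intro a x h
    by_cases ha : a = 0
    · exact Or.inl ha
    · exact Or.inr (G.tf_M0 a ha x h)
  haveI : Module.Finite O (M0 O G.N G.τ) := finite_loc
  exact Module.free_of_finite_type_torsion_free'

section

variable {G}

/-- **the point of the Hecke algebra unramified at the odd primes** -/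
theorem exists_point [IsDomain O] [IsDiscreteValuationRing O] [CharZero O] [Algebra ℤ_[p] O]
    [Module.Finite ℤ_[p] O] (htf : Function.Injective (algebraMap ℤ_[p] O))
    (HC : Carayol.CarayolCore)
    {CP : (GQ → Matrix (Fin 2) (Fin 2) (ResidueField O)) → Prop}
    (hCP : ∀ [Nontrivial (M0 O G.N G.τ)] [CNL G.R₀] (ρ₀ : Rep0 G) (r n : ℕ) (L : LevD G r n)
      (gn : heckeAlgebra L.NN 2 (bad L.Q) →+* L.R)
      (ρn : RepN (ρ₀ := ρ₀) gn) (ℓ : L.R → ResidueField O),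
      (∀ l : PS (bad L.Q), gn (gT L.pcond.dat₁.avoid l) = TN.T L.pcond l) →
      ℓ ∈ Der L.κ (jset G.LD G.ε ρn.T) → CP (coc ρn.T G.ρb ℓ))
    {r : ℕ} (hsel : SelH p G.Smin G.I G.S G.ρb CP r) :
    ∃ (D : Type) (_ : CommRing D) (_ : IsDomain D) (_ : CharZero D) (_ : CNL D)
      (_ : (p : D) ∈ maximalIdeal D) (x : heckeAlgebra G.N 2 G.S →+* D)
      (T : GQ →* Matrix (Fin 2) (Fin 2) D), MatCont T ∧
      Submodule.span D (Set.range T) = ⊤ ∧
      (∀ (ℓ : ℕ) (hℓ : ℓ.Prime) (hℓM : ¬ ℓ ∣ G.N) (hℓS : ℓ ∉ G.S),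
        ∀ A : ValuationSubring Qbar, A.LiesOverPrime ℓ → ∀ τ : GQ, A.IsFrobeniusAt τ ℓ →
          (T τ).trace = x (heckeAlgebra.T hℓ hℓM hℓS) ∧ (T τ).det = (ℓ : D)) ∧
      (∃ κ : D →+* ResidueField O, (∀ y ∈ maximalIdeal D, κ y = 0) ∧
        ∀ l : PS G.S, κ (x (gT G.not_dvd_N l)) = G.τ l) ∧
      ∀ q ∈ G.I, ∀ A : ValuationSubring Qbar, A.LiesOverPrime q →
        ∀ σ ∈ A.inertiaSubgroupIn ℚ, T σ = 1 := by
  haveI := G.nontrivial_M0
  haveI := G.free_M0
  haveI : Module.Finite O (M0 O G.N G.τ) := finite_loc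
  let b₀ := Module.finBasis O (M0 O G.N G.τ)
  haveI : NeZero (Module.finrank O (M0 O G.N G.τ)) := ⟨(Module.finrank_pos).ne'⟩
  haveI := G.cnl₀ b₀
  obtain ⟨φK, c, hinj, hφ, hc1, hc⟩ := exists_fields (p := p) O htf
  obtain ⟨x₀, hx₀⟩ := G.exists_x₀ φK hinj
  obtain ⟨ρ₀⟩ := exists_Rep0 x₀ hx₀
  let φC : O →+* ℂ_[p] := ((algebraicClosure ℚ_[p] ℂ_[p]).val : KK p →+* ℂ_[p]).comp φK
  have hφC : ∀ a, ‖φC a‖ ≤ 1 := hφ
  have hinjC : Function.Injective φC := fun a b hab => hinj (Subtype.ext hab)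
  obtain ⟨P, hP, hlam, hPσ⟩ := core (p := p) hφC (ρb := G.ρb) (L := G.LD) (ε := G.ε)
    (T₀ := ρ₀.T) (a₀ := G.a₀ b₀) (g := r - 3 * G.I.card) (r := r) hinjC hc1 hc G.hp2
    (norm_p_lt p) G.hpO G.hε G.hqm G.ha G.hm G.hζ G.hlam
    (by
      have := SelH_le hsel
      rw [Fintype.card_coe]
      omega) G.res G.κ₀ ρ₀.res
    (fun i => by
      rw [ρ₀.det]
      exact cyc_frob p _ _ (G.LD.hq i) (G.LD.hA i) (G.LD.hpq i).symm (G.LD.hφ i))
    (fun i => by
      rw [ρ₀.det]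
      exact cyc_inertia p _ _ (G.LD.hq i) (G.LD.hA i) (G.LD.hpq i).symm (G.LD.hσ i))
    (G.a₀_injective b₀)
    (fun n => (exists_level HC (hCP ρ₀) φK hinj hsel b₀ n).some)
  have hPtop : P ≠ ⊤ := hP.ne_top
  haveI := hP
  haveI : CNL (G.R₀ ⧸ P) := CNL.quotient hPtop
  haveI : IsLocalHom (Ideal.Quotient.mk P) :=
    IsLocalHom.of_surjective _ Ideal.Quotient.mk_surjective
  -- characteristic zero
  have hPO : ∀ a : O, algebraMap O G.R₀ a ∈ P → a = 0 := by
    intro a ha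
    by_contra hne
    obtain ⟨n, u, hu⟩ := IsDiscreteValuationRing.eq_unit_mul_pow_irreducible hne
      (show Irreducible G.lam from (IsDiscreteValuationRing.irreducible_iff_uniformizer _).mpr
        G.hlam)
    rw [hu, map_mul, map_pow] at ha
    rcases hP.mem_or_mem ha with h1 | h1
    · exact hPtop (Ideal.eq_top_of_isUnit_mem _ h1 (u.isUnit.map (algebraMap O G.R₀)))
    · exact hlam (hP.mem_of_pow_mem n h1)
  have hcz : CharZero (G.R₀ ⧸ P) := by
    constructor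
    intro a b hab
    rw [← map_natCast (Ideal.Quotient.mk P), ← map_natCast (Ideal.Quotient.mk P),
      Ideal.Quotient.mk_eq_mk_iff_sub_mem, ← map_natCast (algebraMap O G.R₀),
      ← map_natCast (algebraMap O G.R₀), ← map_sub] at hab
    exact_mod_cast sub_eq_zero.mp (hPO _ hab)
  have hpD : (p : G.R₀ ⧸ P) ∈ maximalIdeal (G.R₀ ⧸ P) := by
    rw [← map_natCast (Ideal.Quotient.mk P)]
    exact (IsLocalRing.mem_maximalIdeal _).mpr fun h =>
      (Glob.hpR₀ (G := G)) (isUnit_of_map_unit _ _ h)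
  have hTD : MatCont (mapT (Ideal.Quotient.mk P) ρ₀.T) := ρ₀.cont.map _ inferInstance
  refine ⟨G.R₀ ⧸ P, inferInstance, inferInstance, hcz, inferInstance, hpD,
    (Ideal.Quotient.mk P).comp x₀, mapT (Ideal.Quotient.mk P) ρ₀.T, hTD,
    span_map_eq_top _ ρ₀.span, ?_, ?_, ?_⟩
  · intro ℓ hℓ hℓM hℓS A hA τ hτ
    obtain ⟨h1, h2⟩ := ρ₀.frob ⟨ℓ, hℓ, hℓS⟩ A hA τ hτ
    refine ⟨?_, ?_⟩
    · rw [RingHom.comp_apply]
      have h3 := hx₀ ⟨ℓ, hℓ, hℓS⟩
      rw [← h1] at h3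
      have h4 : x₀ (heckeAlgebra.T hℓ hℓM hℓS) = (ρ₀.T τ).trace := h3
      rw [h4, Matrix.trace_fin_two, Matrix.trace_fin_two, map_add]
      rfl
    · change ((Ideal.Quotient.mk P).mapMatrix (ρ₀.T τ)).det = _
      rw [← RingHom.map_det, h2, map_natCast]
  · have hPle : ∀ a ∈ P, G.κ₀ a = 0 := fun a ha => by
      have h1 : a ∈ maximalIdeal G.R₀ := le_maximalIdeal hPtop ha
      rw [← ker_kappa G.κ₀] at h1
      exact h1
    let κ' : G.R₀ ⧸ P →+* ResidueField O :=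
      Ideal.Quotient.lift P (G.κ₀ : G.R₀ →+* ResidueField O) hPle
    have hκ' : ∀ y, κ' (Ideal.Quotient.mk P y) = G.κ₀ y := fun y => rfl
    refine ⟨κ', fun y hy => ?_, fun l => ?_⟩
    · obtain ⟨y, rfl⟩ := Ideal.Quotient.mk_surjective y
      have h1 : y ∈ maximalIdeal G.R₀ := by
        by_contra h
        exact hy ((not_not.mp h : IsUnit y).map (Ideal.Quotient.mk P))
      rw [← ker_kappa G.κ₀] at h1
      rw [hκ']
      exact h1
    · rw [RingHom.comp_apply, hκ', hx₀ l]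
      exact G.κ₀_T l
  · intro q hqI A hA σ hσ
    have hq : q.Prime := (G.hI q hqI).1
    have hLD : G.LD.q ⟨q, hqI⟩ = q := G.hLD _
    have hAi : (G.LD.A ⟨q, hqI⟩).LiesOverPrime q := by
      have := G.LD.hA ⟨q, hqI⟩
      rwa [hLD] at this
    have hpq : p ≠ q := by
      have := G.LD.hpq ⟨q, hqI⟩
      rwa [hLD] at this
    have hσ' : ∀ π : Qbar, π ^ p = q → G.LD.σ ⟨q, hqI⟩ π ≠ π := by
      have := G.LD.hσ' ⟨q, hqI⟩
      rwa [hLD] at this
    refine one_all_places hq hAi (fun σ hσ => ?_) hA hσ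
    refine eq_one_of_eq_one hTD hq hAi hpf.out hpq hpD ?_ (G.LD.hσ ⟨q, hqI⟩) hσ' ?_ hσ
    · intro σ hσ a b
      have h1 := sigma_sub_mem G.res ρ₀.res ⟨q, hqI⟩ hσ a b
      have h2 : (mapT (Ideal.Quotient.mk P) ρ₀.T σ - 1) a b =
          Ideal.Quotient.mk P ((ρ₀.T σ - 1) a b) := by
        rw [Matrix.sub_apply, Matrix.sub_apply, map_sub, Matrix.one_apply, Matrix.one_apply]
        split_ifs
        · rw [map_one]; rfl
        · rw [map_zero]; rfl
      rw [h2]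
      exact (IsLocalRing.mem_maximalIdeal _).mpr fun h => h1 (isUnit_of_map_unit _ _ h)
    · ext a b
      have h1 := hPσ ⟨q, hqI⟩ a b
      rw [← Ideal.Quotient.eq_zero_iff_mem, Matrix.sub_apply, map_sub, sub_eq_zero] at h1
      refine Eq.trans ?_ (h1.trans ?_)
      · rfl
      · rw [Matrix.one_apply, Matrix.one_apply]
        split_ifs
        · rw [map_one]
        · rw [map_zero]

end

end Fermat.Agent.TWG
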