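import Fermat.Agent.FlatLoc.Final2
import Fermat.Agent.GalRep.Final

/-!
# The Selmer conditions (general form)
-/

set_option autoImplicit false
set_option maxHeartbeats 400000

noncomputable section

namespace Fermat.Agent.TWG

open Fermat.Agent.GalRep Fermat.Agent.DefRing

local notation "Qbar" => AlgebraicClosure ℚ

/-- the Selmer conditions on cocycles: `Smin` is the set of primes with
unipotent condition, `I` is the set of primes with trivial (scalar) residual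
representation, `Q` the auxiliary primes, `CP` the condition at `p` -/
structure SelCoc {k : Type} [Field k] (p : ℕ) (Smin I Q : Finset ℕ)
    (ρb : GQ →* Matrix (Fin 2) (Fin 2) k)
    (CP : (GQ → Matrix (Fin 2) (Fin 2) k) → Prop) (c : GQ → Matrix (Fin 2) (Fin 2) k) : Prop where
  coc : FlatLoc.IsCock ρb c
  tr : ∀ σ, (c σ).trace = 0
  lev : FlatLoc.FinLev c 0
  unr : ∀ q : ℕ, q.Prime → q ≠ p → q ∉ Smin → q ∉ I → q ∉ Q → ∀ A : ValuationSubring Qbar,
    A.LiesOverPrime q → ∀ σ ∈ A.inertiaSubgroupIn ℚ, c σ = 0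
  spl : ∀ q ∈ I, ∀ A : ValuationSubring Qbar,
    A.LiesOverPrime q → ∀ σ ∈ A.decompositionSubgroup ℚ, c σ = 0
  uni : ∀ q : ℕ, q.Prime → q ∈ Smin → q ∉ I → q ≠ p → ∀ A : ValuationSubring Qbar,
    A.LiesOverPrime q → ∀ σ ∈ A.inertiaSubgroupIn ℚ, (c σ * ρb σ).trace = 0
  loc : CP c

/-- the Selmer bound -/
def SelH {k : Type} [Field k] (p : ℕ) (Smin I : Finset ℕ) (S : Set ℕ)
    (ρb : GQ →* Matrix (Fin 2) (Fin 2) k)
    (CP : (GQ → Matrix (Fin 2) (Fin 2) k) → Prop) (r : ℕ) : Prop :=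
  ∀ n : ℕ, ∃ Q : Finset ℕ, Q.card = r ∧
    (∀ q ∈ Q, q.Prime ∧ q ∉ S ∧ p ^ n ∣ q - 1 ∧
      ∃ α β : k, α ≠ β ∧ α * β = 1 ∧ ∀ A : ValuationSubring Qbar,
        A.LiesOverPrime q → ∀ τ : GQ, A.IsFrobeniusAt τ q → (ρb τ).trace = α + β) ∧
    ∃ Z : Submodule k (GQ → Matrix (Fin 2) (Fin 2) k),
      FiniteDimensional k Z ∧
      Module.finrank k Z + 3 * I.card ≤ r + 3 ∧
      (∀ c, SelCoc p Smin I Q ρb CP c → c ∈ Z) ∧
      ∀ X : Matrix (Fin 2) (Fin 2) k, X.trace = 0 →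
        (fun g => X - ρb g * X * ρb g⁻¹) ∈ Z

end Fermat.Agent.TWG
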