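import Fermat.Agent.TWG.Pts
import Fermat.Agent.TWCoh.NewPt2

/-!
# The traces of inertia at the primes of `I`, at the points of level `n`
-/

set_option autoImplicit false
set_option maxHeartbeats 400000

noncomputable section

namespace Fermat.Agent.TWG

open Fermat.Agent.TWInst

open IsLocalRing Matrix Fermat.Agent.DefRing Fermat.Agent.GalRep Fermat.Agent.TWPatch
  Fermat.Agent.TWLoc Fermat.Agent.TWGal CuspForm Fermat.Agent.AnJac Fermat.Agent.HeckeQ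
  CongruenceSubgroup ModularFormClass
open Fermat.Agent.TWCoh hiding GQ

local notation "Qbar" => AlgebraicClosure ℚ

attribute [local instance] algDk LevD.cnl

variable {p : ℕ} [hpf : Fact p.Prime] {O : Type} [CommRing O] [CNL O] {G : Glob p O}
  {K : Type} [Field K] [Algebra O K] {r n : ℕ} (L : LevD G r n)

theorem LevD.exists_D : ∃ D : ℕ, D ≠ 0 ∧ ∀ l : ℕ, l.Prime → ¬ l ∣ D → l ∉ bad L.Q := by
  classical
  refine ⟨∏ q ∈ L.bad_finite.toFinset.filter (· ≠ 0), q,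
    Finset.prod_ne_zero_iff.2 fun q hq => (Finset.mem_filter.mp hq).2, ?_⟩
  intro l hl hlD hlb
  exact hlD (Finset.dvd_prod_of_mem _ (Finset.mem_filter.mpr
    ⟨L.bad_finite.mem_toFinset.mpr hlb, hl.ne_zero⟩))

theorem LevD.prime_NN {q : ℕ} (hq : q.Prime) (h : q ∣ L.NN) : q ∈ bad L.Q := by
  rcases hq.dvd_mul.mp h with h1 | h1
  · rcases hq.dvd_mul.mp h1 with h2 | h2
    · exact Or.inl (G.hNS q hq h2)
    · rw [Prime.dvd_finsetProd_iff hq.prime] at h2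
      obtain ⟨l, hl, h3⟩ := h2
      exact Or.inr ⟨l, hl, ((Nat.prime_dvd_prime_iff_eq hq l.2.1).1 h3).symm⟩
  · rw [cdr, Prime.dvd_finsetProd_iff hq.prime] at h1
    obtain ⟨l, hl, h3⟩ := h1
    have h4 := (Nat.prime_dvd_prime_iff_eq hq (L.prime_allP hl)).1 h3
    rcases L.mem_allP.mp hl with ⟨j, hj⟩ | h5
    · exact Or.inr ⟨L.qs j, L.mem_Q.mpr ⟨j, rfl⟩, hj.trans h4.symm⟩
    · exact Or.inl (by rw [h4]; exact G.I_mem_S h5)

variable {L}

/-- the newform attached to a point of the first type -/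
theorem exists_newform₁ (e : L.P₁ K) (j : K →+* ℂ) :
    ∃ (M : ℕ) (_ : NeZero M) (g : CuspForm (Gamma0 M) 2), M ∣ L.NN ∧ g.IsNewform ∧
      (∀ l : PS (bad L.Q), qCoeff g l.1 = j (yy₁ e (TN.T L.pcond l))) ∧
      (∀ q ∈ G.I, ¬ q ^ 2 ∣ M) := by
  haveI := G.cnlDk n r
  obtain ⟨D, hD, hDS⟩ := L.exists_D
  obtain ⟨M, hM0, g, hM, hg, h1, h2, h3⟩ := e.2.exists_newform L.pcond.dat₁ j hD hDS
  refine ⟨M, hM0, g, hM, hg, fun l => ?_, fun q hq => ?_⟩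
  · rw [h1, yy₁, RingHom.comp_apply, toFN₁_T]
  · refine h3 q (L.mem_allP.mpr (Or.inr hq)) fun a => ?_
    have h4 : L.ψ₁ q = 1 := L.ψ₁_I hq
    rw [h4, MulChar.one_apply_coe, map_one]

/-- the newform attached to a point of the second type -/
theorem exists_newform₂ [CharZero K] [IsAlgClosed K] (hinj : Function.Injective (algebraMap O K)) (e : L.P₂ K) (j : K →+* ℂ) :
    ∃ (M : ℕ) (_ : NeZero M) (g : CuspForm (Gamma0 M) 2), M ∣ L.NN ∧ g.IsNewform ∧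
      (∀ l : PS (bad L.Q), qCoeff g l.1 = j (yy₂ e (TN.T L.pcond l))) ∧
      (∀ q ∈ G.I, q ^ 2 ∣ M) := by
  haveI := G.cnlDk n r
  obtain ⟨D, hD, hDS⟩ := L.exists_D
  obtain ⟨M, hM0, g, hM, hg, h1, h2, h3⟩ := e.2.exists_newform L.pcond.dat₂ j hD hDS
  refine ⟨M, hM0, g, hM, hg, fun l => ?_, fun q hq => ?_⟩
  · rw [h1, yy₂, RingHom.comp_apply, toFN₂_T]
  · refine h2 q (L.mem_allP.mpr (Or.inr hq)) ?_
    obtain ⟨u, hu⟩ := L.hχs ⟨q, hq⟩
    refine ⟨u, ?_⟩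
    have h4 : L.ψ₂ q = cchar (DG p n r) (L.χ q) := L.ψ₂_I hq
    rw [h4]
    have h5 : cchar (DG p n r) (L.χ q) u = algebraMap O (DRing O p n r) (L.χ q u) := rfl
    rw [h5, chHom_algebraMap, hu]
    intro h6
    have h7 : G.ζ ⟨q, hq⟩ = 1 := hinj (by rw [h6, map_one])
    have h8 := G.hζ ⟨q, hq⟩
    rw [h7, IsPrimitiveRoot.one_left_iff, Nat.pow_eq_one] at h8
    rcases h8 with h8 | h8
    · exact hpf.out.one_lt.ne' h8
    · exact G.ha _ h8

/-- the exponents of the level at the primes of `I` -/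
theorem factorization_eq_two {q M : ℕ} (hq : q ∈ G.I) (hM0 : M ≠ 0) (hM : M ∣ L.NN)
    (hq2 : q ^ 2 ∣ M) : M.factorization q = 2 := by
  classical
  have hqp : q.Prime := (G.hI q hq).1
  have hqP : q ∈ allP L.Q G.I := L.mem_allP.mpr (Or.inr hq)
  obtain ⟨N1, hN1, hqN1⟩ := L.pcond.ex hqP
  have h1 : cdr L.Q G.I = q * ∏ l ∈ (allP L.Q G.I).erase q, l := (Finset.mul_prod_erase _ _ hqP).symm
  have h2 : ¬ q ∣ ∏ l ∈ (allP L.Q G.I).erase q, l := by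
    rw [Prime.dvd_finsetProd_iff hqp.prime]
    rintro ⟨l, hl, h3⟩
    exact (Finset.mem_erase.mp hl).1
      ((Nat.prime_dvd_prime_iff_eq hqp (L.prime_allP (Finset.mem_erase.mp hl).2)).1 h3).symm
  have h3 : ¬ q ^ 3 ∣ L.NN := by
    rw [LevD.NN, hN1, h1]
    intro h4
    have h5 : q ^ 2 * q ∣ q ^ 2 * (N1 * ∏ l ∈ (allP L.Q G.I).erase q, l) := by
      rw [← pow_succ]
      convert h4 using 1
      ring
    have h6 := Nat.dvd_of_mul_dvd_mul_left (pow_pos hqp.pos 2) h5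
    rcases hqp.dvd_mul.mp h6 with h7 | h7
    · exact hqN1 h7
    · exact h2 h7
  have h4 : ¬ q ^ 3 ∣ M := fun h => h3 (h.trans hM)
  rw [hqp.pow_dvd_iff_le_factorization hM0] at h4 hq2
  omega

section Tr

variable [Nontrivial (M0 O G.N G.τ)] [CNL G.R₀] {ρ₀ : Rep0 G}
  {gn : heckeAlgebra L.NN 2 (bad L.Q) →+* L.R}

/-- Frobenius elements -/
theorem frobN (hg : ∀ l : PS (bad L.Q), gn (gT L.pcond.dat₁.avoid l) = TN.T L.pcond l)
    (ρn : RepN (ρ₀ := ρ₀) gn) (l : PS (bad L.Q)) (A : ValuationSubring Qbar)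
    (hA : A.LiesOverPrime l.1) (τ : GQ) (hτ : A.IsFrobeniusAt τ l.1) :
    (ρn.T τ).trace = TN.T L.pcond l ∧ (ρn.T τ).det = (l.1 : L.R) := by
  have hlp : ¬ l.1 ∣ L.NN * p := NN_p_of L l.2.1 (L.pcond.dat₁.avoid l)
    (fun h => l.2.2 (Or.inl (by rw [h]; exact G.hpS)))
  obtain ⟨h3, h4⟩ := ρn.frob l.1 l.2.1 hlp l.2.2 A hA τ hτ
  rw [piH_T _ l.2.1 hlp l.2.2] at h3
  exact ⟨h3.trans (hg l), h4⟩

/-- the trace of `σ i` at the points of the first type -/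
theorem tr₁_of (j : K →+* ℂ) (hg : ∀ l : PS (bad L.Q), gn (gT L.pcond.dat₁.avoid l) =
    TN.T L.pcond l) (ρn : RepN (ρ₀ := ρ₀) gn) (e : L.P₁ K) (i : G.I) :
    yy₁ e (ρn.T (G.LD.σ i)).trace = 2 := by
  obtain ⟨M, hM0, g, hM, hgn, h1, h2⟩ := exists_newform₁ e j
  have h3 := trace_eq_two_of_newform (p := p) (j.comp (yy₁ e)) L.bad_finite L.hpR ρn.cont
    (frobN hg ρn) hgn (fun q hq hqM => L.prime_NN hq (hqM.trans hM)) h1 (G.LD.hq i)
    (G.LD.hpq i).symm (by rw [G.hLD]; exact h2 i i.2) (G.LD.hA i) (G.LD.hσ i)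
  rw [RingHom.comp_apply, ← map_ofNat j 2] at h3
  exact j.injective h3

/-- the trace of `σ i` at the points of the second type -/
theorem tr₂_of [CharZero K] [IsAlgClosed K] (hinj : Function.Injective (algebraMap O K))
    (HC : Carayol.CarayolCore) (j : K →+* ℂ)
    (hg : ∀ l : PS (bad L.Q), gn (gT L.pcond.dat₁.avoid l) =
    TN.T L.pcond l) (ρn : RepN (ρ₀ := ρ₀) gn) (e : L.P₂ K) (i : G.I) :
    yy₂ e (ρn.T (G.LD.σ i)).trace ≠ 2 := by
  intro htr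
  obtain ⟨M, hM0, g, hM, hgn, h1, h2⟩ := exists_newform₂ hinj e j
  have hp2 : (i : ℕ) ^ 2 ∣ M := h2 i i.2
  exact not_unip_of_newform' (p := p) (j.comp (yy₂ e)) HC L.bad_finite L.hpR ρn.cont
    (frobN hg ρn) hgn (fun q hq hqM => L.prime_NN hq (hqM.trans hM)) h1 (G.LD.hq i)
    (G.LD.hpq i).symm (by rw [G.hLD]; exact factorization_eq_two i.2 hM0.out hM hp2)
    (G.LD.hA i) (fun σ hσ a b => sigma_sub_mem G.res ρn.res i hσ a b)
    (G.LD.hσ i) (G.LD.hσ' i)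
    (by rw [ρn.det, cyc_inertia p _ _ (G.LD.hq i) (G.LD.hA i) (G.LD.hpq i).symm (G.LD.hσ i)])
    (by rw [RingHom.comp_apply, htr, map_ofNat])

end Tr

end Fermat.Agent.TWG
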