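import Fermat.Agent.TWG.Ring

/-!
# The ring at level zero
-/

set_option autoImplicit false
set_option maxHeartbeats 400000

noncomputable section

namespace Fermat.Agent.TWG

open Fermat.Agent.TWInst

open IsLocalRing Matrix Fermat.Agent.DefRing Fermat.Agent.GalRep Fermat.Agent.TWPatch
  Fermat.Agent.TWLoc Fermat.Agent.TWGal CuspForm Fermat.Agent.AnJac Fermat.Agent.HeckeQ
open Fermat.Agent.TWCoh hiding GQ

local notation "Qbar" => AlgebraicClosure ℚ

attribute [local instance] algDk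

/-- conjugating a lift -/
theorem conj_lift {R R₀ : Type} [CommRing R] [IsLocalRing R] [CommRing R₀] [IsLocalRing R₀]
    (β : R →+* R₀) (hβ : Function.Surjective β) {T : GQ →* Matrix (Fin 2) (Fin 2) R}
    {T₀ : GQ →* Matrix (Fin 2) (Fin 2) R₀}
    (htr : ∀ g, β (T g).trace = (T₀ g).trace) (h : Submodule.span R (Set.range T) = ⊤)
    (h₀ : Submodule.span R₀ (Set.range T₀) = ⊤) :
    ∃ (T' : GQ →* Matrix (Fin 2) (Fin 2) R) (U U' : Matrix (Fin 2) (Fin 2) R),
      U * U' = 1 ∧ U' * U = 1 ∧ (∀ g, T' g = U * T g * U') ∧ ∀ g, (T' g).map β = T₀ g := by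
  haveI : IsLocalHom β := IsLocalHom.of_surjective _ hβ
  have htr' : ∀ g, (mapT β T g).trace = (T₀ g).trace := fun g => by
    rw [← htr, Matrix.trace_fin_two, Matrix.trace_fin_two, map_add]
    rfl
  have hmap1 : β.mapMatrix (1 : Matrix (Fin 2) (Fin 2) R) = 1 := map_one _
  have hsp : Submodule.span R₀ (Set.range (mapT β T)) = ⊤ := by
    rw [eq_top_iff]
    intro M _
    obtain ⟨M', hM'⟩ : ∃ M' : Matrix (Fin 2) (Fin 2) R, β.mapMatrix M' = M :=
      ⟨Matrix.of fun i j => Function.surjInv hβ (M i j), by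
        ext i j
        exact Function.surjInv_eq hβ (M i j)⟩
    have hX : M' ∈ Submodule.span R (Set.range T) := by rw [h]; trivial
    rw [← hM']
    clear hM'
    induction hX using Submodule.span_induction with
    | mem x hx => obtain ⟨g, rfl⟩ := hx; exact Submodule.subset_span ⟨g, rfl⟩
    | zero => rw [map_zero]; exact Submodule.zero_mem _
    | add x y _ _ hx hy => rw [map_add]; exact Submodule.add_mem _ hx hy
    | smul r x _ hx =>
      have : β.mapMatrix (r • x) = β r • β.mapMatrix x := by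
        ext i j
        change β ((r • x) i j) = _
        rw [Matrix.smul_apply, smul_eq_mul, map_mul]
        rfl
      rw [this]
      exact Submodule.smul_mem _ _ hx
  obtain ⟨Q, Q', hQQ', hQ'Q, hconj⟩ := exists_conj htr' hsp h₀
  let U : Matrix (Fin 2) (Fin 2) R := Matrix.of fun i j => Function.surjInv hβ (Q i j)
  have hU : β.mapMatrix U = Q := by
    ext i j
    exact Function.surjInv_eq hβ (Q i j)
  have hUdet : IsUnit U.det := by
    refine isUnit_of_map_unit β _ ?_
    rw [RingHom.map_det, hU]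
    have h2 := congrArg Matrix.det hQQ'
    rw [Matrix.det_mul, Matrix.det_one] at h2
    exact IsUnit.of_mul_eq_one _ h2
  have hU1 : U * U⁻¹ = 1 := Matrix.mul_nonsing_inv _ hUdet
  have hU2 : U⁻¹ * U = 1 := Matrix.nonsing_inv_mul _ hUdet
  obtain ⟨U', hU'⟩ : ∃ U', U' = U⁻¹ := ⟨_, rfl⟩
  rw [← hU'] at hU1 hU2
  let T' : GQ →* Matrix (Fin 2) (Fin 2) R :=
    { toFun := fun g => U * T g * U'
      map_one' := by rw [map_one, mul_one, hU1]
      map_mul' := fun g h => by
        rw [map_mul]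
        calc U * (T g * T h) * U' = U * T g * (U' * U) * T h * U' := by
              rw [hU2, mul_one]; simp only [mul_assoc]
          _ = _ := by simp only [mul_assoc] }
  refine ⟨T', U, U', hU1, hU2, fun _ => rfl, fun g => ?_⟩
  change β.mapMatrix (U * T g * U') = _
  have h1 : β.mapMatrix U' = Q' := by
    have h2 := congrArg β.mapMatrix hU1
    rw [map_mul, hmap1, hU] at h2
    calc β.mapMatrix U' = (Q' * Q) * β.mapMatrix U' := by rw [hQ'Q, one_mul]
      _ = Q' := by rw [mul_assoc, h2, mul_one]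
  rw [map_mul, map_mul, h1, hU]
  have h3 : Q * β.mapMatrix (T g) = T₀ g * Q := hconj g
  rw [h3, mul_assoc, hQQ', mul_one]

section Zero

variable {p : ℕ} [hpf : Fact p.Prime] {O : Type} [CommRing O] [CNL O] (G : Glob p O)

/-- the ring at level zero -/
abbrev Glob.R₀ : Type := T0 O G.N G.τ (Set.Subset.refl G.S)

theorem rnI_refl (t : HA O G.S) : rnI O (Set.Subset.refl G.S) t = t := by
  have : rnI O (Set.Subset.refl G.S) = AlgHom.id O _ := by
    apply MvPolynomial.algHom_ext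
    intro l
    rw [rnI_X]
    rfl
  rw [this]
  rfl

theorem Glob.mk₀_eq_zero {t : HA O G.S} :
    (Ideal.Quotient.mk _ t : G.R₀) = 0 ↔ ∀ x : M0 O G.N G.τ, t • x = 0 := by
  rw [Ideal.Quotient.eq_zero_iff_mem, Ideal.mem_comap, rnI_refl, Module.mem_annihilator]

variable {d : ℕ} (b₀ : Module.Basis (Fin d) O (M0 O G.N G.τ))

/-- the action on the module of level zero -/
def Glob.a₀ : G.R₀ →+* Matrix (Fin d) (Fin d) O :=
  Ideal.Quotient.lift _ (((LinearMap.toMatrixAlgEquiv b₀).toRingEquiv.toRingHom).comp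
    (Algebra.lsmul O O (M0 O G.N G.τ)).toRingHom) (fun t ht => by
      have h1 := (G.mk₀_eq_zero).mp (Ideal.Quotient.eq_zero_iff_mem.mpr ht)
      have h2 : (Algebra.lsmul O O (M0 O G.N G.τ) : HA O G.S →ₐ[O] Module.End O _) t = 0 :=
        LinearMap.ext h1
      change LinearMap.toMatrixAlgEquiv b₀ (Algebra.lsmul O O (M0 O G.N G.τ) t) = 0
      rw [h2, map_zero])

theorem Glob.a₀_mk (t : HA O G.S) : G.a₀ b₀ (Ideal.Quotient.mk _ t) =
    LinearMap.toMatrix b₀ b₀ (Algebra.lsmul O O (M0 O G.N G.τ) t : Module.End O _) := rfl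

theorem Glob.a₀_injective : Function.Injective (G.a₀ b₀) := by
  rw [injective_iff_map_eq_zero]
  intro t ht
  obtain ⟨t, rfl⟩ := Ideal.Quotient.mk_surjective t
  rw [G.a₀_mk] at ht
  rw [G.mk₀_eq_zero]
  have h1 := (LinearEquiv.map_eq_zero_iff (LinearMap.toMatrix b₀ b₀)).mp ht
  exact fun x => LinearMap.congr_fun h1 x

theorem Glob.a₀_smul (a : O) (t : G.R₀) : G.a₀ b₀ (a • t) = a • G.a₀ b₀ t := by
  obtain ⟨t, rfl⟩ := Ideal.Quotient.mk_surjective t
  have h1 : a • (Ideal.Quotient.mk _ t : G.R₀) = Ideal.Quotient.mk _ (a • t) := rfl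
  rw [h1, G.a₀_mk, G.a₀_mk, map_smul, map_smul]

include b₀ in
theorem Glob.fin₀ : Module.Finite O G.R₀ := by
  let g : G.R₀ →ₗ[O] Matrix (Fin d) (Fin d) O :=
    { toFun := G.a₀ b₀
      map_add' := map_add _
      map_smul' := G.a₀_smul b₀ }
  exact Module.Finite.of_injective g (G.a₀_injective b₀)

variable [Nontrivial (M0 O G.N G.τ)]

theorem Glob.exists_κ₀ : ∃ g : G.R₀ →ₐ[O] ResidueField O,
    ∀ l : PS G.S, g (T0.T (Set.Subset.refl G.S) l) = G.τ l := by
  obtain ⟨g, h1, h2⟩ := T0_local (O := O) (k := ResidueField O) (N := G.N) (τ := G.τ)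
    residue_surjective (Set.Subset.refl G.S)
  exact ⟨{ g with commutes' := h1 }, h2⟩

/-- the residue map of level zero -/
def Glob.κ₀ : G.R₀ →ₐ[O] ResidueField O := G.exists_κ₀.choose

theorem Glob.κ₀_T (l : PS G.S) : G.κ₀ (T0.T (Set.Subset.refl G.S) l) = G.τ l :=
  G.exists_κ₀.choose_spec l

theorem Glob.κ₀_mk (t : HA O G.S) :
    G.κ₀ (Ideal.Quotient.mk _ t) = MvPolynomial.aeval (R := O) G.τ t := by
  have h2 : G.κ₀.comp (Ideal.Quotient.mkₐ O _) = MvPolynomial.aeval (R := O) G.τ := by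
    apply MvPolynomial.algHom_ext
    intro l
    rw [MvPolynomial.aeval_X]
    exact G.κ₀_T l
  rw [← h2]
  rfl

theorem Glob.isLocal₀ : IsLocalRing G.R₀ := by
  have hmax := evI_isMaximal (Λ := O) (k := ResidueField O) residue_surjective G.τ
  have hm : (RingHom.ker (G.κ₀ : G.R₀ →+* ResidueField O)).IsMaximal :=
    RingHom.ker_isMaximal_of_surjective _ (kappa_surjective G.κ₀)
  refine IsLocalRing.of_unique_max_ideal ⟨_, hm, fun n hn => ?_⟩
  have hn' : (n.comap (Ideal.Quotient.mk ((Module.annihilator (HA O G.S)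
      (M0 O G.N G.τ)).comap (rnI O (Set.Subset.refl G.S))))).IsMaximal :=
    Ideal.comap_isMaximal_of_surjective _ Ideal.Quotient.mk_surjective
  have h1 := ann_maximal_eq (Λ := O) (M := M0 O G.N G.τ) residue_surjective
    (fun t ht x => loc_exists O _ ht x) hn' (fun t ht => by
      rw [Ideal.mem_comap, G.mk₀_eq_zero.mpr (Module.mem_annihilator.mp ht)]
      exact n.zero_mem)
  ext t
  obtain ⟨t, rfl⟩ := Ideal.Quotient.mk_surjective t
  rw [← Ideal.mem_comap, h1, mem_evI, RingHom.mem_ker]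
  change _ ↔ G.κ₀ (Ideal.Quotient.mk _ t) = 0
  rw [G.κ₀_mk]

/-- the algebra at level zero is complete -/
theorem Glob.cnl₀ {d : ℕ} (b₀ : Module.Basis (Fin d) O (M0 O G.N G.τ)) : CNL G.R₀ :=
  haveI := G.isLocal₀
  haveI := G.fin₀ b₀
  CNL.of_finite (O := O)

/-- generation -/
theorem Glob.adjoin₀ : Algebra.adjoin O (Set.range (T0.T (O := O) (N := G.N) (τ := G.τ)
    (Set.Subset.refl G.S))) = ⊤ := by
  rw [eq_top_iff]
  rintro x -
  obtain ⟨x, rfl⟩ := Ideal.Quotient.mk_surjective x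
  induction x using MvPolynomial.induction_on with
  | C r => exact Subalgebra.algebraMap_mem _ r
  | add p q hp hq => rw [map_add]; exact add_mem hp hq
  | mul_X p l hp => rw [map_mul]; exact mul_mem hp (Algebra.subset_adjoin ⟨l, rfl⟩)

/-- the map from the Hecke algebra of level `N` -/
theorem Glob.exists_x₀ {K : Type} [Field K] [CharZero K] (φC : O →+* K)
    (hinj : Function.Injective φC) : ∃ x₀ : heckeAlgebra G.N 2 G.S →+* G.R₀,
      ∀ l : PS G.S, x₀ (gT G.not_dvd_N l) = T0.T (Set.Subset.refl G.S) l :=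
  exists_heckeHom_M0 φC hinj (Set.Subset.refl G.S) G.not_dvd_N G.hNS
    (G.noneis G.N G.sqf.ne_zero)

variable {G}
variable {r n : ℕ} (L : LevD G r n)

/-- the polynomial map underlying `β` -/
def LevD.βp : HA (DRing O p n r) (bad L.Q) →+* G.R₀ :=
  (Ideal.Quotient.mk _).comp ((rn O L.Q).toRingHom.comp
    (MvPolynomial.map (aug O (DG p n r)).toRingHom))

theorem LevD.βp_X (l : PS (bad L.Q)) :
    L.βp (MvPolynomial.X l) = T0.T (Set.Subset.refl G.S) (inclPS (sub_bad L.Q) l) := by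
  change Ideal.Quotient.mk _ (rn O L.Q (MvPolynomial.map _ (MvPolynomial.X l))) = _
  rw [MvPolynomial.map_X, rn_X]
  rfl

theorem LevD.βp_C (x : DRing O p n r) :
    L.βp (MvPolynomial.C x) = algebraMap O _ (aug O (DG p n r) x) := by
  change Ideal.Quotient.mk _ (rn O L.Q (MvPolynomial.map _ (MvPolynomial.C x))) = _
  rw [MvPolynomial.map_C, ← MvPolynomial.algebraMap_eq, AlgHom.commutes]
  rfl

theorem LevD.βp_eq_zero {t : HA (DRing O p n r) (bad L.Q)}
    (ht : t ∈ annT (sub_bad L.Q) L.ψ₁ (allP L.Q G.I)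
      (MQ (N := G.N) (I := G.I) G.τ L.α L.pcond.cdr_dvd L.ψ₁)) : L.βp t = 0 := by
  haveI := G.cnlDk n r
  obtain ⟨π, hπ, -, h2⟩ := exists_pi L.pcond
  change Ideal.Quotient.mk _ (rn O L.Q (MvPolynomial.map _ t)) = (0 : G.R₀)
  rw [G.mk₀_eq_zero]
  intro y
  obtain ⟨x, rfl⟩ := hπ y
  rw [← h2, mem_annT.1 ht, map_zero]

/-- reduction to level zero, as a ring homomorphism -/
def LevD.btr : L.R →+* G.R₀ :=
  Ideal.Quotient.lift _ L.βp (fun _ ht => L.βp_eq_zero
    ((Submodule.mem_inf (p := annT (sub_bad L.Q) L.ψ₁ (allP L.Q G.I)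
      (MQ (N := G.N) (I := G.I) G.τ L.α L.pcond.cdr_dvd L.ψ₁))).mp ht).1)

/-- reduction to level zero -/
def LevD.bt : L.R →ₐ[O] G.R₀ :=
  { L.btr with
    commutes' := fun a => by
      change L.βp (algebraMap O _ a) = _
      have h1 : (algebraMap O (HA (DRing O p n r) (bad L.Q)) a) =
        MvPolynomial.C (algebraMap O (DRing O p n r) a) := rfl
      rw [h1, L.βp_C, AlgHom.commutes]
      rfl }

theorem LevD.bt_mk (t : HA (DRing O p n r) (bad L.Q)) :
    L.bt (Ideal.Quotient.mk _ t) = Ideal.Quotient.mk _ (rn O L.Q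
      (MvPolynomial.map (aug O (DG p n r)).toRingHom t)) := rfl

theorem LevD.bt_T (l : PS (bad L.Q)) :
    L.bt (TN.T L.pcond l) = T0.T (Set.Subset.refl G.S) (inclPS (sub_bad L.Q) l) := L.βp_X l

theorem LevD.bt_Λ (x : DRing O p n r) :
    L.bt (algebraMap _ L.R x) = algebraMap O _ (aug O (DG p n r) x) := L.βp_C x

/-- compatibility of the residue maps -/
theorem LevD.κ₀_bt (x : L.R) : G.κ₀ (L.bt x) = L.κ x := by
  have key : ∀ x ∈ Algebra.adjoin (DRing O p n r) (Set.range (TN.T L.pcond)),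
      G.κ₀ (L.bt x) = L.κ x := by
    intro x hx
    induction hx using Algebra.adjoin_induction with
    | mem x hx =>
      obtain ⟨l, rfl⟩ := hx
      rw [L.bt_T, G.κ₀_T, L.κ_T]
    | algebraMap a =>
      rw [L.bt_Λ, L.κ_Λ, AlgHom.commutes]
      rfl
    | add x y _ _ hx hy => rw [map_add, map_add, map_add, hx, hy]
    | mul x y _ _ hx hy => rw [map_mul, map_mul, map_mul, hx, hy]
  exact key x (by rw [TN.adjoin]; trivial)

end Zero

end Fermat.Agent.TWG
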